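import Mathlib
import Fermat.Prelude.Def_FLTPrelim_Ramification

/-!
# Inertia facts for valuation subrings (helper9, for S05)

For `A : ValuationSubring L`, `K ⊆ L`, and `σ ∈ A.inertiaSubgroupIn K`:
* `σ` stabilises `A` (`h9_inertia_mem_decomposition`, `h9_inertia_apply_mem_iff`),
* `σ` stabilises `A.nonunits` (`h9_inertia_apply_mem_nonunits_iff`),
* `σ` preserves the valuation (`h9_inertia_valuation_apply`),
* `σ a - a ∈ A.nonunits` for all `a ∈ A` (`h9_inertia_apply_sub_mem_nonunits`).
The first three hold more generally for the decomposition subgroup.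
-/

set_option autoImplicit false

namespace Fermat.Agent.H9

open scoped Pointwise

variable {K L : Type*} [Field K] [Field L] [Algebra K L]

theorem h9_decomposition_apply_mem (A : ValuationSubring L) {σ : L ≃ₐ[K] L}
    (hσ : σ ∈ A.decompositionSubgroup K) {x : L} (hx : x ∈ A) : σ x ∈ A := by
  rw [MulAction.mem_stabilizer_iff] at hσ
  have : σ • x ∈ σ • A := ValuationSubring.smul_mem_pointwise_smul σ x A hx
  rw [hσ] at this
  exact this

theorem h9_decomposition_apply_mem_iff (A : ValuationSubring L) {σ : L ≃ₐ[K] L}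
    (hσ : σ ∈ A.decompositionSubgroup K) {x : L} : σ x ∈ A ↔ x ∈ A := by
  refine ⟨fun h => ?_, h9_decomposition_apply_mem A hσ⟩
  have hinv : σ⁻¹ ∈ A.decompositionSubgroup K := inv_mem hσ
  have := h9_decomposition_apply_mem A hinv h
  have h2 : σ⁻¹ (σ x) = x := by
    show (σ⁻¹ * σ) x = x
    simp
  rwa [h2] at this

theorem h9_decomposition_apply_mem_nonunits_iff (A : ValuationSubring L) {σ : L ≃ₐ[K] L}
    (hσ : σ ∈ A.decompositionSubgroup K) {x : L} : σ x ∈ A.nonunits ↔ x ∈ A.nonunits := by
  rw [A.mem_nonunits_iff_or, A.mem_nonunits_iff_or, ← map_inv₀,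
    h9_decomposition_apply_mem_iff A hσ]
  simp

theorem h9_decomposition_valuation_le_iff (A : ValuationSubring L) {σ : L ≃ₐ[K] L}
    (hσ : σ ∈ A.decompositionSubgroup K) (x y : L) :
    A.valuation (σ x) ≤ A.valuation (σ y) ↔ A.valuation x ≤ A.valuation y := by
  by_cases hy : y = 0
  · subst hy
    simp
  have hσy : σ y ≠ 0 := by simpa using hy
  have h1 : A.valuation (σ x) ≤ A.valuation (σ y) ↔ σ (x / y) ∈ A := by
    rw [← A.valuation_le_one_iff, map_div₀, map_div₀]
    rw [div_le_one₀ (by
      rw [zero_lt_iff]; exact (A.valuation.ne_zero_iff).mpr hσy)]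
  have h2 : A.valuation x ≤ A.valuation y ↔ (x / y) ∈ A := by
    rw [← A.valuation_le_one_iff, map_div₀]
    rw [div_le_one₀ (by
      rw [zero_lt_iff]; exact (A.valuation.ne_zero_iff).mpr hy)]
  rw [h1, h2, h9_decomposition_apply_mem_iff A hσ]

theorem h9_decomposition_valuation_lt_iff (A : ValuationSubring L) {σ : L ≃ₐ[K] L}
    (hσ : σ ∈ A.decompositionSubgroup K) (x y : L) :
    A.valuation (σ x) < A.valuation (σ y) ↔ A.valuation x < A.valuation y := by
  rw [← not_le, ← not_le, h9_decomposition_valuation_le_iff A hσ]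

/-- In an algebraic extension every element has finite orbit under a given automorphism. -/
theorem h9_exists_pow_apply_eq (σ : L ≃ₐ[K] L) {x : L} (hx : IsAlgebraic K x) :
    ∃ n : ℕ, 0 < n ∧ (σ ^ n) x = x := by
  classical
  obtain ⟨p, hp0, hpx⟩ := hx
  let R : Set L := {y | Polynomial.aeval y p = 0}
  have hRfin : R.Finite := by
    have : R ⊆ ((p.map (algebraMap K L)).roots.toFinset : Set L) := by
      intro y hy
      simp only [Finset.mem_coe, Multiset.mem_toFinset]
      rw [Polynomial.mem_roots (Polynomial.map_ne_zero hp0), Polynomial.IsRoot,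
        Polynomial.eval_map_algebraMap]
      exact hy
    exact (Finset.finite_toSet _).subset this
  have hmem : ∀ k : ℕ, (σ ^ k) x ∈ R := by
    intro k
    show Polynomial.aeval ((σ ^ k) x) p = 0
    have : Polynomial.aeval (((σ ^ k : L ≃ₐ[K] L) : L →ₐ[K] L) x) p = 0 := by
      rw [Polynomial.aeval_algHom_apply, hpx, map_zero]
    exact this
  have hnotinj : ¬ Function.Injective (fun k : ℕ => (⟨(σ ^ k) x, hmem k⟩ : R)) := by
    have : Finite R := hRfin.to_subtype
    exact not_injective_infinite_finite _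
  rw [Function.Injective] at hnotinj
  push Not at hnotinj
  obtain ⟨i, j, hij, hne⟩ := hnotinj
  have hij' : (σ ^ i) x = (σ ^ j) x := congrArg Subtype.val hij
  wlog hlt : i < j generalizing i j
  · exact this j i hij.symm (Ne.symm hne) hij'.symm (lt_of_le_of_ne (not_lt.mp hlt) (Ne.symm hne))
  refine ⟨j - i, Nat.sub_pos_of_lt hlt, ?_⟩
  have hj : σ ^ j = σ ^ i * σ ^ (j - i) := by
    rw [← pow_add, Nat.add_sub_cancel' hlt.le]
  rw [hj] at hij'
  have : (σ ^ i) x = (σ ^ i) ((σ ^ (j - i)) x) := hij'
  exact ((σ ^ i).injective this).symm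

/-- The decomposition group preserves the valuation of elements with finite orbit
(e.g. algebraic elements). -/
theorem h9_decomposition_valuation_apply (A : ValuationSubring L) {σ : L ≃ₐ[K] L}
    (hσ : σ ∈ A.decompositionSubgroup K) {x : L} (hfix : ∃ n : ℕ, 0 < n ∧ (σ ^ n) x = x) :
    A.valuation (σ x) = A.valuation x := by
  obtain ⟨n, hn, hnx⟩ := hfix
  have hpow : ∀ k : ℕ, (σ ^ (k + 1)) x = σ ((σ ^ k) x) := by
    intro k
    rw [pow_succ']
    rfl
  rcases lt_trichotomy (A.valuation (σ x)) (A.valuation x) with h | h | h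
  · exfalso
    have key : ∀ k : ℕ, A.valuation ((σ ^ (k + 1)) x) < A.valuation x := by
      intro k
      induction k with
      | zero => simpa using h
      | succ k ih =>
        rw [hpow (k + 1)]
        exact lt_trans ((h9_decomposition_valuation_lt_iff A hσ _ _).mpr ih) h
    have := key (n - 1)
    rw [Nat.sub_add_cancel hn, hnx] at this
    exact lt_irrefl _ this
  · exact h
  · exfalso
    have key : ∀ k : ℕ, A.valuation x < A.valuation ((σ ^ (k + 1)) x) := by
      intro k
      induction k with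
      | zero => simpa using h
      | succ k ih =>
        rw [hpow (k + 1)]
        exact lt_trans h ((h9_decomposition_valuation_lt_iff A hσ _ _).mpr ih)
    have := key (n - 1)
    rw [Nat.sub_add_cancel hn, hnx] at this
    exact lt_irrefl _ this

theorem h9_decomposition_valuation_apply_of_isAlgebraic (A : ValuationSubring L)
    {σ : L ≃ₐ[K] L} (hσ : σ ∈ A.decompositionSubgroup K) {x : L} (hx : IsAlgebraic K x) :
    A.valuation (σ x) = A.valuation x :=
  h9_decomposition_valuation_apply A hσ (h9_exists_pow_apply_eq σ hx)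

theorem h9_inertia_mem_decomposition (A : ValuationSubring L) {σ : L ≃ₐ[K] L}
    (hσ : σ ∈ A.inertiaSubgroupIn K) : σ ∈ A.decompositionSubgroup K := by
  obtain ⟨τ, -, rfl⟩ := hσ
  exact τ.2

theorem h9_inertia_apply_mem_iff (A : ValuationSubring L) {σ : L ≃ₐ[K] L}
    (hσ : σ ∈ A.inertiaSubgroupIn K) {x : L} : σ x ∈ A ↔ x ∈ A :=
  h9_decomposition_apply_mem_iff A (h9_inertia_mem_decomposition A hσ)

theorem h9_inertia_apply_mem_nonunits_iff (A : ValuationSubring L) {σ : L ≃ₐ[K] L}
    (hσ : σ ∈ A.inertiaSubgroupIn K) {x : L} : σ x ∈ A.nonunits ↔ x ∈ A.nonunits :=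
  h9_decomposition_apply_mem_nonunits_iff A (h9_inertia_mem_decomposition A hσ)

theorem h9_inertia_valuation_apply (A : ValuationSubring L) {σ : L ≃ₐ[K] L}
    (hσ : σ ∈ A.inertiaSubgroupIn K) {x : L} (hx : IsAlgebraic K x) :
    A.valuation (σ x) = A.valuation x :=
  h9_decomposition_valuation_apply_of_isAlgebraic A (h9_inertia_mem_decomposition A hσ) hx

/-- Inertia acts trivially on the residue field: `σ a - a ∈ 𝔪_A` for `a ∈ A`. -/
theorem h9_inertia_apply_sub_mem_nonunits (A : ValuationSubring L) {σ : L ≃ₐ[K] L}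
    (hσ : σ ∈ A.inertiaSubgroupIn K) {a : L} (ha : a ∈ A) : σ a - a ∈ A.nonunits := by
  obtain ⟨τ, hτ, rfl⟩ := hσ
  have hker : MulSemiringAction.toRingAut (A.decompositionSubgroup K)
      (IsLocalRing.ResidueField A) τ = 1 := hτ
  have h1 : τ • (IsLocalRing.residue A ⟨a, ha⟩) = IsLocalRing.residue A ⟨a, ha⟩ := by
    have := congrArg (fun f : RingAut (IsLocalRing.ResidueField A) =>
      f (IsLocalRing.residue A ⟨a, ha⟩)) hker
    simpa using this
  rw [← IsLocalRing.ResidueField.residue_smul, ← sub_eq_zero, ← map_sub,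
    IsLocalRing.residue_eq_zero_iff, ← ValuationSubring.coe_mem_nonunits_iff] at h1
  exact h1

end Fermat.Agent.H9
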