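/-
helper4: elementary arithmetic of the Frey curve (piece (c) of helper5's S05 route).
-/
import Mathlib
import Fermat.Prelude.Def_FLTPrelim_FreyPackage
import Fermat.Prelude.Def_FLTPrelim_Ramification

set_option autoImplicit false

namespace Fermat.Agent.H4Frey

open WeierstrassCurve

/-! ### Coprimality of `a, b, c` -/

section Coprime

variable (P : FreyPackage)

theorem isCoprime_ab : IsCoprime P.a P.b := by
  have h : Int.gcd P.a P.b = 1 := by
    have := P.hgcdab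
    change ((Int.gcd P.a P.b : ℕ) : ℤ) = 1 at this
    exact_mod_cast this
  exact Int.isCoprime_iff_gcd_eq_one.mpr h

theorem isCoprime_ac : IsCoprime P.a P.c := by
  have h : Int.gcd P.a P.c = 1 := by
    have := P.hgcdac
    change ((Int.gcd P.a P.c : ℕ) : ℤ) = 1 at this
    exact_mod_cast this
  exact Int.isCoprime_iff_gcd_eq_one.mpr h

theorem isCoprime_bc : IsCoprime P.b P.c := by
  have h : Int.gcd P.b P.c = 1 := by
    have := P.hgcdbc
    change ((Int.gcd P.b P.c : ℕ) : ℤ) = 1 at this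
    exact_mod_cast this
  exact Int.isCoprime_iff_gcd_eq_one.mpr h

private theorem not_dvd_of_isCoprime {x y : ℤ} (h : IsCoprime x y) {q : ℕ} (hq : q.Prime)
    (hx : (q : ℤ) ∣ x) : ¬ (q : ℤ) ∣ y := by
  intro hy
  have hu : IsUnit (q : ℤ) := h.isUnit_of_dvd' hx hy
  have := Int.isUnit_iff.mp hu
  have h2 := hq.two_le
  omega

theorem not_dvd_b_of_dvd_a {q : ℕ} (hq : q.Prime) (h : (q : ℤ) ∣ P.a) : ¬ (q : ℤ) ∣ P.b :=
  not_dvd_of_isCoprime (isCoprime_ab P) hq h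

theorem not_dvd_c_of_dvd_a {q : ℕ} (hq : q.Prime) (h : (q : ℤ) ∣ P.a) : ¬ (q : ℤ) ∣ P.c :=
  not_dvd_of_isCoprime (isCoprime_ac P) hq h

theorem not_dvd_a_of_dvd_b {q : ℕ} (hq : q.Prime) (h : (q : ℤ) ∣ P.b) : ¬ (q : ℤ) ∣ P.a :=
  not_dvd_of_isCoprime (isCoprime_ab P).symm hq h

theorem not_dvd_c_of_dvd_b {q : ℕ} (hq : q.Prime) (h : (q : ℤ) ∣ P.b) : ¬ (q : ℤ) ∣ P.c :=
  not_dvd_of_isCoprime (isCoprime_bc P) hq h

theorem not_dvd_a_of_dvd_c {q : ℕ} (hq : q.Prime) (h : (q : ℤ) ∣ P.c) : ¬ (q : ℤ) ∣ P.a :=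
  not_dvd_of_isCoprime (isCoprime_ac P).symm hq h

theorem not_dvd_b_of_dvd_c {q : ℕ} (hq : q.Prime) (h : (q : ℤ) ∣ P.c) : ¬ (q : ℤ) ∣ P.b :=
  not_dvd_of_isCoprime (isCoprime_bc P).symm hq h

/-- A prime dividing `a * b * c` divides exactly one of `a`, `b`, `c`. -/
theorem dvd_abc_cases {q : ℕ} (hq : q.Prime) (h : (q : ℤ) ∣ P.a * P.b * P.c) :
    ((q : ℤ) ∣ P.a ∧ ¬ (q : ℤ) ∣ P.b ∧ ¬ (q : ℤ) ∣ P.c) ∨
    (¬ (q : ℤ) ∣ P.a ∧ (q : ℤ) ∣ P.b ∧ ¬ (q : ℤ) ∣ P.c) ∨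
    (¬ (q : ℤ) ∣ P.a ∧ ¬ (q : ℤ) ∣ P.b ∧ (q : ℤ) ∣ P.c) := by
  have hqp : Prime (q : ℤ) := Nat.prime_iff_prime_int.mp hq
  rcases hqp.dvd_mul.mp h with hab | hc
  · rcases hqp.dvd_mul.mp hab with ha | hb
    · exact Or.inl ⟨ha, not_dvd_b_of_dvd_a P hq ha, not_dvd_c_of_dvd_a P hq ha⟩
    · exact Or.inr (Or.inl ⟨not_dvd_a_of_dvd_b P hq hb, hb, not_dvd_c_of_dvd_b P hq hb⟩)
  · exact Or.inr (Or.inr ⟨not_dvd_a_of_dvd_c P hq hc, not_dvd_b_of_dvd_c P hq hc, hc⟩)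

/-- `q ∣ x ^ p ↔ q ∣ x` for a prime `q`. -/
theorem dvd_pow_iff {q : ℕ} (hq : q.Prime) (x : ℤ) : (q : ℤ) ∣ x ^ P.p ↔ (q : ℤ) ∣ x :=
  ⟨fun h => (Nat.prime_iff_prime_int.mp hq).dvd_of_dvd_pow h,
    fun h => dvd_pow h P.hp0⟩

end Coprime

/-! ### Invariants of the Frey curve over `ℚ` -/

section Invariants

variable (P : FreyPackage)

/-- `A = a ^ p`, `B = b ^ p`, `C = c ^ p` as rationals. -/
noncomputable abbrev AQ : ℚ := (P.a : ℚ) ^ P.p
noncomputable abbrev BQ : ℚ := (P.b : ℚ) ^ P.p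
noncomputable abbrev CQ : ℚ := (P.c : ℚ) ^ P.p

theorem AQ_add_BQ : AQ P + BQ P = CQ P := by
  have := P.hFLT
  have h2 : ((P.a ^ P.p + P.b ^ P.p : ℤ) : ℚ) = ((P.c ^ P.p : ℤ) : ℚ) := by rw [this]
  push_cast at h2
  exact h2

@[simp] theorem freyCurve_a₁ : P.freyCurve.a₁ = 1 := rfl
@[simp] theorem freyCurve_a₂ : P.freyCurve.a₂ = (BQ P - 1 - AQ P) / 4 := rfl
@[simp] theorem freyCurve_a₃ : P.freyCurve.a₃ = 0 := rfl
@[simp] theorem freyCurve_a₄ : P.freyCurve.a₄ = -(AQ P) * (BQ P) / 16 := rfl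
@[simp] theorem freyCurve_a₆ : P.freyCurve.a₆ = 0 := rfl

theorem freyCurve_b₂ : P.freyCurve.b₂ = BQ P - AQ P := by
  simp only [WeierstrassCurve.b₂, freyCurve_a₁, freyCurve_a₂]; ring

theorem freyCurve_b₄ : P.freyCurve.b₄ = -(AQ P * BQ P) / 8 := by
  simp only [WeierstrassCurve.b₄, freyCurve_a₁, freyCurve_a₃, freyCurve_a₄]; ring

theorem freyCurve_b₆ : P.freyCurve.b₆ = 0 := by
  simp only [WeierstrassCurve.b₆, freyCurve_a₃, freyCurve_a₆]; ring

theorem freyCurve_b₈ : P.freyCurve.b₈ = -(AQ P * BQ P) ^ 2 / 256 := by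
  simp only [WeierstrassCurve.b₈, freyCurve_a₁, freyCurve_a₂, freyCurve_a₃, freyCurve_a₄,
    freyCurve_a₆]; ring

theorem freyCurve_c₄ : P.freyCurve.c₄ = AQ P ^ 2 + AQ P * BQ P + BQ P ^ 2 := by
  simp only [WeierstrassCurve.c₄, freyCurve_b₂, freyCurve_b₄]; ring

theorem freyCurve_c₄' : P.freyCurve.c₄ = CQ P ^ 2 - AQ P * BQ P := by
  rw [freyCurve_c₄, ← AQ_add_BQ]; ring

theorem freyCurve_Δ : P.freyCurve.Δ = (AQ P * BQ P * CQ P) ^ 2 / 2 ^ 8 := by
  simp only [WeierstrassCurve.Δ, freyCurve_b₂, freyCurve_b₄, freyCurve_b₆, freyCurve_b₈]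
  rw [← AQ_add_BQ]; ring

theorem freyCurve_Δ' : P.freyCurve.Δ = ((P.a * P.b * P.c : ℤ) : ℚ) ^ (2 * P.p) / 2 ^ 8 := by
  rw [freyCurve_Δ]; push_cast; ring

theorem AQ_ne_zero : AQ P ≠ 0 := pow_ne_zero _ (by exact_mod_cast P.ha0)
theorem BQ_ne_zero : BQ P ≠ 0 := pow_ne_zero _ (by exact_mod_cast P.hb0)
theorem CQ_ne_zero : CQ P ≠ 0 := pow_ne_zero _ (by exact_mod_cast P.hc0)

theorem freyCurve_Δ_ne_zero : P.freyCurve.Δ ≠ 0 := by
  rw [freyCurve_Δ]
  have := AQ_ne_zero P; have := BQ_ne_zero P; have := CQ_ne_zero P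
  positivity

/-! #### The shifted invariants used in helper5's route.

For a root `x₀` of the 2-division cubic, put `b' = b₂ + 12 x₀`, `a' = (b₄ + x₀ b₂ + 6 x₀²) / 2`.
* `x₀ = 0`:      `b' = B - A`,   `a' = -(A B) / 16`, `b'² - 64 a' = C²`;
* `x₀ = A / 4`:  `b' = B + 2 A`, `a' = (A C) / 16`,  `b'² - 64 a' = B²`;
* `x₀ = -B / 4`: `b' = -(A + 2 B)`... (`= -2B - A`), `a' = (B C) / 16`, `b'² - 64 a' = A²`. -/

/-- The 2-division cubic `4x³ + b₂x² + 2b₄x + b₆` of the Frey curve factors as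
`4 x (x - A/4) (x + B/4)`. -/
theorem freyCurve_twoTorsion_cubic (x : ℚ) :
    4 * x ^ 3 + P.freyCurve.b₂ * x ^ 2 + 2 * P.freyCurve.b₄ * x + P.freyCurve.b₆ =
      4 * x * (x - AQ P / 4) * (x + BQ P / 4) := by
  rw [freyCurve_b₂, freyCurve_b₄, freyCurve_b₆]; ring

theorem shift0_b' : P.freyCurve.b₂ + 12 * 0 = BQ P - AQ P := by
  rw [freyCurve_b₂]; ring

theorem shift0_a' : (P.freyCurve.b₄ + 0 * P.freyCurve.b₂ + 6 * 0 ^ 2) / 2 = -(AQ P * BQ P) / 16 := by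
  rw [freyCurve_b₂, freyCurve_b₄]; ring

theorem shift0_disc : (BQ P - AQ P) ^ 2 - 64 * (-(AQ P * BQ P) / 16) = CQ P ^ 2 := by
  rw [← AQ_add_BQ]; ring

theorem shiftA_b' : P.freyCurve.b₂ + 12 * (AQ P / 4) = BQ P + 2 * AQ P := by
  rw [freyCurve_b₂]; ring

theorem shiftA_a' :
    (P.freyCurve.b₄ + (AQ P / 4) * P.freyCurve.b₂ + 6 * (AQ P / 4) ^ 2) / 2 = AQ P * CQ P / 16 := by
  rw [freyCurve_b₂, freyCurve_b₄, ← AQ_add_BQ]; ring

theorem shiftA_disc : (BQ P + 2 * AQ P) ^ 2 - 64 * (AQ P * CQ P / 16) = BQ P ^ 2 := by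
  rw [← AQ_add_BQ]; ring

theorem shiftB_b' : P.freyCurve.b₂ + 12 * (-(BQ P) / 4) = -(AQ P + 2 * BQ P) := by
  rw [freyCurve_b₂]; ring

theorem shiftB_a' :
    (P.freyCurve.b₄ + (-(BQ P) / 4) * P.freyCurve.b₂ + 6 * (-(BQ P) / 4) ^ 2) / 2 =
      BQ P * CQ P / 16 := by
  rw [freyCurve_b₂, freyCurve_b₄, ← AQ_add_BQ]; ring

theorem shiftB_disc : (-(AQ P + 2 * BQ P)) ^ 2 - 64 * (BQ P * CQ P / 16) = AQ P ^ 2 := by
  rw [← AQ_add_BQ]; ring

/-- `a' = -(ab)^p/16` is `(-1/16)` times the `p`-th power of the integer `a b`. -/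
theorem shift0_a'_eq_pow : -(AQ P * BQ P) / 16 = (-1 / 16 : ℚ) * (((P.a * P.b : ℤ) : ℚ)) ^ P.p := by
  push_cast; rw [mul_pow]; ring

theorem shiftA_a'_eq_pow : AQ P * CQ P / 16 = (1 / 16 : ℚ) * (((P.a * P.c : ℤ) : ℚ)) ^ P.p := by
  push_cast; rw [mul_pow]; ring

theorem shiftB_a'_eq_pow : BQ P * CQ P / 16 = (1 / 16 : ℚ) * (((P.b * P.c : ℤ) : ℚ)) ^ P.p := by
  push_cast; rw [mul_pow]; ring

end Invariants

/-! ### Invariants of the Frey curve after base change to a field `K ⊇ ℚ` -/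

section BaseChange

variable (P : FreyPackage) (K : Type*) [Field K] [Algebra ℚ K]

/-- `A = a ^ p`, `B = b ^ p`, `C = c ^ p` in `K`. -/
noncomputable abbrev AK : K := (P.a : K) ^ P.p
noncomputable abbrev BK : K := (P.b : K) ^ P.p
noncomputable abbrev CK : K := (P.c : K) ^ P.p

theorem algebraMap_AQ : algebraMap ℚ K (AQ P) = AK P K := by
  simp [AQ, AK]

theorem algebraMap_BQ : algebraMap ℚ K (BQ P) = BK P K := by
  simp [BQ, BK]

theorem algebraMap_CQ : algebraMap ℚ K (CQ P) = CK P K := by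
  simp [CQ, CK]

theorem AK_add_BK : AK P K + BK P K = CK P K := by
  rw [← algebraMap_AQ, ← algebraMap_BQ, ← algebraMap_CQ, ← map_add, AQ_add_BQ]

theorem baseChange_a₁ : (P.freyCurve.baseChange K).a₁ = 1 := by
  simp only [WeierstrassCurve.baseChange, WeierstrassCurve.map_a₁, freyCurve_a₁, map_one]

theorem baseChange_a₂ : (P.freyCurve.baseChange K).a₂ = (BK P K - 1 - AK P K) / 4 := by
  rw [← algebraMap_AQ P K, ← algebraMap_BQ P K]
  simp only [WeierstrassCurve.baseChange, WeierstrassCurve.map_a₂, freyCurve_a₂, map_div₀,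
    map_sub, map_one, map_ofNat]

theorem baseChange_a₃ : (P.freyCurve.baseChange K).a₃ = 0 := by
  simp only [WeierstrassCurve.baseChange, WeierstrassCurve.map_a₃, freyCurve_a₃, map_zero]

theorem baseChange_a₄ : (P.freyCurve.baseChange K).a₄ = -(AK P K) * (BK P K) / 16 := by
  rw [← algebraMap_AQ P K, ← algebraMap_BQ P K]
  simp only [WeierstrassCurve.baseChange, WeierstrassCurve.map_a₄, freyCurve_a₄, map_div₀,
    map_mul, map_neg, map_ofNat]

theorem baseChange_a₆ : (P.freyCurve.baseChange K).a₆ = 0 := by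
  simp only [WeierstrassCurve.baseChange, WeierstrassCurve.map_a₆, freyCurve_a₆, map_zero]

theorem baseChange_b₂ : (P.freyCurve.baseChange K).b₂ = BK P K - AK P K := by
  rw [WeierstrassCurve.baseChange, WeierstrassCurve.map_b₂, freyCurve_b₂, map_sub,
    algebraMap_AQ, algebraMap_BQ]

theorem baseChange_b₄ : (P.freyCurve.baseChange K).b₄ = -(AK P K * BK P K) / 8 := by
  rw [← algebraMap_AQ P K, ← algebraMap_BQ P K]
  simp only [WeierstrassCurve.baseChange, WeierstrassCurve.map_b₄, freyCurve_b₄, map_div₀,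
    map_mul, map_neg, map_ofNat]

theorem baseChange_b₆ : (P.freyCurve.baseChange K).b₆ = 0 := by
  rw [WeierstrassCurve.baseChange, WeierstrassCurve.map_b₆, freyCurve_b₆, map_zero]

theorem baseChange_b₈ : (P.freyCurve.baseChange K).b₈ = -(AK P K * BK P K) ^ 2 / 256 := by
  rw [← algebraMap_AQ P K, ← algebraMap_BQ P K]
  simp only [WeierstrassCurve.baseChange, WeierstrassCurve.map_b₈, freyCurve_b₈, map_div₀,
    map_mul, map_neg, map_pow, map_ofNat]

theorem baseChange_c₄ :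
    (P.freyCurve.baseChange K).c₄ = AK P K ^ 2 + AK P K * BK P K + BK P K ^ 2 := by
  rw [← algebraMap_AQ P K, ← algebraMap_BQ P K]
  simp only [WeierstrassCurve.baseChange, WeierstrassCurve.map_c₄, freyCurve_c₄, map_add,
    map_mul, map_pow]

theorem baseChange_Δ :
    (P.freyCurve.baseChange K).Δ = (AK P K * BK P K * CK P K) ^ 2 / 2 ^ 8 := by
  rw [← algebraMap_AQ P K, ← algebraMap_BQ P K, ← algebraMap_CQ P K]
  simp only [WeierstrassCurve.baseChange, WeierstrassCurve.map_Δ, freyCurve_Δ, map_div₀,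
    map_mul, map_pow, map_ofNat]

end BaseChange

/-! ### Integers in a valuation subring lying over a prime -/

section Valuation

variable {L : Type*} [Field L] (A : ValuationSubring L)

theorem intCast_mem (n : ℤ) : (n : L) ∈ A := by
  have : (n : L) = ((n : A) : L) := by push_cast; rfl
  rw [this]; exact Subtype.mem _

theorem natCast_mem (n : ℕ) : (n : L) ∈ A := by
  have : (n : L) = ((n : A) : L) := by push_cast; rfl
  rw [this]; exact Subtype.mem _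

variable {A}

theorem mem_nonunits_iff_intCast (m : ℤ) :
    (m : L) ∈ A.nonunits ↔ ((m : A)) ∈ IsLocalRing.maximalIdeal A := by
  rw [ValuationSubring.mem_nonunits_iff_exists_mem_maximalIdeal]
  constructor
  · rintro ⟨hm, h⟩
    have : (⟨(m : L), hm⟩ : A) = (m : A) := by ext; push_cast; rfl
    rwa [this] at h
  · intro h
    refine ⟨intCast_mem A m, ?_⟩
    have : (⟨(m : L), intCast_mem A m⟩ : A) = (m : A) := by ext; push_cast; rfl
    rwa [this]

/-- If `A` lies over the prime `q` then an integer is a nonunit of `A` iff `q` divides it. -/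
theorem intCast_mem_nonunits_iff {q : ℕ} (hq : q.Prime) (hA : A.LiesOverPrime q) (n : ℤ) :
    (n : L) ∈ A.nonunits ↔ (q : ℤ) ∣ n := by
  have hqmem : ((q : ℤ) : L) ∈ A.nonunits := by
    have : ((q : ℤ) : L) = (q : L) := by push_cast; rfl
    rw [this]; exact hA
  have hqA : (((q : ℤ) : A)) ∈ IsLocalRing.maximalIdeal A := (mem_nonunits_iff_intCast _).mp hqmem
  constructor
  · intro hn
    by_contra hdvd
    have hcop : IsCoprime (q : ℤ) n :=
      (Nat.prime_iff_prime_int.mp hq).coprime_iff_not_dvd.mpr hdvd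
    obtain ⟨u, v, huv⟩ := hcop
    have h1 : ((1 : ℤ) : A) ∈ IsLocalRing.maximalIdeal A := by
      rw [← huv, Int.cast_add, Int.cast_mul, Int.cast_mul]
      exact Ideal.add_mem _ (Ideal.mul_mem_left _ _ hqA)
        (Ideal.mul_mem_left _ _ ((mem_nonunits_iff_intCast n).mp hn))
    have h1' : (1 : A) ∈ IsLocalRing.maximalIdeal A := by
      rwa [Int.cast_one] at h1
    exact (Ideal.ne_top_iff_one _).mp (IsLocalRing.maximalIdeal.isMaximal A).ne_top h1'
  · rintro ⟨m, rfl⟩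
    rw [mem_nonunits_iff_intCast, Int.cast_mul]
    exact Ideal.mul_mem_right _ _ hqA

/-- If `A` lies over `q` and `q ∤ n` then `n` is a unit of `A`: `n⁻¹` lies in `A`. -/
theorem intCast_inv_mem {q : ℕ} (hq : q.Prime) (hA : A.LiesOverPrime q) {n : ℤ}
    (hn : ¬ (q : ℤ) ∣ n) : ((n : L))⁻¹ ∈ A := by
  have h1 : (n : L) ∉ A.nonunits := fun h => hn ((intCast_mem_nonunits_iff hq hA n).mp h)
  have hmem : (n : L) ∈ A := intCast_mem A n
  rw [ValuationSubring.mem_nonunits_iff] at h1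
  have hle : A.valuation (n : L) ≤ 1 := (ValuationSubring.valuation_le_one_iff A _).mpr hmem
  have heq : A.valuation (n : L) = 1 := le_antisymm hle (not_lt.mp h1)
  rw [← ValuationSubring.valuation_le_one_iff, map_inv₀, heq, inv_one]

/-- If `A` lies over `q` and `q ∤ n` then `A.valuation n = 1`. -/
theorem valuation_intCast_eq_one {q : ℕ} (hq : q.Prime) (hA : A.LiesOverPrime q) {n : ℤ}
    (hn : ¬ (q : ℤ) ∣ n) : A.valuation (n : L) = 1 := by
  have h1 : (n : L) ∉ A.nonunits := fun h => hn ((intCast_mem_nonunits_iff hq hA n).mp h)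
  have hmem : (n : L) ∈ A := intCast_mem A n
  rw [ValuationSubring.mem_nonunits_iff] at h1
  exact le_antisymm ((ValuationSubring.valuation_le_one_iff A _).mpr hmem) (not_lt.mp h1)

/-- If `A` lies over `q` and `q ∣ n` then `A.valuation n < 1`. -/
theorem valuation_intCast_lt_one {q : ℕ} (hq : q.Prime) (hA : A.LiesOverPrime q) {n : ℤ}
    (hn : (q : ℤ) ∣ n) : A.valuation (n : L) < 1 := by
  rw [← ValuationSubring.mem_nonunits_iff]
  exact (intCast_mem_nonunits_iff hq hA n).mpr hn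

end Valuation

end Fermat.Agent.H4Frey
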