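/-
S05 infrastructure (helper5): abstract "x-coordinate data" of a Weierstrass curve with a marked
2-torsion point, and the statement shapes of the valuation-theoretic lemmas built on it.

Mathematical meaning.  `G` = group of points, `xi P = x(P) - x₀` where `x₀` is the x-coordinate of
a marked 2-torsion point `T`, `om P = 2 y + a₁ x + a₃`, `al = a'`, `be = b'` with
`b' = b₂ + 12 x₀`, `2 a' = b₄ + x₀ b₂ + 6 x₀²` (so that `om² = xi (4 xi² + be xi + 4 al)`).
Values of `xi`, `om` at `0 : G` are junk (the instances use `0`).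
-/
import Mathlib.RingTheory.Valuation.ValuationSubring
import Mathlib.Tactic

namespace H5

/-- Abstract x-coordinate data (see file header). -/
structure XData (K : Type*) [Field K] (G : Type*) [AddCommGroup G] where
  /-- shifted x-coordinate -/
  xi : G → K
  /-- `2y + a₁x + a₃` -/
  om : G → K
  /-- `a'` -/
  al : K
  /-- `b'` -/
  be : K
  xi_neg : ∀ P, xi (-P) = xi P
  om_neg : ∀ P, om (-P) = -om P
  om_sq : ∀ P, P ≠ 0 → om P ^ 2 = xi P * (4 * xi P ^ 2 + be * xi P + 4 * al)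
  eq_of_xi_om : ∀ P Q, P ≠ 0 → Q ≠ 0 → xi P = xi Q → om P = om Q → P = Q
  sum_formula : ∀ P Q, P ≠ 0 → Q ≠ 0 → xi P ≠ xi Q →
    (xi (P + Q) + xi (P - Q)) * (xi P - xi Q) ^ 2 =
      xi P * xi Q * (2 * (xi P + xi Q) + be) + 2 * al * (xi P + xi Q)
  prod_formula : ∀ P Q, P ≠ 0 → Q ≠ 0 → xi P ≠ xi Q →
    (xi (P + Q) * xi (P - Q)) * (xi P - xi Q) ^ 2 = (xi P * xi Q - al) ^ 2
  dbl_formula : ∀ P, P ≠ 0 → P + P ≠ 0 → xi (P + P) * om P ^ 2 = (xi P ^ 2 - al) ^ 2

end H5
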