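/-
S05 piece (a) (helper29): identities for the x-coordinates of `P₁ ± P₂` and `2P` on a Weierstrass
curve over a field, derived from Mathlib's `slope`/`addX` formulas.  Unshifted versions use the
standard quantities `b₂ b₄ b₆ b₈`; shifted versions are relative to a root `x₀` of the
2-division polynomial `4x³ + b₂x² + 2b₄x + b₆`.
-/
import Mathlib.AlgebraicGeometry.EllipticCurve.Affine.Point

set_option autoImplicit false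
set_option linter.unusedSectionVars false
set_option linter.unusedVariables false

namespace Fermat.Agent.H29

open WeierstrassCurve

variable {F : Type*} [Field F] [DecidableEq F] (W : WeierstrassCurve.Affine F)

/-! ### Formula level, unshifted -/

/-- `(x(P₁+P₂) + x(P₁-P₂)) (x₁-x₂)² = 2x₁x₂(x₁+x₂) + b₂x₁x₂ + b₄(x₁+x₂) + b₆`. -/
theorem h29_addX_add_subX {x₁ x₂ y₁ y₂ : F} (h₁ : W.Equation x₁ y₁) (h₂ : W.Equation x₂ y₂)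
    (hx : x₁ ≠ x₂) :
    (W.addX x₁ x₂ (W.slope x₁ x₂ y₁ y₂) + W.addX x₁ x₂ (W.slope x₁ x₂ y₁ (W.negY x₂ y₂))) *
        (x₁ - x₂) ^ 2 =
      2 * x₁ * x₂ * (x₁ + x₂) + W.b₂ * x₁ * x₂ + W.b₄ * (x₁ + x₂) + W.b₆ := by
  rw [Affine.equation_iff] at h₁ h₂
  have hd : x₁ - x₂ ≠ 0 := sub_ne_zero.mpr hx
  rw [Affine.slope_of_X_ne hx, Affine.slope_of_X_ne hx]
  simp only [Affine.addX, Affine.negY, b₂, b₄, b₆]
  field_simp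
  linear_combination 2 * h₁ + 2 * h₂

/-- `x(P₁+P₂) x(P₁-P₂) (x₁-x₂)² = x₁²x₂² - b₄x₁x₂ - b₆(x₁+x₂) - b₈`. -/
theorem h29_addX_mul_subX {x₁ x₂ y₁ y₂ : F} (h₁ : W.Equation x₁ y₁) (h₂ : W.Equation x₂ y₂)
    (hx : x₁ ≠ x₂) :
    (W.addX x₁ x₂ (W.slope x₁ x₂ y₁ y₂) * W.addX x₁ x₂ (W.slope x₁ x₂ y₁ (W.negY x₂ y₂))) *
        (x₁ - x₂) ^ 2 =
      x₁ ^ 2 * x₂ ^ 2 - W.b₄ * x₁ * x₂ - W.b₆ * (x₁ + x₂) - W.b₈ := by
  rw [Affine.equation_iff] at h₁ h₂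
  have hd : x₁ - x₂ ≠ 0 := sub_ne_zero.mpr hx
  rw [Affine.slope_of_X_ne hx, Affine.slope_of_X_ne hx]
  simp only [Affine.addX, Affine.negY, b₄, b₆, b₈]
  field_simp
  grind

/-- `(2y + a₁x + a₃)² = 4x³ + b₂x² + 2b₄x + b₆` on the curve. -/
theorem h29_sq_two_y {x y : F} (h : W.Equation x y) :
    (2 * y + W.a₁ * x + W.a₃) ^ 2 = 4 * x ^ 3 + W.b₂ * x ^ 2 + 2 * W.b₄ * x + W.b₆ := by
  rw [Affine.equation_iff] at h
  simp only [b₂, b₄, b₆]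
  linear_combination 4 * h

/-- `y - negY x y = 2y + a₁x + a₃`. -/
theorem h29_sub_negY (x y : F) : y - W.negY x y = 2 * y + W.a₁ * x + W.a₃ := by
  simp only [Affine.negY]
  ring

/-- Duplication: `x(2P) (2y + a₁x + a₃)² = x⁴ - b₄x² - 2b₆x - b₈`. -/
theorem h29_dblX' {x y : F} (h : W.Equation x y) (hy : y ≠ W.negY x y) :
    W.addX x x (W.slope x x y y) * (2 * y + W.a₁ * x + W.a₃) ^ 2 =
      x ^ 4 - W.b₄ * x ^ 2 - 2 * W.b₆ * x - W.b₈ := by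
  have hd : y - W.negY x y ≠ 0 := sub_ne_zero.mpr hy
  rw [h29_sub_negY] at hd
  rw [Affine.slope_of_Y_ne rfl hy, h29_sub_negY]
  rw [Affine.equation_iff] at h
  generalize ht : 2 * y + W.a₁ * x + W.a₃ = t at hd ⊢
  generalize hn : 3 * x ^ 2 + 2 * W.a₂ * x + W.a₄ - W.a₁ * y = n
  have key : W.addX x x (n / t) * t ^ 2 = n ^ 2 + W.a₁ * n * t - (W.a₂ + 2 * x) * t ^ 2 := by
    simp only [Affine.addX]
    field_simp
    ring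
  rw [key, ← ht, ← hn]
  simp only [b₄, b₆, b₈]
  linear_combination (-(W.a₁ ^ 2 + 4 * W.a₂ + 8 * x)) * h

/-- Duplication: `x(2P) (4x³ + b₂x² + 2b₄x + b₆) = x⁴ - b₄x² - 2b₆x - b₈`. -/
theorem h29_dblX {x y : F} (h : W.Equation x y) (hy : y ≠ W.negY x y) :
    W.addX x x (W.slope x x y y) * (4 * x ^ 3 + W.b₂ * x ^ 2 + 2 * W.b₄ * x + W.b₆) =
      x ^ 4 - W.b₄ * x ^ 2 - 2 * W.b₆ * x - W.b₈ := by
  rw [← h29_sq_two_y W h]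
  exact h29_dblX' W h hy

/-! ### Formula level, shifted by a root `x₀` of the 2-division polynomial

`ξ = x - x₀`, `b' = b₂ + 12 x₀`, `2 a' = b₄ + x₀ b₂ + 6 x₀²`. -/

section Shifted

variable (h2 : (2 : F) ≠ 0) {x₀ a' : F}
  (hx₀ : 4 * x₀ ^ 3 + W.b₂ * x₀ ^ 2 + 2 * W.b₄ * x₀ + W.b₆ = 0)
  (ha : 2 * a' = W.b₄ + x₀ * W.b₂ + 6 * x₀ ^ 2)

include h2 hx₀ ha

/-- polynomial identity behind (S1) -/
theorem h29_S1_poly (x₁ x₂ : F) :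
    (x₁ ^ 2 * x₂ ^ 2 - W.b₄ * x₁ * x₂ - W.b₆ * (x₁ + x₂) - W.b₈)
      - x₀ * (2 * x₁ * x₂ * (x₁ + x₂) + W.b₂ * x₁ * x₂ + W.b₄ * (x₁ + x₂) + W.b₆)
      + x₀ ^ 2 * (x₁ - x₂) ^ 2 = ((x₁ - x₀) * (x₂ - x₀) - a') ^ 2 := by
  have h4 : (4 : F) ≠ 0 := by
    have : (4 : F) = 2 * 2 := by norm_num
    rw [this]; exact mul_ne_zero h2 h2
  have hb := W.b_relation
  apply mul_left_cancel₀ h4
  grind

/-- polynomial identity behind (S2) -/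
theorem h29_S2_poly (x₁ x₂ : F) :
    (2 * x₁ * x₂ * (x₁ + x₂) + W.b₂ * x₁ * x₂ + W.b₄ * (x₁ + x₂) + W.b₆)
      - 2 * x₀ * (x₁ - x₂) ^ 2 =
    (x₁ - x₀) * (x₂ - x₀) * (2 * ((x₁ - x₀) + (x₂ - x₀)) + (W.b₂ + 12 * x₀))
      + 2 * a' * ((x₁ - x₀) + (x₂ - x₀)) := by
  grind

/-- the 2-division polynomial in the shifted coordinate -/
theorem h29_twoDiv_shift (x : F) :
    4 * x ^ 3 + W.b₂ * x ^ 2 + 2 * W.b₄ * x + W.b₆ =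
      (x - x₀) * (4 * (x - x₀) ^ 2 + (W.b₂ + 12 * x₀) * (x - x₀) + 4 * a') := by
  grind

/-- polynomial identity behind (D) -/
theorem h29_D_poly (x : F) :
    (x ^ 4 - W.b₄ * x ^ 2 - 2 * W.b₆ * x - W.b₈)
      - x₀ * (4 * x ^ 3 + W.b₂ * x ^ 2 + 2 * W.b₄ * x + W.b₆) = ((x - x₀) ^ 2 - a') ^ 2 := by
  have h4 : (4 : F) ≠ 0 := by
    have : (4 : F) = 2 * 2 := by norm_num
    rw [this]; exact mul_ne_zero h2 h2
  have hb := W.b_relation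
  apply mul_left_cancel₀ h4
  grind

/-- **(S1)**: `ξ₊ ξ₋ (ξ₁ - ξ₂)² = (ξ₁ ξ₂ - a')²`. -/
theorem h29_S1 {x₁ x₂ y₁ y₂ : F} (h₁ : W.Equation x₁ y₁) (h₂ : W.Equation x₂ y₂)
    (hx : x₁ ≠ x₂) :
    (W.addX x₁ x₂ (W.slope x₁ x₂ y₁ y₂) - x₀) *
        (W.addX x₁ x₂ (W.slope x₁ x₂ y₁ (W.negY x₂ y₂)) - x₀) *
        ((x₁ - x₀) - (x₂ - x₀)) ^ 2 =
      ((x₁ - x₀) * (x₂ - x₀) - a') ^ 2 := by
  rw [← h29_S1_poly W h2 hx₀ ha x₁ x₂, ← h29_addX_mul_subX W h₁ h₂ hx,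
    ← h29_addX_add_subX W h₁ h₂ hx]
  ring

/-- **(S2)**: `(ξ₊ + ξ₋)(ξ₁ - ξ₂)² = ξ₁ξ₂(2(ξ₁+ξ₂) + b') + 2a'(ξ₁+ξ₂)`. -/
theorem h29_S2 {x₁ x₂ y₁ y₂ : F} (h₁ : W.Equation x₁ y₁) (h₂ : W.Equation x₂ y₂)
    (hx : x₁ ≠ x₂) :
    ((W.addX x₁ x₂ (W.slope x₁ x₂ y₁ y₂) - x₀) +
        (W.addX x₁ x₂ (W.slope x₁ x₂ y₁ (W.negY x₂ y₂)) - x₀)) *
        ((x₁ - x₀) - (x₂ - x₀)) ^ 2 =
      (x₁ - x₀) * (x₂ - x₀) * (2 * ((x₁ - x₀) + (x₂ - x₀)) + (W.b₂ + 12 * x₀))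
        + 2 * a' * ((x₁ - x₀) + (x₂ - x₀)) := by
  rw [← h29_S2_poly W h2 hx₀ ha x₁ x₂, ← h29_addX_add_subX W h₁ h₂ hx]
  ring

/-- **(D)**: `ξ(2P) · ξ(4ξ² + b'ξ + 4a') = (ξ² - a')²`. -/
theorem h29_D {x y : F} (h : W.Equation x y) (hy : y ≠ W.negY x y) :
    (W.addX x x (W.slope x x y y) - x₀) *
        ((x - x₀) * (4 * (x - x₀) ^ 2 + (W.b₂ + 12 * x₀) * (x - x₀) + 4 * a')) =
      ((x - x₀) ^ 2 - a') ^ 2 := by
  rw [← h29_D_poly W h2 hx₀ ha x, ← h29_twoDiv_shift W h2 hx₀ ha x, ← h29_dblX W h hy]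
  ring

/-- `(2y + a₁x + a₃)² = ξ(4ξ² + b'ξ + 4a')`. -/
theorem h29_sq_two_y_shift {x y : F} (h : W.Equation x y) :
    (2 * y + W.a₁ * x + W.a₃) ^ 2 =
      (x - x₀) * (4 * (x - x₀) ^ 2 + (W.b₂ + 12 * x₀) * (x - x₀) + 4 * a') := by
  rw [h29_sq_two_y W h, h29_twoDiv_shift W h2 hx₀ ha x]

end Shifted

/-! ### Point level -/

open Affine in
/-- For affine points with distinct `x`-coordinates, `P₁ + P₂` and `P₁ - P₂` are affine, and their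
`x`-coordinates satisfy the sum and product formulas. -/
theorem h29_exists_add_sub {x₁ x₂ y₁ y₂ : F} (h₁ : W.Nonsingular x₁ y₁)
    (h₂ : W.Nonsingular x₂ y₂) (hx : x₁ ≠ x₂) :
    ∃ (xp yp xm ym : F) (hp : W.Nonsingular xp yp) (hm : W.Nonsingular xm ym),
      Point.some _ _ h₁ + Point.some _ _ h₂ = Point.some _ _ hp ∧
      Point.some _ _ h₁ - Point.some _ _ h₂ = Point.some _ _ hm ∧
      xp = W.addX x₁ x₂ (W.slope x₁ x₂ y₁ y₂) ∧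
      xm = W.addX x₁ x₂ (W.slope x₁ x₂ y₁ (W.negY x₂ y₂)) ∧
      (xp + xm) * (x₁ - x₂) ^ 2 =
        2 * x₁ * x₂ * (x₁ + x₂) + W.b₂ * x₁ * x₂ + W.b₄ * (x₁ + x₂) + W.b₆ ∧
      (xp * xm) * (x₁ - x₂) ^ 2 =
        x₁ ^ 2 * x₂ ^ 2 - W.b₄ * x₁ * x₂ - W.b₆ * (x₁ + x₂) - W.b₈ := by
  have h₂' : W.Nonsingular x₂ (W.negY x₂ y₂) := (nonsingular_neg ..).mpr h₂
  refine ⟨_, _, _, _, nonsingular_add h₁ h₂ fun hxy => hx hxy.left,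
    nonsingular_add h₁ h₂' fun hxy => hx hxy.left, Point.add_of_X_ne hx, ?_, rfl, rfl,
    h29_addX_add_subX W h₁.1 h₂.1 hx, h29_addX_mul_subX W h₁.1 h₂.1 hx⟩
  rw [sub_eq_add_neg, Point.neg_some, Point.add_of_X_ne hx]

open Affine in
/-- For an affine point which is not 2-torsion, `2P` is affine and its `x`-coordinate satisfies the
duplication formula. -/
theorem h29_exists_double {x y : F} (h : W.Nonsingular x y) (hy : y ≠ W.negY x y) :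
    ∃ (xd yd : F) (hd : W.Nonsingular xd yd),
      Point.some _ _ h + Point.some _ _ h = Point.some _ _ hd ∧
      xd = W.addX x x (W.slope x x y y) ∧
      xd * (4 * x ^ 3 + W.b₂ * x ^ 2 + 2 * W.b₄ * x + W.b₆) =
        x ^ 4 - W.b₄ * x ^ 2 - 2 * W.b₆ * x - W.b₈ :=
  ⟨_, _, nonsingular_add h h fun hxy => hy hxy.right, Point.add_self_of_Y_ne hy, rfl,
    h29_dblX W h.1 hy⟩

end Fermat.Agent.H29
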