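/-
S05 curve side (helper29): the instance of helper5's abstract `H5.XData` for the group of points
`W.Point` of a Weierstrass curve over a field `F` with `2 ≠ 0`, relative to a root `x₀` of the
2-division polynomial `4x³ + b₂x² + 2b₄x + b₆`.

`xi (some x y) = x - x₀`, `om (some x y) = 2y + a₁x + a₃`, `xi 0 = om 0 = 0`,
`al = (b₄ + x₀ b₂ + 6 x₀²) / 2`, `be = b₂ + 12 x₀`.
-/
import Fermat.Agent.S05.XIdent
import Fermat.Agent.S05.XData

set_option autoImplicit false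

namespace Fermat.Agent.H29

open WeierstrassCurve

section Defs

variable {F : Type*} [Field F] (W : WeierstrassCurve.Affine F)

/-- shifted `x`-coordinate of a point (`0` at the point at infinity) -/
def h29_xi (x₀ : F) : W.Point → F
  | .zero => 0
  | @Affine.Point.some _ _ _ x _ _ => x - x₀

/-- `2y + a₁x + a₃` of a point (`0` at the point at infinity) -/
def h29_om : W.Point → F
  | .zero => 0
  | @Affine.Point.some _ _ _ x y _ => 2 * y + W.a₁ * x + W.a₃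

@[simp] theorem h29_xi_zero (x₀ : F) : h29_xi W x₀ 0 = 0 := rfl

@[simp] theorem h29_xi_some (x₀ : F) {x y : F} (h : W.Nonsingular x y) :
    h29_xi W x₀ (Affine.Point.some x y h) = x - x₀ := rfl

@[simp] theorem h29_om_zero : h29_om W 0 = 0 := rfl

@[simp] theorem h29_om_some {x y : F} (h : W.Nonsingular x y) :
    h29_om W (Affine.Point.some x y h) = 2 * y + W.a₁ * x + W.a₃ := rfl

theorem h29_xi_neg (x₀ : F) (P : W.Point) : h29_xi W x₀ (-P) = h29_xi W x₀ P := by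
  rcases P with _ | ⟨x, y, h⟩
  · rfl
  · rfl

theorem h29_om_neg (P : W.Point) : h29_om W (-P) = -h29_om W P := by
  rcases P with _ | ⟨x, y, h⟩
  · change (0 : F) = -0
    simp
  · change 2 * W.negY x y + W.a₁ * x + W.a₃ = -(2 * y + W.a₁ * x + W.a₃)
    rw [Affine.negY]
    ring

/-- a nonzero point is affine -/
theorem h29_exists_some {P : W.Point} (hP : P ≠ 0) :
    ∃ (x y : F) (h : W.Nonsingular x y), P = Affine.Point.some x y h := by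
  rcases P with _ | ⟨x, y, h⟩
  · exact absurd rfl hP
  · exact ⟨x, y, h, rfl⟩

end Defs

section Group

variable {F : Type*} [Field F] [DecidableEq F] (W : WeierstrassCurve.Affine F)

variable (h2 : (2 : F) ≠ 0) {x₀ : F}
  (hx₀ : 4 * x₀ ^ 3 + W.b₂ * x₀ ^ 2 + 2 * W.b₄ * x₀ + W.b₆ = 0)

omit [DecidableEq F] in
include h2 in
theorem h29_al_eq (x₀ : F) :
    2 * ((W.b₄ + x₀ * W.b₂ + 6 * x₀ ^ 2) / 2) = W.b₄ + x₀ * W.b₂ + 6 * x₀ ^ 2 := by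
  field_simp

include h2 hx₀ in
theorem h29_om_sq (P : W.Point) (hP : P ≠ 0) :
    h29_om W P ^ 2 = h29_xi W x₀ P *
      (4 * h29_xi W x₀ P ^ 2 + (W.b₂ + 12 * x₀) * h29_xi W x₀ P
        + 4 * ((W.b₄ + x₀ * W.b₂ + 6 * x₀ ^ 2) / 2)) := by
  obtain ⟨x, y, h, rfl⟩ := h29_exists_some W hP
  simp only [h29_om_some, h29_xi_some]
  exact h29_sq_two_y_shift W h2 hx₀ (h29_al_eq W h2 x₀) h.1

omit [DecidableEq F] in
include h2 in
theorem h29_eq_of_xi_om (x₀ : F) (P Q : W.Point) (hP : P ≠ 0) (hQ : Q ≠ 0)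
    (hxi : h29_xi W x₀ P = h29_xi W x₀ Q) (hom : h29_om W P = h29_om W Q) : P = Q := by
  obtain ⟨x₁, y₁, h₁, rfl⟩ := h29_exists_some W hP
  obtain ⟨x₂, y₂, h₂, rfl⟩ := h29_exists_some W hQ
  simp only [h29_om_some, h29_xi_some] at hxi hom
  have hx : x₁ = x₂ := by linear_combination hxi
  subst hx
  have hy : y₁ = y₂ := by
    apply mul_left_cancel₀ h2
    linear_combination hom
  subst hy
  rfl

include h2 hx₀ in
theorem h29_sum_formula (P Q : W.Point) (hP : P ≠ 0) (hQ : Q ≠ 0)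
    (hne : h29_xi W x₀ P ≠ h29_xi W x₀ Q) :
    (h29_xi W x₀ (P + Q) + h29_xi W x₀ (P - Q)) * (h29_xi W x₀ P - h29_xi W x₀ Q) ^ 2 =
      h29_xi W x₀ P * h29_xi W x₀ Q *
          (2 * (h29_xi W x₀ P + h29_xi W x₀ Q) + (W.b₂ + 12 * x₀))
        + 2 * ((W.b₄ + x₀ * W.b₂ + 6 * x₀ ^ 2) / 2) * (h29_xi W x₀ P + h29_xi W x₀ Q) := by
  obtain ⟨x₁, y₁, h₁, rfl⟩ := h29_exists_some W hP
  obtain ⟨x₂, y₂, h₂, rfl⟩ := h29_exists_some W hQ
  simp only [h29_xi_some] at hne ⊢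
  have hx : x₁ ≠ x₂ := fun h => hne (by rw [h])
  have hsub : Affine.Point.some x₁ y₁ h₁ - Affine.Point.some x₂ y₂ h₂ =
      Affine.Point.some x₁ y₁ h₁ + Affine.Point.some x₂ (W.negY x₂ y₂)
        ((Affine.nonsingular_neg ..).mpr h₂) := by
    rw [sub_eq_add_neg, Affine.Point.neg_some]
  rw [hsub, Affine.Point.add_of_X_ne hx, Affine.Point.add_of_X_ne hx]
  simp only [h29_xi_some]
  exact h29_S2 W h2 hx₀ (h29_al_eq W h2 x₀) h₁.1 h₂.1 hx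

include h2 hx₀ in
theorem h29_prod_formula (P Q : W.Point) (hP : P ≠ 0) (hQ : Q ≠ 0)
    (hne : h29_xi W x₀ P ≠ h29_xi W x₀ Q) :
    (h29_xi W x₀ (P + Q) * h29_xi W x₀ (P - Q)) * (h29_xi W x₀ P - h29_xi W x₀ Q) ^ 2 =
      (h29_xi W x₀ P * h29_xi W x₀ Q - (W.b₄ + x₀ * W.b₂ + 6 * x₀ ^ 2) / 2) ^ 2 := by
  obtain ⟨x₁, y₁, h₁, rfl⟩ := h29_exists_some W hP
  obtain ⟨x₂, y₂, h₂, rfl⟩ := h29_exists_some W hQ
  simp only [h29_xi_some] at hne ⊢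
  have hx : x₁ ≠ x₂ := fun h => hne (by rw [h])
  have hsub : Affine.Point.some x₁ y₁ h₁ - Affine.Point.some x₂ y₂ h₂ =
      Affine.Point.some x₁ y₁ h₁ + Affine.Point.some x₂ (W.negY x₂ y₂)
        ((Affine.nonsingular_neg ..).mpr h₂) := by
    rw [sub_eq_add_neg, Affine.Point.neg_some]
  rw [hsub, Affine.Point.add_of_X_ne hx, Affine.Point.add_of_X_ne hx]
  simp only [h29_xi_some]
  exact h29_S1 W h2 hx₀ (h29_al_eq W h2 x₀) h₁.1 h₂.1 hx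

include h2 hx₀ in
theorem h29_dbl_formula (P : W.Point) (hP : P ≠ 0) (hPP : P + P ≠ 0) :
    h29_xi W x₀ (P + P) * h29_om W P ^ 2 =
      (h29_xi W x₀ P ^ 2 - (W.b₄ + x₀ * W.b₂ + 6 * x₀ ^ 2) / 2) ^ 2 := by
  obtain ⟨x, y, h, rfl⟩ := h29_exists_some W hP
  have hy : y ≠ W.negY x y := by
    intro hy
    apply hPP
    exact Affine.Point.add_of_Y_eq rfl hy
  rw [Affine.Point.add_self_of_Y_ne hy]
  simp only [h29_xi_some, h29_om_some]
  rw [h29_sq_two_y_shift W h2 hx₀ (h29_al_eq W h2 x₀) h.1]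
  exact h29_D W h2 hx₀ (h29_al_eq W h2 x₀) h.1 hy

/-- **The curve-side instance of `H5.XData`.** -/
def h29_xdata (x₀ : F)
    (hx₀ : 4 * x₀ ^ 3 + W.b₂ * x₀ ^ 2 + 2 * W.b₄ * x₀ + W.b₆ = 0) :
    H5.XData F W.Point where
  xi := h29_xi W x₀
  om := h29_om W
  al := (W.b₄ + x₀ * W.b₂ + 6 * x₀ ^ 2) / 2
  be := W.b₂ + 12 * x₀
  xi_neg := h29_xi_neg W x₀
  om_neg := h29_om_neg W
  om_sq := h29_om_sq W h2 hx₀
  eq_of_xi_om := h29_eq_of_xi_om W h2 x₀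
  sum_formula := h29_sum_formula W h2 hx₀
  prod_formula := h29_prod_formula W h2 hx₀
  dbl_formula := h29_dbl_formula W h2 hx₀

@[simp] theorem h29_xdata_xi (x₀ : F)
    (hx₀ : 4 * x₀ ^ 3 + W.b₂ * x₀ ^ 2 + 2 * W.b₄ * x₀ + W.b₆ = 0) :
    (h29_xdata W h2 x₀ hx₀).xi = h29_xi W x₀ := rfl

@[simp] theorem h29_xdata_om (x₀ : F)
    (hx₀ : 4 * x₀ ^ 3 + W.b₂ * x₀ ^ 2 + 2 * W.b₄ * x₀ + W.b₆ = 0) :
    (h29_xdata W h2 x₀ hx₀).om = h29_om W := rfl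

@[simp] theorem h29_xdata_al (x₀ : F)
    (hx₀ : 4 * x₀ ^ 3 + W.b₂ * x₀ ^ 2 + 2 * W.b₄ * x₀ + W.b₆ = 0) :
    (h29_xdata W h2 x₀ hx₀).al = (W.b₄ + x₀ * W.b₂ + 6 * x₀ ^ 2) / 2 := rfl

@[simp] theorem h29_xdata_be (x₀ : F)
    (hx₀ : 4 * x₀ ^ 3 + W.b₂ * x₀ ^ 2 + 2 * W.b₄ * x₀ + W.b₆ = 0) :
    (h29_xdata W h2 x₀ hx₀).be = W.b₂ + 12 * x₀ := rfl

end Group

end Fermat.Agent.H29
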