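/-
S05 curve side (helper29): Galois-equivariance of the shifted `x`-coordinate `h29_xi` and of
`h29_om = 2y + a₁x + a₃` for the action of `K ≃ₐ[S] K` on `(W'⁄K).Point` defined in the prelude.
-/
import Fermat.Agent.S05.XInst
import Fermat.Prelude.Def_FLTPrelim_GaloisRep

set_option autoImplicit false

namespace Fermat.Agent.H29

open WeierstrassCurve WeierstrassCurve.Affine WeierstrassCurve.Affine.Point

variable {R : Type*} {S : Type*} {K : Type*} [CommRing R] [CommRing S] [Field K]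
  [DecidableEq K] {W' : Affine R} [Algebra R S] [Algebra R K] [Algebra S K]
  [IsScalarTower R S K]

theorem h29_smul_zero (σ : K ≃ₐ[S] K) : σ • (0 : (W'⁄K).Point) = 0 := rfl

theorem h29_smul_some (σ : K ≃ₐ[S] K) {x y : K} (h : (W'⁄K).Nonsingular x y) :
    σ • (Affine.Point.some x y h : (W'⁄K).Point) =
      Affine.Point.some (σ x) (σ y)
        ((W'.baseChange_nonsingular σ.toAlgHom.injective ..).mpr h) := rfl

theorem h29_smul_eq_zero_iff (σ : K ≃ₐ[S] K) (P : (W'⁄K).Point) : σ • P = 0 ↔ P = 0 := by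
  rcases P with _ | ⟨x, y, h⟩
  · exact ⟨fun _ => rfl, fun _ => rfl⟩
  · constructor
    · intro h'
      rw [h29_smul_some] at h'
      exact absurd h' (by intro h''; cases h'')
    · intro h'
      cases h'

omit [DecidableEq K] in
/-- `σ` fixes the coefficients of a base-changed curve. -/
theorem h29_algEquiv_algebraMap (σ : K ≃ₐ[S] K) (r : R) :
    σ (algebraMap R K r) = algebraMap R K r := by
  rw [IsScalarTower.algebraMap_apply R S K, σ.commutes]

theorem h29_xi_smul (σ : K ≃ₐ[S] K) (x₀ : K) (hx₀ : σ x₀ = x₀) (P : (W'⁄K).Point) :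
    h29_xi (W'⁄K) x₀ (σ • P) = σ (h29_xi (W'⁄K) x₀ P) := by
  rcases P with _ | ⟨x, y, h⟩
  · change (0 : K) = σ 0
    rw [_root_.map_zero]
  · rw [h29_smul_some]
    simp only [h29_xi_some, map_sub, hx₀]

theorem h29_om_smul (σ : K ≃ₐ[S] K) (P : (W'⁄K).Point) :
    h29_om (W'⁄K) (σ • P) = σ (h29_om (W'⁄K) P) := by
  rcases P with _ | ⟨x, y, h⟩
  · change (0 : K) = σ 0
    rw [_root_.map_zero]
  · rw [h29_smul_some]
    simp only [h29_om_some, map_add, map_mul, map_ofNat]
    have h1 : σ ((W'⁄K).a₁) = (W'⁄K).a₁ := h29_algEquiv_algebraMap σ W'.a₁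
    have h3 : σ ((W'⁄K).a₃) = (W'⁄K).a₃ := h29_algEquiv_algebraMap σ W'.a₃
    rw [h1, h3]

end Fermat.Agent.H29
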