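/-
S05 final assembly (helper6): from the abstract theorem `H5.torsion_fixed` (helper5, passed here as
a hypothesis `htf` so that this file does not depend on it), the curve-side instance (helper29),
the Frey arithmetic (helper4) and the inertia facts (helper9), deduce that the mod-`p`
representation of the Frey curve is unramified at every odd prime `q ≠ p`.
-/
import Fermat.Agent.S05.XGalois
import Fermat.Agent.S05.FreyArith
import Fermat.Agent.S05.Inertia
import Fermat.Prelude.Def_FLTPrelim_Ramification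

set_option autoImplicit false

namespace Fermat.Agent.H6

open WeierstrassCurve WeierstrassCurve.Affine WeierstrassCurve.Affine.Point
open Fermat.Agent.H29 Fermat.Agent.H4Frey Fermat.Agent.H9

local notation "Qbar" => AlgebraicClosure ℚ

/-- The statement of `H5.torsion_fixed`, specialised to `K = ℚ̄` and a group `G : Type`. -/
def H6TorsionFixed (G : Type) [AddCommGroup G] : Prop :=
  ∀ (D : H5.XData Qbar G) (A : ValuationSubring Qbar)
    (_h2 : A.valuation (2 : Qbar) = 1)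
    (_hal : A.valuation D.al ≤ 1) (_hal0 : D.al ≠ 0) (_hbe : A.valuation D.be ≤ 1)
    (_hdisc : A.valuation (D.be ^ 2 - 64 * D.al) = 1)
    {p : ℕ} (_hpp : p.Prime) (_hp5 : 5 ≤ p) (_hp : A.valuation (p : Qbar) = 1)
    (π : Qbar) (_hπ : A.valuation D.al = A.valuation π ^ p)
    (σK : Qbar →+* Qbar) (σG : G →+ G)
    (_hσxi : ∀ P, P ≠ 0 → D.xi (σG P) = σK (D.xi P))
    (_hσom : ∀ P, P ≠ 0 → D.om (σG P) = σK (D.om P))
    (_hσ0 : ∀ P, σG P = 0 → P = 0)
    (_hσv : ∀ x, A.valuation (σK x) = A.valuation x)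
    (_hσm : ∀ x, A.valuation x ≤ 1 → A.valuation (σK x - x) < 1)
    (_hσπ : σK π = π)
    {P : G} (_hpP : p • P = 0), σG P = P

/-! ### Valuation facts for integers -/

section Val

variable {L : Type*} [Field L] {A : ValuationSubring L}

theorem h6_val_intCast_le_one (n : ℤ) : A.valuation (n : L) ≤ 1 :=
  (ValuationSubring.valuation_le_one_iff A _).mpr (H4Frey.intCast_mem A n)

theorem h6_val_two {q : ℕ} (hq : q.Prime) (hq2 : q ≠ 2) (hA : A.LiesOverPrime q) :
    A.valuation (2 : L) = 1 := by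
  have h : ¬ (q : ℤ) ∣ (2 : ℤ) := by
    intro h
    have h' : q ∣ 2 := by exact_mod_cast h
    exact hq2 ((Nat.prime_dvd_prime_iff_eq hq Nat.prime_two).mp h')
  have := valuation_intCast_eq_one (L := L) hq hA h
  simpa using this

theorem h6_val_sixteen {q : ℕ} (hq : q.Prime) (hq2 : q ≠ 2) (hA : A.LiesOverPrime q) :
    A.valuation (16 : L) = 1 := by
  have h16 : (16 : L) = 2 ^ 4 := by norm_num
  rw [h16, map_pow, h6_val_two hq hq2 hA, one_pow]

theorem h6_val_prime {q p : ℕ} (hq : q.Prime) (hp : p.Prime) (hqp : q ≠ p)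
    (hA : A.LiesOverPrime q) : A.valuation (p : L) = 1 := by
  have h : ¬ (q : ℤ) ∣ (p : ℤ) := by
    intro h
    have h' : q ∣ p := by exact_mod_cast h
    exact hqp ((Nat.prime_dvd_prime_iff_eq hq hp).mp h')
  have := valuation_intCast_eq_one (L := L) hq hA h
  simpa using this

end Val

/-! ### The assembly -/

section Assembly

variable (P : FreyPackage)

/-- the Galois action on points as an additive monoid homomorphism -/
noncomputable def h6_sigmaG (σ : Qbar ≃ₐ[ℚ] Qbar) :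
    ((P.freyCurve)⁄Qbar).Point →+ ((P.freyCurve)⁄Qbar).Point :=
  DistribSMul.toAddMonoidHom _ σ

@[simp] theorem h6_sigmaG_apply (σ : Qbar ≃ₐ[ℚ] Qbar) (x : ((P.freyCurve)⁄Qbar).Point) :
    h6_sigmaG P σ x = σ • x := rfl

theorem h6_two_ne_zero : (2 : Qbar) ≠ 0 := two_ne_zero

/-- Core: any `p`-torsion point of the Frey curve is fixed by inertia at an odd prime `q ≠ p`. -/
theorem h6_point_fixed (htf : H6TorsionFixed ((P.freyCurve)⁄Qbar).Point)
    {q : ℕ} (hq : q.Prime) (hq2 : q ≠ 2) (hqp : q ≠ P.p)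
    (A : ValuationSubring Qbar) (hA : A.LiesOverPrime q)
    (σ : Qbar ≃ₐ[ℚ] Qbar) (hσ : σ ∈ A.inertiaSubgroupIn ℚ)
    (x : ((P.freyCurve)⁄Qbar).Point) (hx : P.p • x = 0) : σ • x = x := by
  have h2 : (2 : Qbar) ≠ 0 := two_ne_zero
  have hv2 : A.valuation (2 : Qbar) = 1 := h6_val_two hq hq2 hA
  have hv16 : A.valuation (16 : Qbar) = 1 := h6_val_sixteen hq hq2 hA
  have hvp : A.valuation (P.p : Qbar) = 1 := h6_val_prime hq P.pp hqp hA
  have hσv : ∀ y : Qbar, A.valuation ((σ : Qbar →+* Qbar) y) = A.valuation y := fun y =>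
    h9_inertia_valuation_apply A hσ ((AlgebraicClosure.isAlgebraic ℚ).isAlgebraic y)
  have hσm : ∀ y : Qbar, A.valuation y ≤ 1 → A.valuation ((σ : Qbar →+* Qbar) y - y) < 1 := by
    intro y hy
    have hyA : y ∈ A := (ValuationSubring.valuation_le_one_iff A y).mp hy
    have := h9_inertia_apply_sub_mem_nonunits A hσ hyA
    exact (ValuationSubring.mem_nonunits_iff A).mp this
  have hσ0 : ∀ Q : ((P.freyCurve)⁄Qbar).Point, h6_sigmaG P σ Q = 0 → Q = 0 := fun Q hQ =>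
    (h29_smul_eq_zero_iff σ Q).mp hQ
  have hb₂ := baseChange_b₂ P Qbar
  have hb₄ := baseChange_b₄ P Qbar
  have hb₆ := baseChange_b₆ P Qbar
  have hABC := AK_add_BK P Qbar
  have hvA : A.valuation (AK P Qbar) = A.valuation ((P.a : ℤ) : Qbar) ^ P.p := by
    rw [AK, map_pow]
  have hvB : A.valuation (BK P Qbar) = A.valuation ((P.b : ℤ) : Qbar) ^ P.p := by
    rw [BK, map_pow]
  have hvC : A.valuation (CK P Qbar) = A.valuation ((P.c : ℤ) : Qbar) ^ P.p := by
    rw [CK, map_pow]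
  have hA0 : AK P Qbar ≠ 0 := pow_ne_zero _ (by exact_mod_cast P.ha0)
  have hB0 : BK P Qbar ≠ 0 := pow_ne_zero _ (by exact_mod_cast P.hb0)
  have hC0 : CK P Qbar ≠ 0 := pow_ne_zero _ (by exact_mod_cast P.hc0)
  have hvA1 : A.valuation (AK P Qbar) ≤ 1 := by
    rw [hvA]; exact pow_le_one₀ zero_le (h6_val_intCast_le_one _)
  have hvB1 : A.valuation (BK P Qbar) ≤ 1 := by
    rw [hvB]; exact pow_le_one₀ zero_le (h6_val_intCast_le_one _)
  have hvC1 : A.valuation (CK P Qbar) ≤ 1 := by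
    rw [hvC]; exact pow_le_one₀ zero_le (h6_val_intCast_le_one _)
  by_cases hc : (q : ℤ) ∣ P.c
  · -- `q ∣ c`: shift by `x₀ = A / 4`
    have hb : ¬ (q : ℤ) ∣ P.b := not_dvd_b_of_dvd_c P hq hc
    have hvb : A.valuation ((P.b : ℤ) : Qbar) = 1 := valuation_intCast_eq_one hq hA hb
    have hx₀ : 4 * (AK P Qbar / 4) ^ 3 + ((P.freyCurve)⁄Qbar).b₂ * (AK P Qbar / 4) ^ 2 +
        2 * ((P.freyCurve)⁄Qbar).b₄ * (AK P Qbar / 4) + ((P.freyCurve)⁄Qbar).b₆ = 0 := by
      rw [hb₂, hb₄, hb₆]; ring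
    have hal : (((P.freyCurve)⁄Qbar).b₄ + (AK P Qbar / 4) * ((P.freyCurve)⁄Qbar).b₂ +
        6 * (AK P Qbar / 4) ^ 2) / 2 = AK P Qbar * CK P Qbar / 16 := by
      rw [hb₂, hb₄, ← hABC]; ring
    have hbe : ((P.freyCurve)⁄Qbar).b₂ + 12 * (AK P Qbar / 4) = BK P Qbar + 2 * AK P Qbar := by
      rw [hb₂]; ring
    have hσx₀ : σ (AK P Qbar / 4) = AK P Qbar / 4 := by
      rw [AK, map_div₀, map_pow, map_intCast, map_ofNat]
    refine htf (h29_xdata ((P.freyCurve)⁄Qbar) h2 (AK P Qbar / 4) hx₀) A hv2 ?_ ?_ ?_ ?_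
      P.pp P.hp5 hvp (((P.a * P.c : ℤ)) : Qbar) ?_ (σ : Qbar →+* Qbar) (h6_sigmaG P σ)
      ?_ ?_ hσ0 hσv hσm ?_ hx
    · rw [h29_xdata_al, hal, map_div₀, hv16, div_one, map_mul]
      exact mul_le_one₀ hvA1 zero_le hvC1
    · rw [h29_xdata_al, hal]
      exact div_ne_zero (mul_ne_zero hA0 hC0) (by norm_num)
    · rw [h29_xdata_be, hbe]
      refine (A.valuation.map_add _ _).trans (max_le hvB1 ?_)
      rw [map_mul, hv2, one_mul]; exact hvA1
    · rw [h29_xdata_be, h29_xdata_al, hal, hbe]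
      have : (BK P Qbar + 2 * AK P Qbar) ^ 2 - 64 * (AK P Qbar * CK P Qbar / 16) =
          BK P Qbar ^ 2 := by rw [← hABC]; ring
      rw [this, map_pow, hvB, hvb, one_pow, one_pow]
    · rw [h29_xdata_al, hal, map_div₀, hv16, div_one, map_mul, hvA, hvC, ← mul_pow, ← map_mul]
      push_cast; rfl
    · intro Q _
      exact h29_xi_smul σ (AK P Qbar / 4) hσx₀ Q
    · intro Q _
      exact h29_om_smul σ Q
    · simp
  · -- `q ∤ c`: shift by `x₀ = 0`
    have hvc : A.valuation ((P.c : ℤ) : Qbar) = 1 := valuation_intCast_eq_one hq hA hc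
    have hx₀ : 4 * (0 : Qbar) ^ 3 + ((P.freyCurve)⁄Qbar).b₂ * (0 : Qbar) ^ 2 +
        2 * ((P.freyCurve)⁄Qbar).b₄ * (0 : Qbar) + ((P.freyCurve)⁄Qbar).b₆ = 0 := by
      rw [hb₆]; ring
    have hal : (((P.freyCurve)⁄Qbar).b₄ + (0 : Qbar) * ((P.freyCurve)⁄Qbar).b₂ +
        6 * (0 : Qbar) ^ 2) / 2 = -(AK P Qbar * BK P Qbar) / 16 := by
      rw [hb₄]; ring
    have hbe : ((P.freyCurve)⁄Qbar).b₂ + 12 * (0 : Qbar) = BK P Qbar - AK P Qbar := by
      rw [hb₂]; ring
    have hσx₀ : σ (0 : Qbar) = 0 := map_zero σ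
    refine htf (h29_xdata ((P.freyCurve)⁄Qbar) h2 0 hx₀) A hv2 ?_ ?_ ?_ ?_
      P.pp P.hp5 hvp (((P.a * P.b : ℤ)) : Qbar) ?_ (σ : Qbar →+* Qbar) (h6_sigmaG P σ)
      ?_ ?_ hσ0 hσv hσm ?_ hx
    · rw [h29_xdata_al, hal, map_div₀, hv16, div_one, Valuation.map_neg, map_mul]
      exact mul_le_one₀ hvA1 zero_le hvB1
    · rw [h29_xdata_al, hal]
      exact div_ne_zero (neg_ne_zero.mpr (mul_ne_zero hA0 hB0)) (by norm_num)
    · rw [h29_xdata_be, hbe]
      exact (A.valuation.map_sub _ _).trans (max_le hvB1 hvA1)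
    · rw [h29_xdata_be, h29_xdata_al, hal, hbe]
      have : (BK P Qbar - AK P Qbar) ^ 2 - 64 * (-(AK P Qbar * BK P Qbar) / 16) =
          CK P Qbar ^ 2 := by rw [← hABC]; ring
      rw [this, map_pow, hvC, hvc, one_pow, one_pow]
    · rw [h29_xdata_al, hal, map_div₀, hv16, div_one, Valuation.map_neg, map_mul, hvA, hvB,
        ← mul_pow, ← map_mul]
      push_cast; rfl
    · intro Q _
      exact h29_xi_smul σ 0 hσx₀ Q
    · intro Q _
      exact h29_om_smul σ Q
    · simp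

/-- **S05 modulo `H5.torsion_fixed`.** -/
theorem h6_unramified_of_torsion_fixed (htf : H6TorsionFixed ((P.freyCurve)⁄Qbar).Point)
    {q : ℕ} (hq : q.Prime) (hq2 : q ≠ 2) (hqp : q ≠ P.p) : P.GaloisRepUnramifiedAt q := by
  intro A hA σ hσ x
  apply Subtype.ext
  have hx : P.p • x.1 = 0 := by
    have := x.2
    rw [Submodule.mem_torsionBy_iff] at this
    rw [← natCast_zsmul]
    exact this
  exact h6_point_fixed P htf hq hq2 hqp A hA σ hσ x.1 hx

end Assembly

end Fermat.Agent.H6
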