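import Fermat.Agent.S05.Level

/-!
# S05 (III): the level of a point of order `p` at a prime of multiplicative reduction
(helper9) Multiplicative-valuation form of `H9AddVal.level_core_div`.
-/

set_option autoImplicit false
set_option linter.unusedSectionVars false

namespace Fermat.Agent.H9

variable {L : Type*} [Field L] {Γ₀ : Type*} [LinearOrderedCommGroupWithZero Γ₀]

open Classical in
/-- The additive valuation `-log v` attached to a valuation `v`. -/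
noncomputable def h9AddValOf (v : Valuation L Γ₀) : H9AddVal L (Additive Γ₀ˣ) where
  w x := if hx : x = 0 then 0 else
    Additive.ofMul (Units.mk0 (v x) ((Valuation.ne_zero_iff v).mpr hx))⁻¹
  map_mul' x y hx hy := by
    rw [dif_neg hx, dif_neg hy, dif_neg (mul_ne_zero hx hy), ← ofMul_mul, ← mul_inv]
    congr 2
    ext
    simp
  map_add' x y hx hy hxy := by
    rw [dif_neg hx, dif_neg hy, dif_neg hxy]
    rcases le_total (v x) (v y) with h | h
    · refine (min_le_right _ _).trans ?_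
      rw [Additive.ofMul_le, inv_le_inv_iff, ← Units.val_le_val]
      simpa using (v.map_add x y).trans (max_le h le_rfl)
    · refine (min_le_left _ _).trans ?_
      rw [Additive.ofMul_le, inv_le_inv_iff, ← Units.val_le_val]
      simpa using (v.map_add x y).trans (max_le le_rfl h)
  map_neg' x := by
    by_cases hx : x = 0
    · subst hx; simp
    · rw [dif_neg hx, dif_neg (neg_ne_zero.mpr hx)]
      congr 2
      ext
      simp

theorem h9AddValOf_w (v : Valuation L Γ₀) {x : L} (hx : x ≠ 0) :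
    (h9AddValOf v).w x =
      Additive.ofMul (Units.mk0 (v x) ((Valuation.ne_zero_iff v).mpr hx))⁻¹ := by
  unfold h9AddValOf
  simp only
  rw [dif_neg hx]

theorem h9AddValOf_le_iff (v : Valuation L Γ₀) {x y : L} (hx : x ≠ 0) (hy : y ≠ 0) :
    (h9AddValOf v).w x ≤ (h9AddValOf v).w y ↔ v y ≤ v x := by
  rw [h9AddValOf_w v hx, h9AddValOf_w v hy, Additive.ofMul_le, inv_le_inv_iff,
    ← Units.val_le_val]
  simp

theorem h9AddValOf_lt_iff (v : Valuation L Γ₀) {x y : L} (hx : x ≠ 0) (hy : y ≠ 0) :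
    (h9AddValOf v).w x < (h9AddValOf v).w y ↔ v y < v x := by
  rw [lt_iff_not_ge, lt_iff_not_ge, h9AddValOf_le_iff v hy hx]

theorem h9AddValOf_eq_iff (v : Valuation L Γ₀) {x y : L} (hx : x ≠ 0) (hy : y ≠ 0) :
    (h9AddValOf v).w x = (h9AddValOf v).w y ↔ v x = v y := by
  rw [le_antisymm_iff, le_antisymm_iff, h9AddValOf_le_iff v hx hy, h9AddValOf_le_iff v hy hx,
    and_comm]

theorem h9AddValOf_one (v : Valuation L Γ₀) : (h9AddValOf v).w 1 = 0 :=
  (h9AddValOf v).map_one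

theorem h9AddValOf_pos_iff (v : Valuation L Γ₀) {x : L} (hx : x ≠ 0) :
    0 < (h9AddValOf v).w x ↔ v x < 1 := by
  rw [← h9AddValOf_one v, h9AddValOf_lt_iff v one_ne_zero hx, map_one]

theorem h9AddValOf_eq_zero_iff (v : Valuation L Γ₀) {x : L} (hx : x ≠ 0) :
    (h9AddValOf v).w x = 0 ↔ v x = 1 := by
  rw [← h9AddValOf_one v, h9AddValOf_eq_iff v hx one_ne_zero, map_one]

/-- **S05 (III), abstract multiplicative form.** Let `ξ k` be the `ξ`-coordinates of the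
multiples of a point of odd order `p ≥ 5` on `ω² = ξ (4 ξ² + b' ξ + 4 a')`, where `b'` is a unit,
`a'` is a non-unit and `v a' = v π ^ p`. If `ξ 1` is a non-unit, then `v a' < v (ξ 1)` and
`v (ξ 1) = v π ^ (2 j)` for some `j > 0`. -/
theorem h9_level_core (v : Valuation L Γ₀) (p : ℕ) (hp5 : 5 ≤ p) (hodd : Odd p)
    (hv2 : v (2 : L) = 1) (a' b' : L) (ha0 : a' ≠ 0) (ha : v a' < 1) (hb : v b' = 1)
    (π : L) (hπ : v a' = v π ^ p) (ξ : ℕ → L)
    (ne_zero : ∀ k, 1 ≤ k → k ≤ p - 1 → ξ k ≠ 0)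
    (symm : ∀ k, 1 ≤ k → k ≤ p - 1 → ξ (p - k) = ξ k)
    (ne : ∀ k, 2 ≤ k → k ≤ p - 2 → ξ k ≠ ξ 1)
    (dbl : ξ 2 * (ξ 1 * (4 * ξ 1 ^ 2 + b' * ξ 1 + 4 * a')) = (ξ 1 ^ 2 - a') ^ 2)
    (s1 : ∀ k, 2 ≤ k → k ≤ p - 2 →
      ξ (k + 1) * ξ (k - 1) * (ξ k - ξ 1) ^ 2 = (ξ k * ξ 1 - a') ^ 2)
    (s2 : ∀ k, 2 ≤ k → k ≤ p - 2 →
      (ξ (k + 1) + ξ (k - 1)) * (ξ k - ξ 1) ^ 2 =
        ξ k * ξ 1 * (2 * (ξ k + ξ 1) + b') + 2 * a' * (ξ k + ξ 1))
    (hξ : v (ξ 1) < 1) :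
    v a' < v (ξ 1) ∧ ∃ j : ℕ, 0 < j ∧ v (ξ 1) = v π ^ (2 * j) := by
  have h2 : (2 : L) ≠ 0 := by
    intro h0
    rw [h0, map_zero] at hv2
    exact zero_ne_one hv2
  have hb' : b' ≠ 0 := by
    intro h0
    rw [h0, map_zero] at hb
    exact zero_ne_one hb
  have hπ0 : π ≠ 0 := by
    intro h0
    rw [h0, map_zero, zero_pow (by omega)] at hπ
    exact ha0 ((Valuation.zero_iff v).mp hπ)
  have hξ1 : ξ 1 ≠ 0 := ne_zero 1 le_rfl (by omega)
  have S : H9MultSeq a' b' p ξ := ⟨ne_zero, symm, ne, dbl, s1, s2⟩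
  have hϖ : (h9AddValOf v).w a' = p • (h9AddValOf v).w π := by
    rw [← (h9AddValOf v).map_pow hπ0, h9AddValOf_eq_iff v ha0 (pow_ne_zero p hπ0), map_pow, hπ]
  obtain ⟨hlt, j, hj, hjeq⟩ := (h9AddValOf v).level_core_div S ha0 h2
    ((h9AddValOf_eq_zero_iff v h2).mpr hv2) hb' ((h9AddValOf_eq_zero_iff v hb').mpr hb) hp5 hodd
    _ hϖ ((h9AddValOf_pos_iff v ha0).mpr ha) ((h9AddValOf_pos_iff v hξ1).mpr hξ)
  refine ⟨(h9AddValOf_lt_iff v hξ1 ha0).mp hlt, j, hj, ?_⟩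
  rw [← (h9AddValOf v).map_pow hπ0, h9AddValOf_eq_iff v hξ1 (pow_ne_zero _ hπ0), map_pow] at hjeq
  exact hjeq

end Fermat.Agent.H9
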