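import Mathlib

/-!
# S05 slice (II): the kernel of reduction has no `p`-torsion (abstract valuation form)

We are given a sequence `ξ k` (think `ξ k = x(kP) - x₀` for a point `P` of order `p`), satisfying the
duplication formula and the two addition identities, and a valuation `v` (multiplicative notation)
with `v 2 = 1`, `v p = 1`, `v a' ≤ 1`, `v b' ≤ 1`.  Then `ξ 1` is integral: `v (ξ 1) ≤ 1`.
-/

set_option autoImplicit false

namespace Fermat.Agent.H27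

variable {L : Type*} [Field L] {Γ₀ : Type*} [LinearOrderedCommGroupWithZero Γ₀]

theorem h27_v_natCast_le_one (v : Valuation L Γ₀) (n : ℕ) : v (n : L) ≤ 1 := by
  induction n with
  | zero => simp
  | succ n ih =>
    rw [Nat.cast_succ]
    exact (v.map_add _ _).trans (max_le ih (by simp))

/-- One step of the induction: from congruences for `z_k`, `z_{k-1}` deduce the one for `z_{k+1}`. -/
theorem h27_kernel_step (v : Valuation L Γ₀) (a' b' : L) (ha : v a' ≤ 1) (hb : v b' ≤ 1)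
    (z1 zk zm zp : L) (k : ℕ) (hz1 : v z1 < 1) (hz1ne : z1 ≠ 0)
    (hk : v (zk - (k : L) ^ 2 * z1) < v z1)
    (hm : v (zm - ((k : L) - 1) ^ 2 * z1) < v z1)
    (key : (zp + zm) * (1 - a' * zk * z1) ^ 2 =
      2 * (z1 + zk) + b' * zk * z1 + 2 * a' * zk * z1 * (z1 + zk)) :
    v (zp - ((k : L) + 1) ^ 2 * z1) < v z1 := by
  have hk1 : v ((k : L)) ≤ 1 := h27_v_natCast_le_one v k
  have h1 : v (1 : L) = 1 := v.map_one
  have h2 : v (2 : L) ≤ 1 := by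
    have := h27_v_natCast_le_one v 2
    simpa using this
  have hz1pos : 0 < v z1 := by
    rw [Valuation.pos_iff]; exact hz1ne
  -- `zk` and `zm` are at most as big as `z1`
  have hk2z : v ((k : L) ^ 2 * z1) ≤ v z1 := by
    rw [map_mul, map_pow]
    calc v (k : L) ^ 2 * v z1 ≤ 1 ^ 2 * v z1 := by gcongr
      _ = v z1 := by simp
  have hzk : v zk ≤ v z1 := by
    have : zk = (zk - (k : L) ^ 2 * z1) + (k : L) ^ 2 * z1 := by ring
    rw [this]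
    exact (v.map_add _ _).trans (max_le hk.le hk2z)
  have hkm1 : v ((k : L) - 1) ≤ 1 := by
    exact (v.map_sub _ _).trans (max_le hk1 h1.le)
  have hkp1 : v ((k : L) + 1) ≤ 1 := by
    exact (v.map_add _ _).trans (max_le hk1 h1.le)
  have hm2z : v (((k : L) - 1) ^ 2 * z1) ≤ v z1 := by
    rw [map_mul, map_pow]
    calc v ((k : L) - 1) ^ 2 * v z1 ≤ 1 ^ 2 * v z1 := by gcongr
      _ = v z1 := by simp
  have hp2z : v (((k : L) + 1) ^ 2 * z1) ≤ v z1 := by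
    rw [map_mul, map_pow]
    calc v ((k : L) + 1) ^ 2 * v z1 ≤ 1 ^ 2 * v z1 := by gcongr
      _ = v z1 := by simp
  have hzm : v zm ≤ v z1 := by
    have : zm = (zm - ((k : L) - 1) ^ 2 * z1) + ((k : L) - 1) ^ 2 * z1 := by ring
    rw [this]
    exact (v.map_add _ _).trans (max_le hm.le hm2z)
  have hzk1 : v zk < 1 := lt_of_le_of_lt hzk hz1
  -- `e := a' * zk * z1` is small
  have he : v (a' * zk * z1) < 1 := by
    rw [map_mul, map_mul]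
    calc v a' * v zk * v z1 ≤ 1 * 1 * v z1 := by gcongr
      _ = v z1 := by simp
      _ < 1 := hz1
  have he' : v (a' * zk * z1) ≤ 1 := he.le
  have hD : v (1 - a' * zk * z1) = 1 := by
    have := Valuation.map_one_sub_of_lt v he
    exact this
  have hD2 : v ((1 - a' * zk * z1) ^ 2) = 1 := by rw [map_pow, hD, one_pow]
  -- the main computation
  have hmain : (zp - ((k : L) + 1) ^ 2 * z1) * (1 - a' * zk * z1) ^ 2 =
      2 * (zk - (k : L) ^ 2 * z1) - (zm - ((k : L) - 1) ^ 2 * z1)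
      + (b' * zk * z1 + 2 * a' * zk * z1 * (z1 + zk))
      - (zm + ((k : L) + 1) ^ 2 * z1) * ((1 - a' * zk * z1) ^ 2 - 1) := by
    have : (zp - ((k : L) + 1) ^ 2 * z1) * (1 - a' * zk * z1) ^ 2 =
        (zp + zm) * (1 - a' * zk * z1) ^ 2
          - (zm + ((k : L) + 1) ^ 2 * z1) * (1 - a' * zk * z1) ^ 2 := by ring
    rw [this, key]
    ring
  have hT1 : v (2 * (zk - (k : L) ^ 2 * z1)) < v z1 := by
    rw [map_mul]
    calc v 2 * v (zk - (k : L) ^ 2 * z1) ≤ 1 * v (zk - (k : L) ^ 2 * z1) := by gcongr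
      _ = v (zk - (k : L) ^ 2 * z1) := one_mul _
      _ < v z1 := hk
  have hT3 : v (b' * zk * z1) < v z1 := by
    rw [map_mul, map_mul]
    calc v b' * v zk * v z1 ≤ 1 * v zk * v z1 := by gcongr
      _ = v zk * v z1 := by rw [one_mul]
      _ < 1 * v z1 := by
        exact mul_lt_mul_of_pos_right hzk1 hz1pos
      _ = v z1 := one_mul _
  have hsum : v (z1 + zk) ≤ v z1 := (v.map_add _ _).trans (max_le le_rfl hzk)
  have hT4 : v (2 * a' * zk * z1 * (z1 + zk)) < v z1 := by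
    have : 2 * a' * zk * z1 * (z1 + zk) = (2 * (a' * zk * z1)) * (z1 + zk) := by ring
    rw [this, map_mul, map_mul]
    calc v 2 * v (a' * zk * z1) * v (z1 + zk) ≤ 1 * v (a' * zk * z1) * v z1 := by gcongr
      _ = v (a' * zk * z1) * v z1 := by rw [one_mul]
      _ < 1 * v z1 := mul_lt_mul_of_pos_right he hz1pos
      _ = v z1 := one_mul _
  have hD2m : v ((1 - a' * zk * z1) ^ 2 - 1) < 1 := by
    have : (1 - a' * zk * z1) ^ 2 - 1 = (a' * zk * z1) * (a' * zk * z1 - 2) := by ring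
    rw [this, map_mul]
    have h3 : v (a' * zk * z1 - 2) ≤ 1 := (v.map_sub _ _).trans (max_le he' h2)
    calc v (a' * zk * z1) * v (a' * zk * z1 - 2) ≤ v (a' * zk * z1) * 1 := by gcongr
      _ = v (a' * zk * z1) := mul_one _
      _ < 1 := he
  have hT5 : v ((zm + ((k : L) + 1) ^ 2 * z1) * ((1 - a' * zk * z1) ^ 2 - 1)) < v z1 := by
    rw [map_mul]
    have h4 : v (zm + ((k : L) + 1) ^ 2 * z1) ≤ v z1 :=
      (v.map_add _ _).trans (max_le hzm hp2z)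
    calc v (zm + ((k : L) + 1) ^ 2 * z1) * v ((1 - a' * zk * z1) ^ 2 - 1)
        ≤ v z1 * v ((1 - a' * zk * z1) ^ 2 - 1) := by gcongr
      _ < v z1 * 1 := by
        exact mul_lt_mul_of_pos_left hD2m hz1pos
      _ = v z1 := mul_one _
  have hRHS : v (2 * (zk - (k : L) ^ 2 * z1) - (zm - ((k : L) - 1) ^ 2 * z1)
      + (b' * zk * z1 + 2 * a' * zk * z1 * (z1 + zk))
      - (zm + ((k : L) + 1) ^ 2 * z1) * ((1 - a' * zk * z1) ^ 2 - 1)) < v z1 := by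
    refine lt_of_le_of_lt (v.map_sub _ _) (max_lt ?_ hT5)
    refine lt_of_le_of_lt (v.map_add _ _) (max_lt ?_ ?_)
    · exact lt_of_le_of_lt (v.map_sub _ _) (max_lt hT1 hm)
    · exact lt_of_le_of_lt (v.map_add _ _) (max_lt hT3 hT4)
  rw [← hmain, map_mul, hD2, mul_one] at hRHS
  exact hRHS

/-- The key identity in terms of the inverses `z = ξ⁻¹`, derived from the addition identities. -/
theorem h27_key_of_s1_s2 (a' b' X T Yp Ym : L) (hX : X ≠ 0) (hT : T ≠ 0) (hYp : Yp ≠ 0)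
    (hYm : Ym ≠ 0)
    (s1 : Yp * Ym * (X - T) ^ 2 = (X * T - a') ^ 2)
    (s2 : (Yp + Ym) * (X - T) ^ 2 = X * T * (2 * (X + T) + b') + 2 * a' * (X + T)) :
    (Yp⁻¹ + Ym⁻¹) * (1 - a' * X⁻¹ * T⁻¹) ^ 2 =
      2 * (T⁻¹ + X⁻¹) + b' * X⁻¹ * T⁻¹ + 2 * a' * X⁻¹ * T⁻¹ * (T⁻¹ + X⁻¹) := by
  have e1 : (T⁻¹ - X⁻¹) ^ 2 = Yp⁻¹ * Ym⁻¹ * (1 - a' * X⁻¹ * T⁻¹) ^ 2 := by
    field_simp
    linear_combination s1
  have e2 : (Yp⁻¹ + Ym⁻¹) * (T⁻¹ - X⁻¹) ^ 2 = Yp⁻¹ * Ym⁻¹ *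
      (2 * (T⁻¹ + X⁻¹) + b' * X⁻¹ * T⁻¹ + 2 * a' * X⁻¹ * T⁻¹ * (T⁻¹ + X⁻¹)) := by
    field_simp
    linear_combination s2
  rw [e1] at e2
  have hne : Yp⁻¹ * Ym⁻¹ ≠ 0 := mul_ne_zero (inv_ne_zero hYp) (inv_ne_zero hYm)
  have e3 : Yp⁻¹ * Ym⁻¹ * ((Yp⁻¹ + Ym⁻¹) * (1 - a' * X⁻¹ * T⁻¹) ^ 2) = Yp⁻¹ * Ym⁻¹ *
      (2 * (T⁻¹ + X⁻¹) + b' * X⁻¹ * T⁻¹ + 2 * a' * X⁻¹ * T⁻¹ * (T⁻¹ + X⁻¹)) := by
    rw [← e2]; ring
  exact mul_left_cancel₀ hne e3

/-- The duplication congruence `z₂ ≡ 4 z₁`. -/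
theorem h27_kernel_dbl (v : Valuation L Γ₀) (a' b' : L) (ha : v a' ≤ 1) (hb : v b' ≤ 1)
    (X T : L) (hX : X ≠ 0) (hT : T ≠ 0) (hT1 : 1 < v T)
    (dbl : X * (T * (4 * T ^ 2 + b' * T + 4 * a')) = (T ^ 2 - a') ^ 2) :
    v (X⁻¹ - 2 ^ 2 * T⁻¹) < v T⁻¹ := by
  set z := T⁻¹ with hz
  have hzne : z ≠ 0 := inv_ne_zero hT
  have hz1 : v z < 1 := by
    rw [hz, map_inv₀]
    exact inv_lt_one_of_one_lt₀ hT1
  have hzpos : 0 < v z := by rw [Valuation.pos_iff]; exact hzne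
  have e : X⁻¹ * (1 - a' * z ^ 2) ^ 2 = z * (4 + b' * z + 4 * a' * z ^ 2) := by
    rw [hz]
    field_simp
    linear_combination -dbl
  have he : v (a' * z ^ 2) < 1 := by
    rw [map_mul, map_pow]
    calc v a' * v z ^ 2 ≤ 1 * v z ^ 2 := by gcongr
      _ = v z * v z := by rw [one_mul, sq]
      _ < 1 * 1 := by
        exact mul_lt_mul'' hz1 hz1 zero_le zero_le
      _ = 1 := one_mul _
  have hD : v (1 - a' * z ^ 2) = 1 := Valuation.map_one_sub_of_lt v he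
  have hD2 : v ((1 - a' * z ^ 2) ^ 2) = 1 := by rw [map_pow, hD, one_pow]
  have h12 : v (12 : L) ≤ 1 := by
    have := h27_v_natCast_le_one v 12
    simpa using this
  have h4 : v (4 : L) ≤ 1 := by
    have := h27_v_natCast_le_one v 4
    simpa using this
  have hmain : (X⁻¹ - 2 ^ 2 * z) * (1 - a' * z ^ 2) ^ 2 =
      z * (z * (b' + 12 * a' * z - 4 * a' ^ 2 * z ^ 3)) := by
    have : (X⁻¹ - 2 ^ 2 * z) * (1 - a' * z ^ 2) ^ 2 =
        X⁻¹ * (1 - a' * z ^ 2) ^ 2 - 2 ^ 2 * z * (1 - a' * z ^ 2) ^ 2 := by ring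
    rw [this, e]
    ring
  have hzle : v z ≤ 1 := hz1.le
  have hbr : v (b' + 12 * a' * z - 4 * a' ^ 2 * z ^ 3) ≤ 1 := by
    refine (v.map_sub _ _).trans (max_le ((v.map_add _ _).trans (max_le hb ?_)) ?_)
    · rw [map_mul, map_mul]
      calc v 12 * v a' * v z ≤ 1 * 1 * 1 := by gcongr
        _ = 1 := by simp
    · rw [map_mul, map_mul, map_pow, map_pow]
      calc v 4 * v a' ^ 2 * v z ^ 3 ≤ 1 * 1 ^ 2 * 1 ^ 3 := by gcongr
        _ = 1 := by simp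
  have hR : v (z * (z * (b' + 12 * a' * z - 4 * a' ^ 2 * z ^ 3))) < v z := by
    rw [map_mul, map_mul]
    calc v z * (v z * v (b' + 12 * a' * z - 4 * a' ^ 2 * z ^ 3)) ≤ v z * (v z * 1) := by gcongr
      _ = v z * v z := by rw [mul_one]
      _ < v z * 1 := mul_lt_mul_of_pos_left hz1 hzpos
      _ = v z := mul_one _
  rw [← hmain, map_mul, hD2, mul_one] at hR
  exact hR

/-- **S05 (II), abstract form.** The sequence `ξ` cannot start with a non-integral element. -/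
theorem h27_kernel_core_min (v : Valuation L Γ₀) (p : ℕ) (hp5 : 5 ≤ p)
    (hv2 : v (2 : L) = 1) (hvp : v (p : L) = 1)
    (a' b' : L) (ha : v a' ≤ 1) (hb : v b' ≤ 1) (ξ : ℕ → L)
    (ne_zero : ∀ k, 1 ≤ k → k ≤ p - 1 → ξ k ≠ 0)
    (symm1 : ξ (p - 1) = ξ 1) (symm2 : ξ (p - 2) = ξ 2)
    (dbl : ξ 2 * (ξ 1 * (4 * ξ 1 ^ 2 + b' * ξ 1 + 4 * a')) = (ξ 1 ^ 2 - a') ^ 2)
    (s1 : ∀ k, 2 ≤ k → k ≤ p - 2 →
      ξ (k + 1) * ξ (k - 1) * (ξ k - ξ 1) ^ 2 = (ξ k * ξ 1 - a') ^ 2)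
    (s2 : ∀ k, 2 ≤ k → k ≤ p - 2 →
      (ξ (k + 1) + ξ (k - 1)) * (ξ k - ξ 1) ^ 2 =
        ξ k * ξ 1 * (2 * (ξ k + ξ 1) + b') + 2 * a' * (ξ k + ξ 1)) :
    v (ξ 1) ≤ 1 := by
  by_contra hcon
  have hT1 : 1 < v (ξ 1) := not_le.mp hcon
  have hT : ξ 1 ≠ 0 := ne_zero 1 le_rfl (by omega)
  have hz1 : v (ξ 1)⁻¹ < 1 := by
    rw [map_inv₀]
    exact inv_lt_one_of_one_lt₀ hT1
  have hz1ne : (ξ 1)⁻¹ ≠ 0 := inv_ne_zero hT
  have hz1pos : 0 < v (ξ 1)⁻¹ := by rw [Valuation.pos_iff]; exact hz1ne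
  -- the main induction
  have hind : ∀ n : ℕ, ∀ k, 1 ≤ k → k ≤ n + 1 → k ≤ p - 1 →
      v ((ξ k)⁻¹ - (k : L) ^ 2 * (ξ 1)⁻¹) < v (ξ 1)⁻¹ := by
    intro n
    induction n with
    | zero =>
      intro k hk1 hk2 _
      have : k = 1 := by omega
      subst this
      simpa using hz1pos
    | succ n ih =>
      intro k hk1 hk2 hkp
      rcases Nat.lt_or_ge k (n + 2) with hlt | hge
      · exact ih k hk1 (by omega) hkp
      have hk : k = n + 2 := by omega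
      subst hk
      rcases Nat.eq_zero_or_pos n with hn | hn
      · subst hn
        have := h27_kernel_dbl v a' b' ha hb (ξ 2) (ξ 1) (ne_zero 2 (by omega) (by omega)) hT hT1
          dbl
        simpa using this
      · -- step with `k' = n + 1`
        have hk' : 2 ≤ n + 1 := by omega
        have hk'p : n + 1 ≤ p - 2 := by omega
        have hXne : ξ (n + 1) ≠ 0 := ne_zero (n + 1) (by omega) (by omega)
        have hYp : ξ (n + 1 + 1) ≠ 0 := ne_zero (n + 1 + 1) (by omega) (by omega)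
        have hYm : ξ (n + 1 - 1) ≠ 0 := ne_zero (n + 1 - 1) (by omega) (by omega)
        have key := h27_key_of_s1_s2 a' b' (ξ (n + 1)) (ξ 1) (ξ (n + 1 + 1)) (ξ (n + 1 - 1))
          hXne hT hYp hYm (s1 (n + 1) hk' hk'p) (s2 (n + 1) hk' hk'p)
        have hCk := ih (n + 1) (by omega) le_rfl (by omega)
        have hCm := ih (n + 1 - 1) (by omega) (by omega) (by omega)
        have hcast : ((n + 1 - 1 : ℕ) : L) = ((n + 1 : ℕ) : L) - 1 := by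
          rw [Nat.cast_sub (by omega)]; simp
        rw [hcast] at hCm
        have := h27_kernel_step v a' b' ha hb (ξ 1)⁻¹ (ξ (n + 1))⁻¹ (ξ (n + 1 - 1))⁻¹
          (ξ (n + 1 + 1))⁻¹ (n + 1) hz1 hz1ne hCk hCm key
        have hcast2 : ((n + 2 : ℕ) : L) = ((n + 1 : ℕ) : L) + 1 := by
          push_cast; ring
        rw [hcast2]
        exact this
  -- consequences at `p - 1` and `p - 2`
  have hC1 := hind (p - 1) (p - 1) (by omega) (by omega) le_rfl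
  have hC2 := hind (p - 2) (p - 2) (by omega) (by omega) (by omega)
  have hC2' := hind 1 2 (by omega) (by omega) (by omega)
  rw [symm1] at hC1
  rw [symm2] at hC2
  -- from hC1 : v ((1 - (p-1)^2) z1) < v z1
  have hA : v (1 - ((p - 1 : ℕ) : L) ^ 2) < 1 := by
    have : (ξ 1)⁻¹ - ((p - 1 : ℕ) : L) ^ 2 * (ξ 1)⁻¹ = (1 - ((p - 1 : ℕ) : L) ^ 2) * (ξ 1)⁻¹ := by
      ring
    rw [this, map_mul] at hC1
    by_contra hge
    have hge' : 1 ≤ v (1 - ((p - 1 : ℕ) : L) ^ 2) := not_lt.mp hge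
    have : v (ξ 1)⁻¹ ≤ v (1 - ((p - 1 : ℕ) : L) ^ 2) * v (ξ 1)⁻¹ := by
      calc v (ξ 1)⁻¹ = 1 * v (ξ 1)⁻¹ := (one_mul _).symm
        _ ≤ v (1 - ((p - 1 : ℕ) : L) ^ 2) * v (ξ 1)⁻¹ := by gcongr
    exact absurd hC1 (not_lt.mpr this)
  have hB : v (((p - 2 : ℕ) : L) ^ 2 - 2 ^ 2) < 1 := by
    have hdiff : v (((ξ 2)⁻¹ - ((2 : ℕ) : L) ^ 2 * (ξ 1)⁻¹) -
        ((ξ 2)⁻¹ - ((p - 2 : ℕ) : L) ^ 2 * (ξ 1)⁻¹)) < v (ξ 1)⁻¹ :=
      lt_of_le_of_lt (v.map_sub _ _) (max_lt hC2' hC2)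
    have : ((ξ 2)⁻¹ - ((2 : ℕ) : L) ^ 2 * (ξ 1)⁻¹) -
        ((ξ 2)⁻¹ - ((p - 2 : ℕ) : L) ^ 2 * (ξ 1)⁻¹) =
        (((p - 2 : ℕ) : L) ^ 2 - 2 ^ 2) * (ξ 1)⁻¹ := by
      push_cast; ring
    rw [this, map_mul] at hdiff
    by_contra hge
    have hge' : 1 ≤ v (((p - 2 : ℕ) : L) ^ 2 - 2 ^ 2) := not_lt.mp hge
    have : v (ξ 1)⁻¹ ≤ v (((p - 2 : ℕ) : L) ^ 2 - 2 ^ 2) * v (ξ 1)⁻¹ := by
      calc v (ξ 1)⁻¹ = 1 * v (ξ 1)⁻¹ := (one_mul _).symm
        _ ≤ v (((p - 2 : ℕ) : L) ^ 2 - 2 ^ 2) * v (ξ 1)⁻¹ := by gcongr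
    exact absurd hdiff (not_lt.mpr this)
  -- `1 - (p-1)^2 = -p (p-2)` and `(p-2)^2 - 4 = p (p-4)`
  have hp1 : ((p - 1 : ℕ) : L) = (p : L) - 1 := by
    rw [Nat.cast_sub (by omega)]; simp
  have hp2 : ((p - 2 : ℕ) : L) = (p : L) - 2 := by
    rw [Nat.cast_sub (by omega)]; simp
  have hA' : v ((p : L) - 2) < 1 := by
    have : 1 - ((p : L) - 1) ^ 2 = -((p : L) * ((p : L) - 2)) := by ring
    rw [hp1, this, Valuation.map_neg, map_mul, hvp, one_mul] at hA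
    exact hA
  have hB' : v ((p : L) - 4) < 1 := by
    have : ((p : L) - 2) ^ 2 - 2 ^ 2 = (p : L) * ((p : L) - 4) := by ring
    rw [hp2, this, map_mul, hvp, one_mul] at hB
    exact hB
  have h2 : v (2 : L) < 1 := by
    have : (2 : L) = ((p : L) - 2) - ((p : L) - 4) := by ring
    rw [this]
    exact lt_of_le_of_lt (v.map_sub _ _) (max_lt hA' hB')
  rw [hv2] at h2
  exact lt_irrefl _ h2

/-- **S05 (II)** in the interface form (full symmetry hypothesis). -/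
theorem h27_kernel_core (v : Valuation L Γ₀) (p : ℕ) (hp5 : 5 ≤ p)
    (hv2 : v (2 : L) = 1) (hvp : v (p : L) = 1)
    (a' b' : L) (ha : v a' ≤ 1) (hb : v b' ≤ 1) (ξ : ℕ → L)
    (ne_zero : ∀ k, 1 ≤ k → k ≤ p - 1 → ξ k ≠ 0)
    (symm : ∀ k, 1 ≤ k → k ≤ p - 1 → ξ (p - k) = ξ k)
    (dbl : ξ 2 * (ξ 1 * (4 * ξ 1 ^ 2 + b' * ξ 1 + 4 * a')) = (ξ 1 ^ 2 - a') ^ 2)
    (s1 : ∀ k, 2 ≤ k → k ≤ p - 2 →
      ξ (k + 1) * ξ (k - 1) * (ξ k - ξ 1) ^ 2 = (ξ k * ξ 1 - a') ^ 2)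
    (s2 : ∀ k, 2 ≤ k → k ≤ p - 2 →
      (ξ (k + 1) + ξ (k - 1)) * (ξ k - ξ 1) ^ 2 =
        ξ k * ξ 1 * (2 * (ξ k + ξ 1) + b') + 2 * a' * (ξ k + ξ 1)) :
    v (ξ 1) ≤ 1 :=
  h27_kernel_core_min v p hp5 hv2 hvp a' b' ha hb ξ ne_zero (symm 1 le_rfl (by omega))
    (symm 2 (by omega) (by omega)) dbl s1 s2

end Fermat.Agent.H27
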