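/-
S05 (helper5): glue from `H5.XData` + a point of prime order `p` to the sequence interface used by
the abstract valuation lemmas (II) `h27_kernel_core` and (III).
-/
import Fermat.Agent.S05.XData
import Fermat.Agent.S05.KernelRed

set_option autoImplicit false

namespace H5

variable {K : Type*} [Field K] {G : Type*} [AddCommGroup G] (D : XData K G)

theorem XData.eq_or_eq_neg {P Q : G} (hP : P ≠ 0) (hQ : Q ≠ 0) (h : D.xi P = D.xi Q) :
    P = Q ∨ P = -Q := by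
  have h1 := D.om_sq P hP
  have h2 := D.om_sq Q hQ
  rw [h] at h1
  have h3 : D.om P ^ 2 = D.om Q ^ 2 := h1.trans h2.symm
  rcases sq_eq_sq_iff_eq_or_eq_neg.mp h3 with h4 | h4
  · exact Or.inl (D.eq_of_xi_om P Q hP hQ h h4)
  · refine Or.inr (D.eq_of_xi_om P (-Q) hP (neg_ne_zero.mpr hQ) ?_ ?_)
    · rw [D.xi_neg]; exact h
    · rw [D.om_neg]; exact h4

theorem XData.add_self_eq_zero_of_om_eq_zero {P : G} (hP : P ≠ 0) (h : D.om P = 0) :
    P + P = 0 := by
  have : P = -P := D.eq_of_xi_om P (-P) hP (neg_ne_zero.mpr hP) (D.xi_neg P).symm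
    (by rw [D.om_neg, h, neg_zero])
  exact add_eq_zero_iff_eq_neg.mpr this

theorem XData.add_self_eq_zero_of_xi_eq_zero {P : G} (hP : P ≠ 0) (h : D.xi P = 0) :
    P + P = 0 := by
  apply D.add_self_eq_zero_of_om_eq_zero hP
  have := D.om_sq P hP
  rw [h, zero_mul] at this
  exact pow_eq_zero_iff (by norm_num) |>.mp this

section torsion

variable {p : ℕ} (hpp : p.Prime) {P : G} (hP0 : P ≠ 0) (hpP : p • P = 0)
include hpp hP0 hpP

theorem nsmul_eq_zero_iff_of_prime (k : ℕ) : k • P = 0 ↔ p ∣ k := by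
  haveI : Fact p.Prime := ⟨hpp⟩
  have hord : addOrderOf P = p := addOrderOf_eq_prime hpP hP0
  rw [← hord]
  exact addOrderOf_dvd_iff_nsmul_eq_zero.symm

theorem nsmul_ne_zero_of_lt {k : ℕ} (h1 : 1 ≤ k) (h2 : k ≤ p - 1) : k • P ≠ 0 := by
  intro h
  have := (nsmul_eq_zero_iff_of_prime hpp hP0 hpP k).mp h
  have := Nat.le_of_dvd (by omega) this
  have := hpp.two_le
  omega

theorem eq_zero_of_add_self_eq_zero (hp5 : 5 ≤ p) : P + P ≠ 0 := by
  intro h
  have h2 : 2 • P = 0 := by rw [two_nsmul]; exact h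
  have := (nsmul_eq_zero_iff_of_prime hpp hP0 hpP 2).mp h2
  have := Nat.le_of_dvd (by norm_num) this
  omega

end torsion

section seq

variable {p : ℕ} (hpp : p.Prime) (hp5 : 5 ≤ p) {P : G} (hP0 : P ≠ 0) (hpP : p • P = 0)
include hpp hp5 hP0 hpP

theorem seq_ne_zero (k : ℕ) (h1 : 1 ≤ k) (h2 : k ≤ p - 1) : D.xi (k • P) ≠ 0 := by
  intro h
  have hk0 : k • P ≠ 0 := nsmul_ne_zero_of_lt hpp hP0 hpP h1 h2
  have hkp : p • (k • P) = 0 := by rw [smul_comm, hpP, smul_zero]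
  have := D.add_self_eq_zero_of_xi_eq_zero hk0 h
  exact eq_zero_of_add_self_eq_zero hpp hk0 hkp hp5 this

theorem seq_symm (k : ℕ) (_h1 : 1 ≤ k) (h2 : k ≤ p - 1) : D.xi ((p - k) • P) = D.xi (k • P) := by
  have : (p - k) • P = -(k • P) := by
    have hle : k ≤ p := by omega
    rw [eq_neg_iff_add_eq_zero, ← add_nsmul, Nat.sub_add_cancel hle, hpP]
  rw [this, D.xi_neg]

theorem seq_ne (k : ℕ) (h1 : 2 ≤ k) (h2 : k ≤ p - 2) : D.xi (k • P) ≠ D.xi P := by
  intro h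
  have hk0 : k • P ≠ 0 := nsmul_ne_zero_of_lt hpp hP0 hpP (by omega) (by omega)
  rcases D.eq_or_eq_neg hk0 hP0 h with h' | h'
  · -- (k-1) P = 0
    have : (k - 1) • P = 0 := by
      have e : k • P = (k - 1) • P + P := by
        rw [← succ_nsmul, Nat.sub_add_cancel (by omega)]
      rw [e] at h'
      exact add_eq_right.mp h'
    exact nsmul_ne_zero_of_lt hpp hP0 hpP (k := k - 1) (by omega) (by omega) this
  · have : (k + 1) • P = 0 := by
      rw [succ_nsmul, h', neg_add_cancel]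
    exact nsmul_ne_zero_of_lt hpp hP0 hpP (k := k + 1) (by omega) (by omega) this

theorem seq_dbl : D.xi (2 • P) * (D.xi P * (4 * D.xi P ^ 2 + D.be * D.xi P + 4 * D.al)) =
    (D.xi P ^ 2 - D.al) ^ 2 := by
  have h2 : P + P ≠ 0 := eq_zero_of_add_self_eq_zero hpp hP0 hpP hp5
  rw [two_nsmul, ← D.om_sq P hP0]
  exact D.dbl_formula P hP0 h2

theorem seq_s1 (k : ℕ) (h1 : 2 ≤ k) (h2 : k ≤ p - 2) :
    D.xi ((k + 1) • P) * D.xi ((k - 1) • P) * (D.xi (k • P) - D.xi P) ^ 2 =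
      (D.xi (k • P) * D.xi P - D.al) ^ 2 := by
  have hk0 : k • P ≠ 0 := nsmul_ne_zero_of_lt hpp hP0 hpP (by omega) (by omega)
  have hne := seq_ne D hpp hp5 hP0 hpP k h1 h2
  have e1 : (k + 1) • P = k • P + P := succ_nsmul P k
  have e2 : (k - 1) • P = k • P - P := by
    rw [eq_sub_iff_add_eq, ← succ_nsmul, Nat.sub_add_cancel (by omega)]
  rw [e1, e2]
  exact D.prod_formula (k • P) P hk0 hP0 hne

theorem seq_s2 (k : ℕ) (h1 : 2 ≤ k) (h2 : k ≤ p - 2) :
    (D.xi ((k + 1) • P) + D.xi ((k - 1) • P)) * (D.xi (k • P) - D.xi P) ^ 2 =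
      D.xi (k • P) * D.xi P * (2 * (D.xi (k • P) + D.xi P) + D.be) +
        2 * D.al * (D.xi (k • P) + D.xi P) := by
  have hk0 : k • P ≠ 0 := nsmul_ne_zero_of_lt hpp hP0 hpP (by omega) (by omega)
  have hne := seq_ne D hpp hp5 hP0 hpP k h1 h2
  have e1 : (k + 1) • P = k • P + P := succ_nsmul P k
  have e2 : (k - 1) • P = k • P - P := by
    rw [eq_sub_iff_add_eq, ← succ_nsmul, Nat.sub_add_cancel (by omega)]
  rw [e1, e2]
  exact D.sum_formula (k • P) P hk0 hP0 hne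

/-- (II) for `XData`: a point of prime order `p` (a unit) has integral `xi`. -/
theorem xi_integral {Γ₀ : Type*} [LinearOrderedCommGroupWithZero Γ₀] (v : Valuation K Γ₀)
    (hv2 : v (2 : K) = 1) (hvp : v (p : K) = 1) (hal : v D.al ≤ 1) (hbe : v D.be ≤ 1) :
    v (D.xi P) ≤ 1 := by
  have := Fermat.Agent.H27.h27_kernel_core v p hp5 hv2 hvp D.al D.be hal hbe
    (fun k => D.xi (k • P))
    (seq_ne_zero D hpp hp5 hP0 hpP)
    (seq_symm D hpp hp5 hP0 hpP)
    (by simpa using seq_dbl D hpp hp5 hP0 hpP)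
    (fun k h1 h2 => by simpa using seq_s1 D hpp hp5 hP0 hpP k h1 h2)
    (fun k h1 h2 => by simpa using seq_s2 D hpp hp5 hP0 hpP k h1 h2)
  simpa using this

end seq

end H5
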