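/-
S05 (helper5): valuation-theoretic core of Steps 2 and 3 (pure field/valuation statements).
-/
import Mathlib

set_option autoImplicit false

namespace H5

variable {K : Type*} [Field K] {Γ₀ : Type*} [LinearOrderedCommGroupWithZero Γ₀]

/-- `v x < 1`, `v y ≤ 1` ⟹ `v (x * y) < 1`. -/
theorem v_mul_lt_one_left (v : Valuation K Γ₀) {x y : K} (hx : v x < 1) (hy : v y ≤ 1) :
    v (x * y) < 1 := by
  rw [map_mul]
  calc v x * v y ≤ v x * 1 := by gcongr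
    _ = v x := mul_one _
    _ < 1 := hx

theorem v_mul_lt_one_right (v : Valuation K Γ₀) {x y : K} (hx : v x ≤ 1) (hy : v y < 1) :
    v (x * y) < 1 := by
  rw [mul_comm]; exact v_mul_lt_one_left v hy hx

theorem v_mul_le_one (v : Valuation K Γ₀) {x y : K} (hx : v x ≤ 1) (hy : v y ≤ 1) :
    v (x * y) ≤ 1 := by
  rw [map_mul]
  calc v x * v y ≤ 1 * 1 := by gcongr
    _ = 1 := mul_one _

theorem v_natCast_le_one (v : Valuation K Γ₀) (n : ℕ) : v (n : K) ≤ 1 := by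
  induction n with
  | zero => simp
  | succ n ih =>
    rw [Nat.cast_succ]
    exact (v.map_add _ _).trans (max_le ih (by simp))

theorem v_ofNat_le_one (v : Valuation K Γ₀) (n : ℕ) [n.AtLeastTwo] : v (OfNat.ofNat n : K) ≤ 1 := by
  have := v_natCast_le_one v (OfNat.ofNat n)
  rwa [Nat.cast_ofNat] at this

/-- the discriminant is small if `8ξ+β` and `ξ²-α` are. -/
theorem disc_lt_one (v : Valuation K Γ₀) {α β ξ : K} (hβ : v β ≤ 1) (hξ : v ξ ≤ 1)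
    (h1 : v (8 * ξ + β) < 1) (h2 : v (ξ ^ 2 - α) < 1) : v (β ^ 2 - 64 * α) < 1 := by
  have e : β ^ 2 - 64 * α = (8 * ξ + β) * (β - 8 * ξ) + 64 * (ξ ^ 2 - α) := by ring
  rw [e]
  have h8 : v (8 : K) ≤ 1 := v_ofNat_le_one v 8
  have h64 : v (64 : K) ≤ 1 := v_ofNat_le_one v 64
  have h3 : v (β - 8 * ξ) ≤ 1 := (v.map_sub _ _).trans (max_le hβ (v_mul_le_one v h8 hξ))
  exact v.map_add_lt (v_mul_lt_one_left v h1 h3) (v_mul_lt_one_right v h64 h2)


/-- `v β = 1` in the multiplicative case. -/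
theorem v_be_eq_one (v : Valuation K Γ₀) {α β : K} (hα : v α < 1)
    (hdisc : v (β ^ 2 - 64 * α) = 1) : v β = 1 := by
  have h64 : v (64 * α) < 1 := v_mul_lt_one_right v (v_ofNat_le_one v 64) hα
  have e : β ^ 2 = (β ^ 2 - 64 * α) + 64 * α := by ring
  have h1 : v (β ^ 2) = 1 := by
    rw [e, Valuation.map_add_eq_of_lt_left v (by rw [hdisc]; exact h64), hdisc]
  rw [map_pow] at h1
  exact (pow_eq_one_iff_of_nonneg zero_le (by norm_num)).mp h1

/-- if `x² ≤ y²` then `x ≤ y` in `Γ₀`. -/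
theorem le_of_sq_le_sq {x y : Γ₀} (h : x ^ 2 ≤ y ^ 2) : x ≤ y := by
  by_contra hlt
  rw [not_le] at hlt
  have : y ^ 2 < x ^ 2 := pow_lt_pow_left₀ hlt zero_le (by norm_num)
  exact absurd h (not_le.mpr this)

theorem sq_lt_self {x : Γ₀} (h0 : x ≠ 0) (h1 : x < 1) : x ^ 2 < x := by
  have hpos : 0 < x := zero_lt_iff.mpr h0
  calc x ^ 2 = x * x := sq x
    _ < x * 1 := mul_lt_mul_of_pos_left h1 hpos
    _ = x := mul_one x

/-- **Step 2 core.** -/
theorem step2_core (v : Valuation K Γ₀) {α β ξ₁ ξ₂ S Pr : K}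
    (hα : v α ≤ 1) (hβ : v β ≤ 1) (hdisc : v (β ^ 2 - 64 * α) = 1)
    (hξ₁ : v ξ₁ ≤ 1) (hξ₂ : v ξ₂ = v ξ₁) (hδ : v (ξ₁ - ξ₂) < 1) (hne : ξ₁ ≠ ξ₂)
    (hδ' : v α < 1 → v ξ₁ < 1 → v (ξ₁ - ξ₂) < v ξ₁)
    (hS : S * (ξ₁ - ξ₂) ^ 2 = ξ₁ * ξ₂ * (2 * (ξ₁ + ξ₂) + β) + 2 * α * (ξ₁ + ξ₂))
    (hP : Pr * (ξ₁ - ξ₂) ^ 2 = (ξ₁ * ξ₂ - α) ^ 2)
    (hSle : v S ≤ 1) (hPle : v Pr ≤ 1) : False := by
  have h2 : v (2 : K) ≤ 1 := v_ofNat_le_one v 2
  have h4 : v (4 : K) ≤ 1 := v_ofNat_le_one v 4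
  have hδ0 : ξ₁ - ξ₂ ≠ 0 := sub_ne_zero.mpr hne
  have hδpos : 0 < v (ξ₁ - ξ₂) := by rw [Valuation.pos_iff]; exact hδ0
  have hξ₂' : v ξ₂ ≤ 1 := hξ₂ ▸ hξ₁
  -- v numS ≤ vδ²
  have hnum : v (ξ₁ * ξ₂ * (2 * (ξ₁ + ξ₂) + β) + 2 * α * (ξ₁ + ξ₂)) ≤ v (ξ₁ - ξ₂) ^ 2 := by
    rw [← hS, map_mul, map_pow]
    calc v S * v (ξ₁ - ξ₂) ^ 2 ≤ 1 * v (ξ₁ - ξ₂) ^ 2 := by gcongr
      _ = _ := one_mul _
  have he : v (ξ₁ * ξ₂ - α) ≤ v (ξ₁ - ξ₂) := by
    apply le_of_sq_le_sq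
    rw [← map_pow, ← hP, map_mul, map_pow]
    calc v Pr * v (ξ₁ - ξ₂) ^ 2 ≤ 1 * v (ξ₁ - ξ₂) ^ 2 := by gcongr
      _ = _ := one_mul _
  have he1 : v (ξ₁ * ξ₂ - α) < 1 := lt_of_le_of_lt he hδ
  have hδ2 : v (ξ₁ - ξ₂) ^ 2 < 1 := by
    calc v (ξ₁ - ξ₂) ^ 2 = v (ξ₁ - ξ₂) * v (ξ₁ - ξ₂) := sq _
      _ ≤ v (ξ₁ - ξ₂) * 1 := by gcongr
      _ = v (ξ₁ - ξ₂) := mul_one _
      _ < 1 := hδ
  have hsum : v (ξ₁ + ξ₂) ≤ v ξ₁ := (v.map_add _ _).trans (max_le le_rfl hξ₂.le)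
  have hsum1 : v (ξ₁ + ξ₂) ≤ 1 := hsum.trans hξ₁
  have hfac : v (2 * (ξ₁ + ξ₂) + β) ≤ 1 :=
    (v.map_add _ _).trans (max_le (v_mul_le_one v h2 hsum1) hβ)
  rcases hα.lt_or_eq with hαlt | hαeq
  · -- multiplicative case
    have hβ1 : v β = 1 := v_be_eq_one v hαlt hdisc
    rcases hξ₁.lt_or_eq with hξlt | hξeq
    · have hδξ := hδ' hαlt hξlt
      have hξ0 : ξ₁ ≠ 0 := by
        intro h0
        rw [h0, map_zero] at hδξ
        exact absurd hδξ (not_lt.mpr zero_le)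
      have hξpos : 0 < v ξ₁ := by rw [Valuation.pos_iff]; exact hξ0
      rcases lt_or_ge (v α) (v ξ₁) with hlt | hge
      · -- S-type
        have hfac1 : v (2 * (ξ₁ + ξ₂) + β) = 1 := by
          have hlt2 : v (2 * (ξ₁ + ξ₂)) < v β := by
            rw [hβ1]
            exact v_mul_lt_one_right v h2 (lt_of_le_of_lt hsum hξlt)
          rw [Valuation.map_add_eq_of_lt_right v hlt2, hβ1]
        have hfirst : v (ξ₁ * ξ₂ * (2 * (ξ₁ + ξ₂) + β)) = v ξ₁ ^ 2 := by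
          rw [map_mul, map_mul, hfac1, hξ₂, mul_one, sq]
        have hsecond : v (2 * α * (ξ₁ + ξ₂)) < v ξ₁ ^ 2 := by
          rw [map_mul, map_mul, sq]
          calc v 2 * v α * v (ξ₁ + ξ₂) ≤ 1 * v α * v ξ₁ := by gcongr
            _ = v α * v ξ₁ := by rw [one_mul]
            _ < v ξ₁ * v ξ₁ := mul_lt_mul_of_pos_right hlt hξpos
        have hnumeq : v (ξ₁ * ξ₂ * (2 * (ξ₁ + ξ₂) + β) + 2 * α * (ξ₁ + ξ₂)) = v ξ₁ ^ 2 := by
          rw [Valuation.map_add_eq_of_lt_left v (by rw [hfirst]; exact hsecond), hfirst]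
        rw [hnumeq] at hnum
        have : v (ξ₁ - ξ₂) ^ 2 < v ξ₁ ^ 2 := pow_lt_pow_left₀ hδξ zero_le (by norm_num)
        exact absurd hnum (not_le.mpr this)
      · -- M-type
        have hprod : v (ξ₁ * ξ₂) < v α := by
          rw [map_mul, hξ₂, ← sq]
          exact lt_of_lt_of_le (sq_lt_self hξpos.ne' hξlt) hge
        have heq : v (ξ₁ * ξ₂ - α) = v α := by
          rw [Valuation.map_sub_eq_of_lt_right v hprod]
        rw [heq] at he
        exact absurd (lt_of_le_of_lt he hδξ) (not_lt.mpr hge)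
    · -- ξ₁ unit
      have hprod : v (ξ₁ * ξ₂) = 1 := by rw [map_mul, hξ₂, hξeq, mul_one]
      have heq : v (ξ₁ * ξ₂ - α) = 1 := by
        rw [Valuation.map_sub_eq_of_lt_left v (by rw [hprod]; exact hαlt), hprod]
      rw [heq] at he1
      exact lt_irrefl _ he1
  · -- good reduction case
    have h1 : v (ξ₁ ^ 2 - α) < 1 := by
      have e : ξ₁ ^ 2 - α = (ξ₁ * ξ₂ - α) + ξ₁ * (ξ₁ - ξ₂) := by ring
      rw [e]
      exact v.map_add_lt he1 (v_mul_lt_one_right v hξ₁ hδ)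
    have h3 : v (α * (8 * ξ₁ + β)) < 1 := by
      have e : α * (8 * ξ₁ + β) =
          (ξ₁ * ξ₂ * (2 * (ξ₁ + ξ₂) + β) + 2 * α * (ξ₁ + ξ₂)) + (4 * α * (ξ₁ - ξ₂)
            - (ξ₁ * ξ₂ - α) * (2 * (ξ₁ + ξ₂) + β)) := by ring
      rw [e]
      refine v.map_add_lt (lt_of_le_of_lt hnum hδ2) ?_
      refine v.map_sub_lt ?_ (v_mul_lt_one_left v he1 hfac)
      exact v_mul_lt_one_right v (v_mul_le_one v h4 hα) hδ
    rw [map_mul, hαeq, one_mul] at h3
    have := disc_lt_one v hβ hξ₁ h3 h1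
    rw [hdisc] at this
    exact lt_irrefl _ this

/-- **Step 3 core.** -/
theorem step3_core (v : Valuation K Γ₀) {α β ξ ω X2 : K}
    (hα : v α ≤ 1) (hβ : v β ≤ 1) (hdisc : v (β ^ 2 - 64 * α) = 1)
    (hξ : v ξ ≤ 1) (hω0 : ω ≠ 0)
    (hω2 : ω ^ 2 = ξ * (4 * ξ ^ 2 + β * ξ + 4 * α))
    (hdbl : X2 * ω ^ 2 = (ξ ^ 2 - α) ^ 2) (hX2 : v X2 ≤ 1)
    (hωm : v ω < 1)
    (hlev : v α < 1 → v ξ < 1 → v ω ≠ v ξ) : False := by
  have h4 : v (4 : K) ≤ 1 := v_ofNat_le_one v 4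
  have hωpos : 0 < v ω := by rw [Valuation.pos_iff]; exact hω0
  have hξ0 : ξ ≠ 0 := by
    intro h0
    rw [h0, zero_mul] at hω2
    exact hω0 (pow_eq_zero_iff (by norm_num) |>.mp hω2)
  have hξpos : 0 < v ξ := by rw [Valuation.pos_iff]; exact hξ0
  have he : v (ξ ^ 2 - α) ≤ v ω := by
    apply le_of_sq_le_sq
    rw [← map_pow, ← hdbl, map_mul, map_pow]
    calc v X2 * v ω ^ 2 ≤ 1 * v ω ^ 2 := by gcongr
      _ = _ := one_mul _
  have he1 : v (ξ ^ 2 - α) < 1 := lt_of_le_of_lt he hωm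
  have hψ : v ξ * v (4 * ξ ^ 2 + β * ξ + 4 * α) = v ω ^ 2 := by
    rw [← map_mul, ← hω2, map_pow]
  have hω2lt : v ω ^ 2 < 1 := by
    calc v ω ^ 2 = v ω * v ω := sq _
      _ ≤ v ω * 1 := by gcongr
      _ = v ω := mul_one _
      _ < 1 := hωm
  rcases hα.lt_or_eq with hαlt | hαeq
  · have hβ1 : v β = 1 := v_be_eq_one v hαlt hdisc
    rcases hξ.lt_or_eq with hξlt | hξeq
    · apply hlev hαlt hξlt
      have hsq : v (4 * ξ ^ 2) < v ξ := by
        rw [map_mul, map_pow]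
        calc v 4 * v ξ ^ 2 ≤ 1 * v ξ ^ 2 := by gcongr
          _ = v ξ ^ 2 := one_mul _
          _ < v ξ := sq_lt_self hξpos.ne' hξlt
      have hβξ : v (β * ξ) = v ξ := by rw [map_mul, hβ1, one_mul]
      rcases lt_or_ge (v α) (v ξ) with hlt | hge
      · have h4α : v (4 * α) < v ξ := by
          rw [map_mul]
          calc v 4 * v α ≤ 1 * v α := by gcongr
            _ = v α := one_mul _
            _ < v ξ := hlt
        have hfac : v (4 * ξ ^ 2 + β * ξ + 4 * α) = v ξ := by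
          rw [Valuation.map_add_eq_of_lt_left v, Valuation.map_add_eq_of_lt_right v, hβξ]
          · rw [hβξ]; exact hsq
          · rw [Valuation.map_add_eq_of_lt_right v (by rw [hβξ]; exact hsq), hβξ]; exact h4α
        rw [hfac, ← sq] at hψ
        have h1 : v ω ≤ v ξ := le_of_sq_le_sq hψ.symm.le
        have h2 : v ξ ≤ v ω := le_of_sq_le_sq hψ.le
        exact le_antisymm h1 h2
      · have hsqα : v (ξ ^ 2) < v α := by
          rw [map_pow]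
          exact lt_of_lt_of_le (sq_lt_self hξpos.ne' hξlt) hge
        have heq : v (ξ ^ 2 - α) = v α := Valuation.map_sub_eq_of_lt_right v hsqα
        rw [heq] at he
        have hfac : v (4 * ξ ^ 2 + β * ξ + 4 * α) ≤ v α := by
          refine v.map_add_le (v.map_add_le ?_ ?_) ?_
          · exact (hsq.le).trans hge
          · rw [hβξ]; exact hge
          · rw [map_mul]
            calc v 4 * v α ≤ 1 * v α := by gcongr
              _ = v α := one_mul _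
        have hαpos : 0 < v α := lt_of_lt_of_le hξpos hge
        have h1 : v ω ^ 2 ≤ v ξ * v α := by
          rw [← hψ]
          gcongr
        have h2 : v ω ^ 2 ≤ v α ^ 2 := by
          calc v ω ^ 2 ≤ v ξ * v α := h1
            _ ≤ v α * v α := by gcongr
            _ = v α ^ 2 := (sq _).symm
        have h3 : v ω ≤ v α := le_of_sq_le_sq h2
        have h4' : v ω = v α := le_antisymm h3 he
        rw [h4', sq] at h1
        have h5 : v α ≤ v ξ := le_of_mul_le_mul_right h1 hαpos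
        rw [h4']
        exact le_antisymm h5 hge
    · have hsq : v (ξ ^ 2) = 1 := by rw [map_pow, hξeq, one_pow]
      have heq : v (ξ ^ 2 - α) = 1 := by
        rw [Valuation.map_sub_eq_of_lt_left v (by rw [hsq]; exact hαlt), hsq]
      rw [heq] at he1
      exact lt_irrefl _ he1
  · have hsq : v (ξ ^ 2) = 1 := by
      have e : ξ ^ 2 = (ξ ^ 2 - α) + α := by ring
      rw [e, Valuation.map_add_eq_of_lt_right v (by rw [hαeq]; exact he1), hαeq]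
    have hξ1 : v ξ = 1 := by
      rw [map_pow] at hsq
      exact (pow_eq_one_iff_of_nonneg zero_le (by norm_num)).mp hsq
    rw [hξ1, one_mul] at hψ
    have hfac : v (4 * ξ ^ 2 + β * ξ + 4 * α) < 1 := by rw [hψ]; exact hω2lt
    have h3 : v (ξ * (8 * ξ + β)) < 1 := by
      have e : ξ * (8 * ξ + β) = (4 * ξ ^ 2 + β * ξ + 4 * α) + 4 * (ξ ^ 2 - α) := by ring
      rw [e]
      exact v.map_add_lt hfac (v_mul_lt_one_right v h4 he1)
    rw [map_mul, hξ1, one_mul] at h3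
    have := disc_lt_one v hβ hξ h3 he1
    rw [hdisc] at this
    exact lt_irrefl _ this

end H5
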