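/-
S05 (helper5): the abstract theorem `H5.torsion_fixed_aux`: inertia-like automorphisms fix
`p`-torsion points, given the x-coordinate data `XData`, the kernel lemma (II) and the level
lemma (III) (passed as hypothesis `hIII` here).
-/
import Fermat.Agent.S05.Glue
import Fermat.Agent.S05.Steps

set_option autoImplicit false

namespace H5

variable {K : Type*} [Field K] {Γ₀ : Type*} [LinearOrderedCommGroupWithZero Γ₀]

/-- If `ξ` has the valuation of a `σ`-fixed element `c`, then `σ ξ ≡ ξ` modulo `ξ 𝔪`. -/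
theorem v_sub_sigma_lt (v : Valuation K Γ₀) (σK : K →+* K)
    (hσm : ∀ x, v x ≤ 1 → v (σK x - x) < 1) {ξ c : K} (hc0 : c ≠ 0) (hσc : σK c = c)
    (hvc : v ξ = v c) : v (ξ - σK ξ) < v ξ := by
  have hcpos : 0 < v c := by rw [Valuation.pos_iff]; exact hc0
  have hu : v (ξ / c) ≤ 1 := by
    rw [map_div₀, hvc, div_self hcpos.ne']
  have h1 := hσm (ξ / c) hu
  have e : ξ - σK ξ = -(c * (σK (ξ / c) - ξ / c)) := by
    rw [map_div₀, hσc]
    field_simp
    ring
  rw [e, v.map_neg, map_mul, hvc]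
  calc v c * v (σK (ξ / c) - ξ / c) < v c * 1 := mul_lt_mul_of_pos_left h1 hcpos
    _ = v c := mul_one _

/-- If `ω` has the valuation of a `σ`-fixed element `c` (and `2` is a unit), then `σ ω ≠ -ω`. -/
theorem sigma_ne_neg (v : Valuation K Γ₀) (σK : K →+* K)
    (hσm : ∀ x, v x ≤ 1 → v (σK x - x) < 1) (h2 : v (2 : K) = 1) {ω c : K} (hc0 : c ≠ 0)
    (hσc : σK c = c) (hvc : v ω = v c) : σK ω ≠ -ω := by
  intro h
  have hcpos : 0 < v c := by rw [Valuation.pos_iff]; exact hc0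
  have hlt := v_sub_sigma_lt v σK hσm hc0 hσc hvc
  rw [h, sub_neg_eq_add, ← two_mul, map_mul, h2, one_mul] at hlt
  exact lt_irrefl _ hlt

variable {G : Type*} [AddCommGroup G] (D : XData K G)

theorem torsion_fixed_aux (v : Valuation K Γ₀)
    (h2 : v (2 : K) = 1)
    (hal : v D.al ≤ 1) (hal0 : D.al ≠ 0) (hbe : v D.be ≤ 1)
    (hdisc : v (D.be ^ 2 - 64 * D.al) = 1)
    {p : ℕ} (hpp : p.Prime) (hp5 : 5 ≤ p) (hp : v (p : K) = 1)
    (π : K) (hπ : v D.al = v π ^ p)
    (σK : K →+* K) (σG : G →+ G)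
    (hσxi : ∀ P, P ≠ 0 → D.xi (σG P) = σK (D.xi P))
    (hσom : ∀ P, P ≠ 0 → D.om (σG P) = σK (D.om P))
    (hσ0 : ∀ P, σG P = 0 → P = 0)
    (hσv : ∀ x, v (σK x) = v x)
    (hσm : ∀ x, v x ≤ 1 → v (σK x - x) < 1)
    (hσπ : σK π = π)
    (hIII : ∀ Q : G, Q ≠ 0 → p • Q = 0 → v D.al < 1 → v (D.xi Q) < 1 →
      ∃ m : ℕ, v (D.xi Q) = v π ^ m)
    {P : G} (hpP : p • P = 0) : σG P = P := by
  by_cases hP0 : P = 0
  · rw [hP0, map_zero]
  have hQ0 : σG P ≠ 0 := fun h => hP0 (hσ0 P h)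
  have hpQ : p • σG P = 0 := by rw [← map_nsmul, hpP, map_zero]
  have hπ0 : π ≠ 0 := by
    intro h0
    rw [h0, map_zero, zero_pow (by omega), Valuation.zero_iff] at hπ
    exact hal0 hπ
  have hξ₁ : v (D.xi P) ≤ 1 := xi_integral D hpp hp5 hP0 hpP v h2 hp hal hbe
  have hξQ : D.xi (σG P) = σK (D.xi P) := hσxi P hP0
  -- the σ-fixed element with the valuation of ξ
  have hc : v D.al < 1 → v (D.xi P) < 1 →
      ∃ c : K, c ≠ 0 ∧ σK c = c ∧ v (D.xi P) = v c := by
    intro hαlt hξlt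
    obtain ⟨m, hm⟩ := hIII P hP0 hpP hαlt hξlt
    exact ⟨π ^ m, pow_ne_zero _ hπ0, by rw [map_pow, hσπ], by rw [hm, map_pow]⟩
  -- Step 2: equality of xi
  have hstep2 : D.xi P = D.xi (σG P) := by
    by_contra hne
    have hRp : P + σG P ≠ 0 := by
      intro h
      have h' : P = -σG P := eq_neg_of_add_eq_zero_left h
      apply hne
      conv_lhs => rw [h']
      rw [D.xi_neg]
    have hRm : P - σG P ≠ 0 := by
      intro h
      have h' : P = σG P := sub_eq_zero.mp h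
      apply hne
      exact congrArg D.xi h'
    have hpRp : p • (P + σG P) = 0 := by rw [nsmul_add, hpP, hpQ, add_zero]
    have hpRm : p • (P - σG P) = 0 := by rw [nsmul_sub, hpP, hpQ, sub_zero]
    have h1 := xi_integral D hpp hp5 hRp hpRp v h2 hp hal hbe
    have h2' := xi_integral D hpp hp5 hRm hpRm v h2 hp hal hbe
    have hS := D.sum_formula P (σG P) hP0 hQ0 hne
    have hPr := D.prod_formula P (σG P) hP0 hQ0 hne
    refine step2_core v hal hbe hdisc hξ₁ ?_ ?_ hne ?_ hS hPr (v.map_add_le h1 h2')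
      (v_mul_le_one v h1 h2')
    · rw [hξQ, hσv]
    · rw [hξQ, v.map_sub_swap]; exact hσm _ hξ₁
    · intro hαlt hξlt
      obtain ⟨c, hc0, hσc, hvc⟩ := hc hαlt hξlt
      rw [hξQ]
      exact v_sub_sigma_lt v σK hσm hc0 hσc hvc
  -- Step 3
  rcases D.eq_or_eq_neg hP0 hQ0 hstep2 with h | h
  · exact h.symm
  · exfalso
    have hQ : σG P = -P := (neg_eq_iff_eq_neg.mpr h).symm
    have hσω : σK (D.om P) = -D.om P := by
      rw [← hσom P hP0, hQ, D.om_neg]
    have h2P : P + P ≠ 0 := eq_zero_of_add_self_eq_zero hpp hP0 hpP hp5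
    have hω0 : D.om P ≠ 0 := fun h0 => h2P (D.add_self_eq_zero_of_om_eq_zero hP0 h0)
    have hω2 := D.om_sq P hP0
    have h4 : v (4 : K) ≤ 1 := v_ofNat_le_one v 4
    have hωle : v (D.om P) ≤ 1 := by
      have : v (D.om P) ^ 2 ≤ 1 ^ 2 := by
        rw [← map_pow, hω2, one_pow]
        refine v_mul_le_one v hξ₁ (v.map_add_le (v.map_add_le ?_ ?_) ?_)
        · exact v_mul_le_one v h4 (by rw [map_pow]; exact pow_le_one₀ zero_le hξ₁)
        · exact v_mul_le_one v hbe hξ₁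
        · exact v_mul_le_one v h4 hal
      exact le_of_sq_le_sq this
    have hωm : v (D.om P) < 1 := by
      have := hσm _ hωle
      rw [hσω, ← neg_add', v.map_neg, ← two_mul, map_mul, h2, one_mul] at this
      exact this
    have hp2P : p • (P + P) = 0 := by rw [nsmul_add, hpP, add_zero]
    have hX2 := xi_integral D hpp hp5 h2P hp2P v h2 hp hal hbe
    have hdbl := D.dbl_formula P hP0 h2P
    refine step3_core v hal hbe hdisc hξ₁ hω0 hω2 hdbl hX2 hωm ?_
    intro hαlt hξlt hvω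
    obtain ⟨c, hc0, hσc, hvc⟩ := hc hαlt hξlt
    exact sigma_ne_neg v σK hσm h2 hc0 hσc (hvω.trans hvc) hσω

end H5
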