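/-
S05 (helper5): the abstract theorem `H5.torsion_fixed` (all hypotheses discharged):
(II) = `Fermat.Agent.H27.h27_kernel_core`, (III) = `Fermat.Agent.H9.h9_level_core`.
-/
import Fermat.Agent.S05.Main
import Fermat.Agent.S05.LevelVal

set_option autoImplicit false

namespace H5

variable {K : Type*} [Field K] {Γ₀ : Type*} [LinearOrderedCommGroupWithZero Γ₀]
variable {G : Type*} [AddCommGroup G] (D : XData K G)

/-- (III) for `XData`. -/
theorem xi_level (v : Valuation K Γ₀) (h2 : v (2 : K) = 1) (hal0 : D.al ≠ 0)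
    (hdisc : v (D.be ^ 2 - 64 * D.al) = 1)
    {p : ℕ} (hpp : p.Prime) (hp5 : 5 ≤ p)
    (π : K) (hπ : v D.al = v π ^ p)
    {Q : G} (hQ0 : Q ≠ 0) (hpQ : p • Q = 0) (hαlt : v D.al < 1) (hξ : v (D.xi Q) < 1) :
    ∃ m : ℕ, v (D.xi Q) = v π ^ m := by
  have hodd : Odd p := hpp.odd_of_ne_two (by omega)
  have hb : v D.be = 1 := v_be_eq_one v hαlt hdisc
  obtain ⟨-, j, -, hj⟩ := Fermat.Agent.H9.h9_level_core v p hp5 hodd h2 D.al D.be hal0 hαlt hb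
    π hπ (fun k => D.xi (k • Q))
    (seq_ne_zero D hpp hp5 hQ0 hpQ)
    (seq_symm D hpp hp5 hQ0 hpQ)
    (fun k h1 h2 => by simpa using seq_ne D hpp hp5 hQ0 hpQ k h1 h2)
    (by simpa using seq_dbl D hpp hp5 hQ0 hpQ)
    (fun k h1 h2 => by simpa using seq_s1 D hpp hp5 hQ0 hpQ k h1 h2)
    (fun k h1 h2 => by simpa using seq_s2 D hpp hp5 hQ0 hpQ k h1 h2)
    (by simpa using hξ)
  exact ⟨2 * j, by simpa using hj⟩

/-- **Abstract S05.** An automorphism acting trivially modulo the maximal ideal fixes all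
`p`-torsion points. -/
theorem torsion_fixed (v : Valuation K Γ₀)
    (h2 : v (2 : K) = 1)
    (hal : v D.al ≤ 1) (hal0 : D.al ≠ 0) (hbe : v D.be ≤ 1)
    (hdisc : v (D.be ^ 2 - 64 * D.al) = 1)
    {p : ℕ} (hpp : p.Prime) (hp5 : 5 ≤ p) (hp : v (p : K) = 1)
    (π : K) (hπ : v D.al = v π ^ p)
    (σK : K →+* K) (σG : G →+ G)
    (hσxi : ∀ P, P ≠ 0 → D.xi (σG P) = σK (D.xi P))
    (hσom : ∀ P, P ≠ 0 → D.om (σG P) = σK (D.om P))
    (hσ0 : ∀ P, σG P = 0 → P = 0)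
    (hσv : ∀ x, v (σK x) = v x)
    (hσm : ∀ x, v x ≤ 1 → v (σK x - x) < 1)
    (hσπ : σK π = π)
    {P : G} (hpP : p • P = 0) : σG P = P :=
  torsion_fixed_aux D v h2 hal hal0 hbe hdisc hpp hp5 hp π hπ σK σG hσxi hσom hσ0 hσv hσm hσπ
    (fun _ hQ0 hpQ hαlt hξ => xi_level D v h2 hal0 hdisc hpp hp5 π hπ hQ0 hpQ hαlt hξ) hpP

end H5
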