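import Mathlib

/-!
# Abstract additive valuations with values in a linearly ordered group (helper9, for S05)

`H9AddVal L G` is a function `w : L → G` (junk value at `0`) which is additive on products of
nonzero elements and satisfies the ultrametric inequality. All linear arithmetic in `G` is
discharged by `grind`.
-/

set_option autoImplicit false

namespace Fermat.Agent.H9

/-- An additive valuation on the nonzero elements of a field, with values in a linearly ordered
additive group (the value at `0` is junk). -/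
structure H9AddVal (L : Type*) [Field L] (G : Type*) [AddCommGroup G] [LinearOrder G]
    [IsOrderedAddMonoid G] where
  /-- the valuation -/
  w : L → G
  map_mul' : ∀ x y : L, x ≠ 0 → y ≠ 0 → w (x * y) = w x + w y
  map_add' : ∀ x y : L, x ≠ 0 → y ≠ 0 → x + y ≠ 0 → min (w x) (w y) ≤ w (x + y)
  map_neg' : ∀ x : L, w (-x) = w x

namespace H9AddVal

variable {L : Type*} [Field L] {G : Type*} [AddCommGroup G] [LinearOrder G]
  [IsOrderedAddMonoid G] (W : H9AddVal L G)

theorem map_mul {x y : L} (hx : x ≠ 0) (hy : y ≠ 0) : W.w (x * y) = W.w x + W.w y :=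
  W.map_mul' x y hx hy

theorem map_neg (x : L) : W.w (-x) = W.w x := W.map_neg' x

theorem map_one : W.w 1 = 0 := by
  have h := W.map_mul (one_ne_zero (α := L)) (one_ne_zero (α := L))
  rw [mul_one] at h
  grind

theorem map_inv {x : L} (hx : x ≠ 0) : W.w x⁻¹ = -W.w x := by
  have h := W.map_mul hx (inv_ne_zero hx)
  rw [mul_inv_cancel₀ hx, W.map_one] at h
  grind

theorem map_div {x y : L} (hx : x ≠ 0) (hy : y ≠ 0) : W.w (x / y) = W.w x - W.w y := by
  rw [div_eq_mul_inv, W.map_mul hx (inv_ne_zero hy), W.map_inv hy]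
  grind

theorem map_pow {x : L} (hx : x ≠ 0) (n : ℕ) : W.w (x ^ n) = n • W.w x := by
  induction n with
  | zero => simp [W.map_one]
  | succ n ih =>
    rw [pow_succ, W.map_mul (pow_ne_zero n hx) hx, ih, succ_nsmul]

theorem map_sq {x : L} (hx : x ≠ 0) : W.w (x ^ 2) = W.w x + W.w x := by
  rw [W.map_pow hx, two_nsmul]

theorem map_add_ge {x y : L} (hx : x ≠ 0) (hy : y ≠ 0) (hxy : x + y ≠ 0) :
    min (W.w x) (W.w y) ≤ W.w (x + y) := W.map_add' x y hx hy hxy

theorem map_sub_ge {x y : L} (hx : x ≠ 0) (hy : y ≠ 0) (hxy : x - y ≠ 0) :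
    min (W.w x) (W.w y) ≤ W.w (x - y) := by
  have h := W.map_add_ge hx (neg_ne_zero.mpr hy) (by rwa [← sub_eq_add_neg])
  rwa [W.map_neg, ← sub_eq_add_neg] at h

/-- If `w x < w y` then `x + y ≠ 0` and `w (x + y) = w x`. -/
theorem map_add_of_lt {x y : L} (hx : x ≠ 0) (hy : y ≠ 0) (h : W.w x < W.w y) :
    x + y ≠ 0 ∧ W.w (x + y) = W.w x := by
  have hne : x + y ≠ 0 := by
    intro h0
    have : y = -x := by linear_combination h0
    rw [this, W.map_neg] at h
    exact lt_irrefl _ h
  refine ⟨hne, ?_⟩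
  have h1 := W.map_add_ge hx hy hne
  -- x = (x + y) - y
  have h2 := W.map_sub_ge hne hy (by simpa using hx)
  rw [add_sub_cancel_right] at h2
  grind

theorem map_add_of_gt {x y : L} (hx : x ≠ 0) (hy : y ≠ 0) (h : W.w y < W.w x) :
    x + y ≠ 0 ∧ W.w (x + y) = W.w y := by
  rw [add_comm]
  exact W.map_add_of_lt hy hx h

theorem map_sub_of_lt {x y : L} (hx : x ≠ 0) (hy : y ≠ 0) (h : W.w x < W.w y) :
    x - y ≠ 0 ∧ W.w (x - y) = W.w x := by
  have := W.map_add_of_lt hx (neg_ne_zero.mpr hy) (by rwa [W.map_neg])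
  rwa [← sub_eq_add_neg] at this

theorem map_sub_of_gt {x y : L} (hx : x ≠ 0) (hy : y ≠ 0) (h : W.w y < W.w x) :
    x - y ≠ 0 ∧ W.w (x - y) = W.w y := by
  have := W.map_add_of_gt hx (neg_ne_zero.mpr hy) (by rwa [W.map_neg])
  rwa [← sub_eq_add_neg, W.map_neg] at this

/-- Newton polygon for a monic quadratic with roots `xp, xm`: the valuations of the roots in
terms of those of the sum and the product. -/
theorem newton {xp xm : L} (hp : xp ≠ 0) (hm : xm ≠ 0) :
    (xp + xm ≠ 0 ∧ W.w (xp + xm) + W.w (xp + xm) < W.w xp + W.w xm ∧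
      ((W.w xp = W.w (xp + xm) ∧ W.w xm = W.w xp + W.w xm - W.w (xp + xm)) ∨
       (W.w xm = W.w (xp + xm) ∧ W.w xp = W.w xp + W.w xm - W.w (xp + xm)))) ∨
    (W.w xp = W.w xm ∧
      (xp + xm ≠ 0 → W.w xp + W.w xm ≤ W.w (xp + xm) + W.w (xp + xm))) := by
  rcases lt_trichotomy (W.w xp) (W.w xm) with h | h | h
  · obtain ⟨h1, h2⟩ := W.map_add_of_lt hp hm h
    left
    refine ⟨h1, by grind, Or.inl ⟨by grind, by grind⟩⟩
  · right
    refine ⟨h, fun hne => ?_⟩
    have := W.map_add_ge hp hm hne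
    grind
  · obtain ⟨h1, h2⟩ := W.map_add_of_gt hp hm h
    left
    refine ⟨h1, by grind, Or.inr ⟨by grind, by grind⟩⟩

end H9AddVal

end Fermat.Agent.H9
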