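import Fermat.Agent.S05.TwoPoint

/-!
# Levels of the multiples of a point of odd order `p` (helper9, for S05)

Abstract interface: a sequence `ξ k` (`1 ≤ k ≤ p - 1`) of `ξ`-coordinates of the multiples `k P`
of a point of order `p` on `ω² = ξ (4 ξ² + b' ξ + 4 a')`, with the duplication and
addition/subtraction identities. Main result `H9AddVal.level_core`: if `0 < w (ξ 1)`, then
`w (ξ 1) < w a'` and `p • w (ξ 1) ∈ 2 ℤ • w a'`.
-/

set_option autoImplicit false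
set_option linter.unusedSectionVars false

namespace Fermat.Agent.H9

/-- The `ξ`-coordinates of the multiples of a point of order `p`: abstract interface. -/
structure H9MultSeq {L : Type*} [Field L] (a' b' : L) (p : ℕ) (ξ : ℕ → L) : Prop where
  ne_zero : ∀ k, 1 ≤ k → k ≤ p - 1 → ξ k ≠ 0
  symm : ∀ k, 1 ≤ k → k ≤ p - 1 → ξ (p - k) = ξ k
  ne : ∀ k, 2 ≤ k → k ≤ p - 2 → ξ k ≠ ξ 1
  dbl : ξ 2 * (ξ 1 * (4 * ξ 1 ^ 2 + b' * ξ 1 + 4 * a')) = (ξ 1 ^ 2 - a') ^ 2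
  s1 : ∀ k, 2 ≤ k → k ≤ p - 2 →
    ξ (k + 1) * ξ (k - 1) * (ξ k - ξ 1) ^ 2 = (ξ k * ξ 1 - a') ^ 2
  s2 : ∀ k, 2 ≤ k → k ≤ p - 2 →
    (ξ (k + 1) + ξ (k - 1)) * (ξ k - ξ 1) ^ 2 =
      ξ k * ξ 1 * (2 * (ξ k + ξ 1) + b') + 2 * a' * (ξ k + ξ 1)

namespace H9AddVal

variable {L : Type*} [Field L] {G : Type*} [AddCommGroup G] [LinearOrder G]
  [IsOrderedAddMonoid G] (W : H9AddVal L G)

/-- `x` is of type `k`: `x = ±(k β - 2 m n)` for some integer `m`. -/
def IsType (β n : G) (k : ℤ) (x : G) : Prop :=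
  ∃ m : ℤ, x = k • β - (2 * m) • n ∨ x = -(k • β - (2 * m) • n)

theorem isType_fold {β n : G} {k : ℤ} {α : G} (h : IsType β n k α) :
    (IsType β n (k - 1) (max (α - β) (β - α)) ∧
      IsType β n (k + 1) (min (α + β) (n + n - α - β))) ∨
    (IsType β n (k + 1) (max (α - β) (β - α)) ∧
      IsType β n (k - 1) (min (α + β) (n + n - α - β))) := by
  obtain ⟨m, rfl | rfl⟩ := h
  · left
    constructor
    · rcases max_choice (k • β - (2 * m) • n - β) (β - (k • β - (2 * m) • n)) with h | h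
      · exact ⟨m, Or.inl (by rw [h]; module)⟩
      · exact ⟨m, Or.inr (by rw [h]; module)⟩
    · rcases min_choice (k • β - (2 * m) • n + β) (n + n - (k • β - (2 * m) • n) - β) with h | h
      · exact ⟨m, Or.inl (by rw [h]; module)⟩
      · exact ⟨m + 1, Or.inr (by rw [h]; module)⟩
  · right
    constructor
    · rcases max_choice (-(k • β - (2 * m) • n) - β) (β - -(k • β - (2 * m) • n)) with h | h
      · exact ⟨m, Or.inr (by rw [h]; module)⟩
      · exact ⟨m, Or.inl (by rw [h]; module)⟩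
    · rcases min_choice (-(k • β - (2 * m) • n) + β) (n + n - -(k • β - (2 * m) • n) - β)
        with h | h
      · exact ⟨m, Or.inr (by rw [h]; module)⟩
      · exact ⟨m - 1, Or.inl (by rw [h]; module)⟩

theorem isType_both {β n : G} {k : ℤ} {z : G} (h1 : IsType β n (k - 1) z)
    (h2 : IsType β n (k + 1) z) {y : G} (hy : IsType β n (k - 1) y) : IsType β n (k + 1) y := by
  obtain ⟨m₁, h1⟩ := h1
  obtain ⟨m₂, h2⟩ := h2
  obtain ⟨m, hy⟩ := hy
  -- either `2 β ∈ 2 ℤ n` or `2 k β ∈ 2 ℤ n`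
  have key : (2 : ℤ) • β = (2 * (m₂ - m₁)) • n ∨ (2 * k) • β = (2 * (m₁ + m₂)) • n := by
    rcases h1 with h1 | h1 <;> rcases h2 with h2 | h2
    · left
      have : (k - 1) • β - (2 * m₁) • n = (k + 1) • β - (2 * m₂) • n := h1.symm.trans h2
      linear_combination (norm := module) (-1 : ℤ) • this
    · right
      have : (k - 1) • β - (2 * m₁) • n = -((k + 1) • β - (2 * m₂) • n) := h1.symm.trans h2
      linear_combination (norm := module) this
    · right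
      have : -((k - 1) • β - (2 * m₁) • n) = (k + 1) • β - (2 * m₂) • n := h1.symm.trans h2
      linear_combination (norm := module) (-1 : ℤ) • this
    · left
      have : -((k - 1) • β - (2 * m₁) • n) = -((k + 1) • β - (2 * m₂) • n) := h1.symm.trans h2
      linear_combination (norm := module) this
  rcases key with key | key
  · rcases hy with hy | hy
    · exact ⟨m + (m₂ - m₁), Or.inl (by
        rw [hy]; linear_combination (norm := module) (-1 : ℤ) • key)⟩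
    · exact ⟨m + (m₂ - m₁), Or.inr (by rw [hy]; linear_combination (norm := module) key)⟩
  · rcases hy with hy | hy
    · exact ⟨m₁ + m₂ - m, Or.inr (by rw [hy]; linear_combination (norm := module) key)⟩
    · exact ⟨m₁ + m₂ - m, Or.inl (by
        rw [hy]; linear_combination (norm := module) (-1 : ℤ) • key)⟩

theorem w_four (h2 : (2 : L) ≠ 0) (hw2 : W.w 2 = 0) : (4 : L) ≠ 0 ∧ W.w 4 = 0 := by
  have h4 : (4 : L) = 2 * 2 := by norm_num
  rw [h4]
  refine ⟨mul_ne_zero h2 h2, ?_⟩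
  rw [W.map_mul h2 h2, hw2, add_zero]

/-- valuation of `Q = 4 x² + b' x + 4 a'` when `0 < w x < w a'`. -/
theorem w_Q {a' b' x : L} (ha' : a' ≠ 0) (h2 : (2 : L) ≠ 0) (hw2 : W.w 2 = 0)
    (hb' : b' ≠ 0) (hwb : W.w b' = 0) (hx : x ≠ 0) (hβ : 0 < W.w x) (hβn : W.w x < W.w a') :
    4 * x ^ 2 + b' * x + 4 * a' ≠ 0 ∧ W.w (4 * x ^ 2 + b' * x + 4 * a') = W.w x := by
  obtain ⟨h4, hw4⟩ := W.w_four h2 hw2
  have hx2 : x ^ 2 ≠ 0 := pow_ne_zero 2 hx
  have h1 : 4 * x ^ 2 ≠ 0 := mul_ne_zero h4 hx2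
  have hw1 : W.w (4 * x ^ 2) = W.w x + W.w x := by
    rw [W.map_mul h4 hx2, hw4, zero_add, W.map_sq hx]
  have h2' : b' * x ≠ 0 := mul_ne_zero hb' hx
  have hw2' : W.w (b' * x) = W.w x := by rw [W.map_mul hb' hx, hwb, zero_add]
  have h3 : 4 * a' ≠ 0 := mul_ne_zero h4 ha'
  have hw3 : W.w (4 * a') = W.w a' := by rw [W.map_mul h4 ha', hw4, zero_add]
  obtain ⟨h12, hw12⟩ := W.map_add_of_gt h1 h2' (by grind)
  obtain ⟨h123, hw123⟩ := W.map_add_of_lt h12 h3 (by grind)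
  exact ⟨h123, by grind⟩

/-- **Doubling level rule.** -/
theorem dbl_lev {a' b' x x2 : L} (ha' : a' ≠ 0) (h2 : (2 : L) ≠ 0) (hw2 : W.w 2 = 0)
    (hb' : b' ≠ 0) (hwb : W.w b' = 0) (hx : x ≠ 0) (hβ : 0 < W.w x) (hβn : W.w x < W.w a')
    (hx2 : x2 ≠ 0)
    (dbl : x2 * (x * (4 * x ^ 2 + b' * x + 4 * a')) = (x ^ 2 - a') ^ 2) :
    W.lev (W.w a') x2 = min (W.w x + W.w x) (W.w a' + W.w a' - W.w x - W.w x) := by
  obtain ⟨hQ, hwQ⟩ := W.w_Q ha' h2 hw2 hb' hwb hx hβ hβn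
  have hxQ : x * (4 * x ^ 2 + b' * x + 4 * a') ≠ 0 := mul_ne_zero hx hQ
  have hM : x ^ 2 - a' ≠ 0 := by
    intro h0
    rw [h0] at dbl
    exact mul_ne_zero hx2 hxQ (by rw [dbl]; ring)
  have hrel : W.w x2 + (W.w x + W.w x) = W.w (x ^ 2 - a') + W.w (x ^ 2 - a') := by
    have := congrArg W.w dbl
    rw [W.map_mul hx2 hxQ, W.map_mul hx hQ, hwQ, W.map_sq hM] at this
    exact this
  have hxx : x ^ 2 ≠ 0 := pow_ne_zero 2 hx
  have hwxx : W.w (x ^ 2) = W.w x + W.w x := W.map_sq hx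
  unfold lev
  rcases lt_trichotomy (W.w x + W.w x) (W.w a') with h | h | h
  · have := (W.map_sub_of_lt hxx ha' (by rwa [hwxx])).2
    grind
  · have := W.map_sub_ge hxx ha' hM
    grind
  · have := (W.map_sub_of_gt hxx ha' (by rwa [hwxx])).2
    grind


section CaseB

variable {a' b' : L} (ha' : a' ≠ 0) (h2 : (2 : L) ≠ 0) (hw2 : W.w 2 = 0)
  (hb' : b' ≠ 0) (hwb : W.w b' = 0) (hn : 0 < W.w a')

include ha' h2 hw2 hb' hwb hn

/-- Case B (the point reduces to the component of order two): doubling. -/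
theorem dblB {x x2 : L} (hx : x ≠ 0) (hβ : W.w a' ≤ W.w x) (hx2 : x2 ≠ 0)
    (dbl : x2 * (x * (4 * x ^ 2 + b' * x + 4 * a')) = (x ^ 2 - a') ^ 2) :
    W.w x2 ≤ 0 := by
  obtain ⟨h4, hw4⟩ := W.w_four h2 hw2
  have hxx : x ^ 2 ≠ 0 := pow_ne_zero 2 hx
  have hwxx : W.w (x ^ 2) = W.w x + W.w x := W.map_sq hx
  obtain ⟨hM, hwM⟩ := W.map_sub_of_gt hxx ha' (by grind)
  have hQ : 4 * x ^ 2 + b' * x + 4 * a' ≠ 0 := by
    intro h0
    rw [h0, mul_zero, mul_zero] at dbl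
    exact pow_ne_zero 2 hM dbl.symm
  have h4x : 4 * x ≠ 0 := mul_ne_zero h4 hx
  have hw4x : W.w (4 * x) = W.w x := by rw [W.map_mul h4 hx, hw4, zero_add]
  obtain ⟨hU, hwU⟩ := W.map_add_of_gt h4x hb' (by grind)
  have hT1 : x * (4 * x + b') ≠ 0 := mul_ne_zero hx hU
  have hwT1 : W.w (x * (4 * x + b')) = W.w x := by
    rw [W.map_mul hx hU, hwU, hwb, add_zero]
  have hT2 : 4 * a' ≠ 0 := mul_ne_zero h4 ha'
  have hwT2 : W.w (4 * a') = W.w a' := by rw [W.map_mul h4 ha', hw4, zero_add]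
  have hQeq : 4 * x ^ 2 + b' * x + 4 * a' = x * (4 * x + b') + 4 * a' := by ring
  have hwQ : W.w a' ≤ W.w (4 * x ^ 2 + b' * x + 4 * a') := by
    rw [hQeq] at hQ ⊢
    have := W.map_add_ge hT1 hT2 hQ
    grind
  have hrel := congrArg W.w dbl
  rw [W.map_mul hx2 (mul_ne_zero hx hQ), W.map_mul hx hQ, W.map_sq hM, hwM] at hrel
  grind

/-- Case B, step at an even multiple. -/
theorem stepB_even {x₁ x₂ xp xm : L} (hx₁ : x₁ ≠ 0) (hx₂ : x₂ ≠ 0) (hxp : xp ≠ 0)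
    (hxm : xm ≠ 0) (h1 : W.w x₁ ≤ 0) (h2' : W.w a' ≤ W.w x₂) (hm : W.w a' ≤ W.w xm)
    (s2 : (xp + xm) * (x₁ - x₂) ^ 2 =
      x₁ * x₂ * (2 * (x₁ + x₂) + b') + 2 * a' * (x₁ + x₂)) :
    W.w a' ≤ W.w xp := by
  obtain ⟨hD, hwD⟩ := W.map_sub_of_lt hx₁ hx₂ (by grind)
  have hD2 : (x₁ - x₂) ^ 2 ≠ 0 := pow_ne_zero 2 hD
  by_cases hS : xp + xm = 0
  · have : xp = -xm := by linear_combination hS
    rw [this, W.map_neg]
    exact hm
  · have hRne : x₁ * x₂ * (2 * (x₁ + x₂) + b') + 2 * a' * (x₁ + x₂) ≠ 0 := by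
      rw [← s2]; exact mul_ne_zero hS hD2
    have hrel := congrArg W.w s2
    rw [W.map_mul hS hD2, W.map_sq hD, hwD] at hrel
    obtain ⟨hs, hws⟩ := W.map_add_of_lt hx₁ hx₂ (by grind)
    have h2s : 2 * (x₁ + x₂) ≠ 0 := mul_ne_zero h2 hs
    have hw2s : W.w (2 * (x₁ + x₂)) = W.w x₁ := by rw [W.map_mul h2 hs, hw2, zero_add, hws]
    have h2a : 2 * a' ≠ 0 := mul_ne_zero h2 ha'
    have hT2 : 2 * a' * (x₁ + x₂) ≠ 0 := mul_ne_zero h2a hs
    have hwT2 : W.w (2 * a' * (x₁ + x₂)) = W.w a' + W.w x₁ := by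
      rw [W.map_mul h2a hs, W.map_mul h2 ha', hw2, zero_add, hws]
    have hx12 : x₁ * x₂ ≠ 0 := mul_ne_zero hx₁ hx₂
    have hw12 : W.w (x₁ * x₂) = W.w x₁ + W.w x₂ := W.map_mul hx₁ hx₂
    have hwR : W.w a' + W.w x₁ + W.w x₁ ≤
        W.w (x₁ * x₂ * (2 * (x₁ + x₂) + b') + 2 * a' * (x₁ + x₂)) := by
      by_cases hU : 2 * (x₁ + x₂) + b' = 0
      · rw [hU, mul_zero, zero_add, hwT2]
        grind
      · have hwU := W.map_add_ge h2s hb' hU
        have hT1 : x₁ * x₂ * (2 * (x₁ + x₂) + b') ≠ 0 := mul_ne_zero hx12 hU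
        have hwT1 : W.w (x₁ * x₂ * (2 * (x₁ + x₂) + b')) =
            W.w x₁ + W.w x₂ + W.w (2 * (x₁ + x₂) + b') := by
          rw [W.map_mul hx12 hU, hw12]
        have := W.map_add_ge hT1 hT2 hRne
        grind
    have hwS : W.w a' ≤ W.w (xp + xm) := by grind
    have hxp' : xp + xm - xm ≠ 0 := by simpa using hxp
    have := W.map_sub_ge hS hxm hxp'
    rw [add_sub_cancel_right] at this
    grind

/-- Case B, step at an odd multiple. -/
theorem stepB_odd {x₁ x₂ xp xm : L} (hx₁ : x₁ ≠ 0) (hx₂ : x₂ ≠ 0) (hxp : xp ≠ 0)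
    (hxm : xm ≠ 0) (hne : x₁ ≠ x₂) (h1 : W.w a' ≤ W.w x₁) (h2' : W.w a' ≤ W.w x₂)
    (s1 : xp * xm * (x₁ - x₂) ^ 2 = (x₁ * x₂ - a') ^ 2)
    (s2 : (xp + xm) * (x₁ - x₂) ^ 2 =
      x₁ * x₂ * (2 * (x₁ + x₂) + b') + 2 * a' * (x₁ + x₂)) :
    W.w xp ≤ 0 := by
  by_contra hcon
  have hpos : 0 < W.w xp := not_le.mp hcon
  have hD : x₁ - x₂ ≠ 0 := sub_ne_zero.mpr hne
  have hD2 : (x₁ - x₂) ^ 2 ≠ 0 := pow_ne_zero 2 hD
  have hwD := W.map_sub_ge hx₁ hx₂ hD
  have hx12 : x₁ * x₂ ≠ 0 := mul_ne_zero hx₁ hx₂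
  have hw12 : W.w (x₁ * x₂) = W.w x₁ + W.w x₂ := W.map_mul hx₁ hx₂
  obtain ⟨hM, hwM⟩ := W.map_sub_of_gt hx12 ha' (by grind)
  have hprod := congrArg W.w s1
  rw [W.map_mul (mul_ne_zero hxp hxm) hD2, W.map_mul hxp hxm, W.map_sq hD, W.map_sq hM, hwM]
    at hprod
  obtain ⟨hS, hwS⟩ := W.map_add_of_gt hxp hxm (by grind)
  have hRne : x₁ * x₂ * (2 * (x₁ + x₂) + b') + 2 * a' * (x₁ + x₂) ≠ 0 := by
    rw [← s2]; exact mul_ne_zero hS hD2
  have hrel := congrArg W.w s2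
  rw [W.map_mul hS hD2, W.map_sq hD, hwS] at hrel
  have hwR : W.w a' + W.w a' ≤
      W.w (x₁ * x₂ * (2 * (x₁ + x₂) + b') + 2 * a' * (x₁ + x₂)) := by
    by_cases hs : x₁ + x₂ = 0
    · rw [hs]
      simp only [mul_zero, zero_add, add_zero]
      rw [W.map_mul hx12 hb', hwb, hw12]
      grind
    · have hws := W.map_add_ge hx₁ hx₂ hs
      have h2s : 2 * (x₁ + x₂) ≠ 0 := mul_ne_zero h2 hs
      have hw2s : W.w (2 * (x₁ + x₂)) = W.w (x₁ + x₂) := by
        rw [W.map_mul h2 hs, hw2, zero_add]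
      obtain ⟨hU, hwU⟩ := W.map_add_of_gt h2s hb' (by grind)
      have hT1 : x₁ * x₂ * (2 * (x₁ + x₂) + b') ≠ 0 := mul_ne_zero hx12 hU
      have hwT1 : W.w (x₁ * x₂ * (2 * (x₁ + x₂) + b')) = W.w x₁ + W.w x₂ := by
        rw [W.map_mul hx12 hU, hwU, hwb, hw12, add_zero]
      have h2a : 2 * a' ≠ 0 := mul_ne_zero h2 ha'
      have hT2 : 2 * a' * (x₁ + x₂) ≠ 0 := mul_ne_zero h2a hs
      have hwT2 : W.w (2 * a' * (x₁ + x₂)) = W.w a' + W.w (x₁ + x₂) := by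
        rw [W.map_mul h2a hs, W.map_mul h2 ha', hw2, zero_add]
      have := W.map_add_ge hT1 hT2 hRne
      grind
  grind

end CaseB

section Induction

variable {a' b' : L} {p : ℕ} {ξ : ℕ → L} (S : H9MultSeq a' b' p ξ)
  (ha' : a' ≠ 0) (h2 : (2 : L) ≠ 0) (hw2 : W.w 2 = 0) (hb' : b' ≠ 0) (hwb : W.w b' = 0)

include S ha' h2 hw2 hb' hwb

/-- The level of `ξ k` is of type `k`. -/
theorem lev_isType (hβ : 0 < W.w (ξ 1)) (hβn : W.w (ξ 1) < W.w a') :
    ∀ n : ℕ, ∀ k : ℕ, 1 ≤ k → k ≤ n + 1 → k ≤ p - 1 →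
      IsType (W.w (ξ 1)) (W.w a') (k : ℤ) (W.lev (W.w a') (ξ k)) := by
  intro n
  induction n with
  | zero =>
    intro k hk1 hk2 _
    have : k = 1 := by omega
    subst this
    refine ⟨0, Or.inl ?_⟩
    unfold lev
    simp only [Nat.cast_one, one_smul, mul_zero, zero_smul, sub_zero]
    grind
  | succ n ih =>
    intro k hk1 hk2 hkp
    rcases Nat.lt_or_ge k (n + 2) with hlt | hge
    · exact ih k hk1 (by omega) hkp
    have hk : k = n + 2 := by omega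
    subst hk
    have hξ1 : ξ 1 ≠ 0 := S.ne_zero 1 le_rfl (by omega)
    rcases Nat.eq_zero_or_pos n with hn | hn
    · subst hn
      have hξ2 : ξ 2 ≠ 0 := S.ne_zero 2 (by omega) (by omega)
      have := W.dbl_lev ha' h2 hw2 hb' hwb hξ1 hβ hβn hξ2 S.dbl
      simp only [zero_add]
      rw [this]
      rcases min_choice (W.w (ξ 1) + W.w (ξ 1)) (W.w a' + W.w a' - W.w (ξ 1) - W.w (ξ 1))
        with h | h
      · exact ⟨0, Or.inl (by rw [h]; push_cast; module)⟩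
      · exact ⟨1, Or.inr (by rw [h]; push_cast; module)⟩
    · have hk' : 2 ≤ n + 1 := by omega
      have hk'p : n + 1 ≤ p - 2 := by omega
      have hX : ξ (n + 1) ≠ 0 := S.ne_zero (n + 1) (by omega) (by omega)
      have hYp : ξ (n + 1 + 1) ≠ 0 := S.ne_zero (n + 1 + 1) (by omega) (by omega)
      have hYm : ξ (n + 1 - 1) ≠ 0 := S.ne_zero (n + 1 - 1) (by omega) (by omega)
      have tp := W.twoPoint ha' h2 hw2 hb' hwb hX hξ1 hβ hβn hYp hYm (S.ne (n + 1) hk' hk'p)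
        (S.s1 (n + 1) hk' hk'p) (S.s2 (n + 1) hk' hk'p)
      have hCk := ih (n + 1) (by omega) le_rfl (by omega)
      have hCm := ih (n + 1 - 1) (by omega) (by omega) (by omega)
      have hcm : ((n + 1 - 1 : ℕ) : ℤ) = ((n + 1 : ℕ) : ℤ) - 1 := by
        rw [Nat.cast_sub (by omega)]; simp
      have hcp : ((n + 2 : ℕ) : ℤ) = ((n + 1 : ℕ) : ℤ) + 1 := by push_cast; ring
      rw [hcm] at hCm
      rw [hcp]
      have fold := isType_fold hCk
      rcases tp with ⟨tp1, tp2⟩ | ⟨tp1, tp2⟩ <;> rcases fold with ⟨f1, f2⟩ | ⟨f1, f2⟩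
      · rw [← tp1] at f1
        rw [← tp2] at f2
        exact isType_both hCm f2 f1
      · rw [← tp1] at f1
        exact f1
      · rw [← tp2] at f2
        exact f2
      · rw [← tp1] at f1
        rw [← tp2] at f2
        exact isType_both hCm f1 f2


/-- In the main case, `p β ∈ 2 ℤ n`. -/
theorem level_main (hβ : 0 < W.w (ξ 1)) (hβn : W.w (ξ 1) < W.w a') (hp5 : 5 ≤ p) :
    ∃ m : ℤ, (p : ℤ) • W.w (ξ 1) = (2 * m) • W.w a' := by
  have hξ1 : ξ 1 ≠ 0 := S.ne_zero 1 le_rfl (by omega)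
  have hξ2 : ξ 2 ≠ 0 := S.ne_zero 2 (by omega) (by omega)
  have hl1 : W.lev (W.w a') (ξ 1) = W.w (ξ 1) := by
    unfold lev; grind
  have hl2 := W.dbl_lev ha' h2 hw2 hb' hwb hξ1 hβ hβn hξ2 S.dbl
  have tp1 := W.lev_isType S ha' h2 hw2 hb' hwb hβ hβn (p - 1) (p - 1) (by omega) (by omega)
    le_rfl
  have tp2 := W.lev_isType S ha' h2 hw2 hb' hwb hβ hβn (p - 1) (p - 2) (by omega) (by omega)
    (by omega)
  rw [S.symm 1 le_rfl (by omega), hl1] at tp1
  rw [S.symm 2 (by omega) (by omega), hl2] at tp2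
  have hc1 : ((p - 1 : ℕ) : ℤ) = (p : ℤ) - 1 := by
    rw [Nat.cast_sub (by omega)]; simp
  have hc2 : ((p - 2 : ℕ) : ℤ) = (p : ℤ) - 2 := by
    rw [Nat.cast_sub (by omega)]; simp
  rw [hc1] at tp1
  rw [hc2] at tp2
  obtain ⟨m₁, tp1⟩ := tp1
  obtain ⟨m₂, tp2⟩ := tp2
  rcases tp1 with tp1 | tp1
  · -- `(p - 2) β = 2 m₁ n`
    rcases min_choice (W.w (ξ 1) + W.w (ξ 1)) (W.w a' + W.w a' - W.w (ξ 1) - W.w (ξ 1))
      with h | h <;> rw [h] at tp2 <;> rcases tp2 with tp2 | tp2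
    · exact ⟨m₁ + m₁ - m₂, by linear_combination (norm := module) (-2 : ℤ) • tp1 + tp2⟩
    · exact ⟨m₂, by linear_combination (norm := module) tp2⟩
    · exact ⟨m₂ + 1, by linear_combination (norm := module) (-1 : ℤ) • tp2⟩
    · exact ⟨m₁ + m₁ - m₂ + 1, by
        linear_combination (norm := module) (-2 : ℤ) • tp1 - tp2⟩
  · exact ⟨m₁, by linear_combination (norm := module) tp1⟩


/-- Case B is impossible: levels alternate between `n` and `0`. -/
theorem levB (hn : 0 < W.w a') (hβ : W.w a' ≤ W.w (ξ 1)) :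
    ∀ n : ℕ, ∀ k : ℕ, 1 ≤ k → k ≤ n + 1 → k ≤ p - 1 →
      (Odd k → W.w a' ≤ W.w (ξ k)) ∧ (Even k → W.w (ξ k) ≤ 0) := by
  intro n
  induction n with
  | zero =>
    intro k hk1 hk2 _
    have : k = 1 := by omega
    subst this
    exact ⟨fun _ => hβ, fun h => absurd h (by decide)⟩
  | succ n ih =>
    intro k hk1 hk2 hkp
    rcases Nat.lt_or_ge k (n + 2) with hlt | hge
    · exact ih k hk1 (by omega) hkp
    have hk : k = n + 2 := by omega
    subst hk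
    have hξ1 : ξ 1 ≠ 0 := S.ne_zero 1 le_rfl (by omega)
    rcases Nat.eq_zero_or_pos n with hn0 | hn0
    · subst hn0
      have hξ2 : ξ 2 ≠ 0 := S.ne_zero 2 (by omega) (by omega)
      have := W.dblB ha' h2 hw2 hb' hwb hn hξ1 hβ hξ2 S.dbl
      exact ⟨fun h => absurd h (by decide), fun _ => this⟩
    · have hk' : 2 ≤ n + 1 := by omega
      have hk'p : n + 1 ≤ p - 2 := by omega
      have hX : ξ (n + 1) ≠ 0 := S.ne_zero (n + 1) (by omega) (by omega)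
      have hYp : ξ (n + 1 + 1) ≠ 0 := S.ne_zero (n + 1 + 1) (by omega) (by omega)
      have hYm : ξ (n + 1 - 1) ≠ 0 := S.ne_zero (n + 1 - 1) (by omega) (by omega)
      have hCk := ih (n + 1) (by omega) le_rfl (by omega)
      have hCm := ih (n + 1 - 1) (by omega) (by omega) (by omega)
      constructor
      · intro hodd
        have hev : Even (n + 1) := by
          rcases Nat.even_or_odd (n + 1) with h | h
          · exact h
          · exfalso
            have : Even (n + 1 + 1) := h.add_one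
            exact (Nat.not_even_iff_odd.mpr hodd) this
        have hoddm : Odd (n + 1 - 1) := by
          rcases Nat.even_or_odd (n + 1 - 1) with h | h
          · exfalso
            have h' : Even (n + 1 - 1 + 2) := h.add (by decide)
            have : n + 1 - 1 + 2 = n + 2 := by omega
            rw [this] at h'
            exact (Nat.not_even_iff_odd.mpr hodd) h'
          · exact h
        exact W.stepB_even ha' h2 hw2 hb' hwb hn hX hξ1 hYp hYm (hCk.2 hev) hβ (hCm.1 hoddm)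
          (S.s2 (n + 1) hk' hk'p)
      · intro hev
        have hodd : Odd (n + 1) := by
          rcases Nat.even_or_odd (n + 1) with h | h
          · exfalso
            have : Odd (n + 1 + 1) := h.add_one
            exact (Nat.not_even_iff_odd.mpr this) hev
          · exact h
        exact W.stepB_odd ha' h2 hw2 hb' hwb hn hX hξ1 hYp hYm (S.ne (n + 1) hk' hk'p)
          (hCk.1 hodd) hβ (S.s1 (n + 1) hk' hk'p) (S.s2 (n + 1) hk' hk'p)

/-- **Level core.** If `0 < w (ξ 1)` then `w (ξ 1) < w a'` and `p • w (ξ 1) ∈ 2 ℤ • w a'`. -/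
theorem level_core (hp5 : 5 ≤ p) (hodd : Odd p) (hn : 0 < W.w a') (hβ : 0 < W.w (ξ 1)) :
    W.w (ξ 1) < W.w a' ∧ ∃ m : ℤ, (p : ℤ) • W.w (ξ 1) = (2 * m) • W.w a' := by
  have hlt : W.w (ξ 1) < W.w a' := by
    by_contra hcon
    have hge : W.w a' ≤ W.w (ξ 1) := not_lt.mp hcon
    have := (W.levB S ha' h2 hw2 hb' hwb hn hge (p - 1) (p - 1) (by omega) (by omega) le_rfl).2
      (by
        obtain ⟨j, hj⟩ := hodd
        exact ⟨j, by omega⟩)
    rw [S.symm 1 le_rfl (by omega)] at this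
    grind
  exact ⟨hlt, W.level_main S ha' h2 hw2 hb' hwb hβ hlt hp5⟩

end Induction

theorem h9_nsmul_pos_iff {x : G} {n : ℕ} (hn : 0 < n) : 0 < n • x ↔ 0 < x := by
  constructor
  · intro h
    by_contra hcon
    have hx : x ≤ 0 := not_lt.mp hcon
    have : n • x ≤ 0 := nsmul_nonpos hx n
    exact absurd h (not_lt.mpr this)
  · intro h
    exact nsmul_pos h (by omega)

/-- **Level core**, divided by `p`. -/
theorem level_core_div {a' b' : L} {p : ℕ} {ξ : ℕ → L} (S : H9MultSeq a' b' p ξ)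
    (ha' : a' ≠ 0) (h2 : (2 : L) ≠ 0) (hw2 : W.w 2 = 0) (hb' : b' ≠ 0) (hwb : W.w b' = 0)
    (hp5 : 5 ≤ p) (hodd : Odd p) (ϖ : G) (hϖ : W.w a' = p • ϖ) (hn : 0 < W.w a')
    (hβ : 0 < W.w (ξ 1)) :
    W.w (ξ 1) < W.w a' ∧ ∃ j : ℕ, 0 < j ∧ W.w (ξ 1) = (2 * j) • ϖ := by
  obtain ⟨hlt, m, hm⟩ := W.level_core S ha' h2 hw2 hb' hwb hp5 hodd hn hβ
  refine ⟨hlt, ?_⟩
  have hp0 : 0 < p := by omega
  have hϖpos : 0 < ϖ := by
    rw [hϖ] at hn
    exact (h9_nsmul_pos_iff hp0).mp hn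
  have h1 : (p : ℤ) • W.w (ξ 1) = (p : ℤ) • ((2 * m) • ϖ) := by
    rw [hm, hϖ, natCast_zsmul, smul_comm]
  have h2' : W.w (ξ 1) = (2 * m) • ϖ :=
    zsmul_right_injective (by exact_mod_cast hp0.ne') h1
  have hmpos : 0 < m := by
    by_contra hcon
    have hm0 : m ≤ 0 := not_lt.mp hcon
    have : (2 * m) • ϖ ≤ 0 := by
      have h3 : (2 * m) • ϖ = -((-(2 * m)) • ϖ) := by rw [neg_smul, neg_neg]
      rw [h3, neg_nonpos]
      exact zsmul_nonneg hϖpos.le (by omega)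
    rw [← h2'] at this
    exact absurd hβ (not_lt.mpr this)
  refine ⟨m.toNat, by omega, ?_⟩
  rw [h2', ← natCast_zsmul]
  congr 1
  push_cast
  rw [Int.toNat_of_nonneg hmpos.le]

end H9AddVal

end Fermat.Agent.H9
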