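import Fermat.Agent.S05.AddVal

/-!
# The two-point level rule (helper9, for S05)

For the curve `ω² = ξ (4 ξ² + b' ξ + 4 a')` with `w b' = 0 < w a' = n'`, the *level* of a point
with coordinate `ξ` is `clamp (w ξ) 0 n'`. If `P₂` has level `0 < β < n'` and `P₁` has level
`α`, the levels of `P₁ ± P₂` are `|α - β|` and `min (α + β) (2 n' - α - β)` in some order.
-/

set_option autoImplicit false
set_option linter.unusedSectionVars false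

namespace Fermat.Agent.H9

namespace H9AddVal

variable {L : Type*} [Field L] {G : Type*} [AddCommGroup G] [LinearOrder G]
  [IsOrderedAddMonoid G] (W : H9AddVal L G)

/-- The level of a coordinate: its valuation clamped to `[0, n]`. -/
def lev (n : G) (x : L) : G := min (max (W.w x) 0) n

/-- Pure order-theoretic core of the two-point rule. -/
theorem twoPoint_core (a β n d m sp sm : G)
    (hβ : 0 < β) (hβn : β < n)
    -- valuation of `D = x₁ - x₂`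
    (hd1 : a < β → d = a) (hd2 : β < a → d = β) (hd3 : a = β → β ≤ d)
    -- valuation of `M = x₁ x₂ - a'`
    (hm1 : a + β < n → m = a + β) (hm2 : n < a + β → m = n) (hm3 : a + β = n → n ≤ m)
    -- product relation
    (hprod : sp + sm + (d + d) = m + m)
    -- sum relation, via Newton polygon
    (hsum : (∃ s ns : G, s + (d + d) = ns ∧ s + s < sp + sm ∧
        ((sp = s ∧ sm = sp + sm - s) ∨ (sm = s ∧ sp = sp + sm - s)) ∧
        (0 < a → a < n → ns = a + β) ∧ (n ≤ a → n + β ≤ ns) ∧ (a = 0 → β ≤ ns) ∧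
        (a < 0 → a + a + β ≤ ns)) ∨
      (sp = sm ∧ (0 < a → a < n → ∃ s : G, s + (d + d) = a + β ∧ sp + sm ≤ s + s))) :
    (min (max sp 0) n = max (min (max a 0) n - β) (β - min (max a 0) n) ∧
      min (max sm 0) n = min (min (max a 0) n + β) (n + n - min (max a 0) n - β)) ∨
    (min (max sm 0) n = max (min (max a 0) n - β) (β - min (max a 0) n) ∧
      min (max sp 0) n = min (min (max a 0) n + β) (n + n - min (max a 0) n - β)) := by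
  rcases hsum with ⟨s, ns, h1, h2, h3, h4, h5, h6, h7⟩ | ⟨h1, hS⟩
  · rcases lt_trichotomy a 0 with ha | ha | ha
    · grind
    · grind
    · rcases lt_or_ge a n with han | han
      · have := h4 ha han
        rcases lt_trichotomy a β with hab | hab | hab <;>
          rcases lt_trichotomy (a + β) n with habn | habn | habn <;> grind
      · grind
  · rcases lt_trichotomy a 0 with ha | ha | ha
    · grind
    · grind
    · rcases lt_or_ge a n with han | han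
      · obtain ⟨s, hs1, hs2⟩ := hS ha han
        rcases lt_trichotomy a β with hab | hab | hab <;>
          rcases lt_trichotomy (a + β) n with habn | habn | habn <;> grind
      · grind

end H9AddVal

end Fermat.Agent.H9

namespace Fermat.Agent.H9

namespace H9AddVal

variable {L : Type*} [Field L] {G : Type*} [AddCommGroup G] [LinearOrder G]
  [IsOrderedAddMonoid G] (W : H9AddVal L G)

section NS

variable {a' b' x₁ x₂ : L} (ha' : a' ≠ 0) (h2 : (2 : L) ≠ 0) (hw2 : W.w 2 = 0)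
  (hb' : b' ≠ 0) (hwb : W.w b' = 0) (hx₁ : x₁ ≠ 0) (hx₂ : x₂ ≠ 0)
  (hβ : 0 < W.w x₂) (hβn : W.w x₂ < W.w a')

include ha' h2 hw2 hb' hwb hx₁ hx₂ hβ hβn

/-- valuation of `2 (x₁ + x₂)` is bounded below by `min (w x₁) (w x₂)` -/
theorem ns_two_mul_add (hs : x₁ + x₂ ≠ 0) :
    2 * (x₁ + x₂) ≠ 0 ∧ W.w (2 * (x₁ + x₂)) = W.w (x₁ + x₂) := by
  refine ⟨mul_ne_zero h2 hs, ?_⟩
  rw [W.map_mul h2 hs, hw2, zero_add]

theorem ns_F1 (h0 : 0 < W.w x₁) (hn : W.w x₁ < W.w a') :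
    x₁ * x₂ * (2 * (x₁ + x₂) + b') + 2 * a' * (x₁ + x₂) ≠ 0 ∧
    W.w (x₁ * x₂ * (2 * (x₁ + x₂) + b') + 2 * a' * (x₁ + x₂)) = W.w x₁ + W.w x₂ := by
  have hx12 : x₁ * x₂ ≠ 0 := mul_ne_zero hx₁ hx₂
  have hw12 : W.w (x₁ * x₂) = W.w x₁ + W.w x₂ := W.map_mul hx₁ hx₂
  by_cases hs : x₁ + x₂ = 0
  · rw [hs]
    simp only [mul_zero, zero_add, add_zero]
    refine ⟨mul_ne_zero hx12 hb', ?_⟩
    rw [W.map_mul hx12 hb', hwb, hw12, add_zero]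
  · have hsge := W.map_add_ge hx₁ hx₂ hs
    obtain ⟨h2s, hw2s⟩ := W.ns_two_mul_add ha' h2 hw2 hb' hwb hx₁ hx₂ hβ hβn hs
    have hU := W.map_add_of_gt h2s hb' (x := 2 * (x₁ + x₂)) (y := b') (by grind)
    have hT1 : x₁ * x₂ * (2 * (x₁ + x₂) + b') ≠ 0 := mul_ne_zero hx12 hU.1
    have hwT1 : W.w (x₁ * x₂ * (2 * (x₁ + x₂) + b')) = W.w x₁ + W.w x₂ := by
      rw [W.map_mul hx12 hU.1, hU.2, hwb, hw12, add_zero]
    have h2a : 2 * a' ≠ 0 := mul_ne_zero h2 ha'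
    have hT2 : 2 * a' * (x₁ + x₂) ≠ 0 := mul_ne_zero h2a hs
    have hwT2 : W.w (2 * a' * (x₁ + x₂)) = W.w a' + W.w (x₁ + x₂) := by
      rw [W.map_mul h2a hs, W.map_mul h2 ha', hw2, zero_add]
    have := W.map_add_of_lt hT1 hT2 (by grind)
    exact ⟨this.1, by rw [this.2, hwT1]⟩

theorem ns_F2 (hn : W.w a' ≤ W.w x₁)
    (hNS : x₁ * x₂ * (2 * (x₁ + x₂) + b') + 2 * a' * (x₁ + x₂) ≠ 0) :
    W.w a' + W.w x₂ ≤ W.w (x₁ * x₂ * (2 * (x₁ + x₂) + b') + 2 * a' * (x₁ + x₂)) := by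
  have hx12 : x₁ * x₂ ≠ 0 := mul_ne_zero hx₁ hx₂
  have hw12 : W.w (x₁ * x₂) = W.w x₁ + W.w x₂ := W.map_mul hx₁ hx₂
  obtain ⟨hs, hws⟩ := W.map_add_of_gt hx₁ hx₂ (lt_of_lt_of_le hβn hn)
  obtain ⟨h2s, hw2s⟩ := W.ns_two_mul_add ha' h2 hw2 hb' hwb hx₁ hx₂ hβ hβn hs
  have hU := W.map_add_of_gt h2s hb' (x := 2 * (x₁ + x₂)) (y := b') (by grind)
  have hT1 : x₁ * x₂ * (2 * (x₁ + x₂) + b') ≠ 0 := mul_ne_zero hx12 hU.1
  have hwT1 : W.w (x₁ * x₂ * (2 * (x₁ + x₂) + b')) = W.w x₁ + W.w x₂ := by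
    rw [W.map_mul hx12 hU.1, hU.2, hwb, hw12, add_zero]
  have h2a : 2 * a' ≠ 0 := mul_ne_zero h2 ha'
  have hT2 : 2 * a' * (x₁ + x₂) ≠ 0 := mul_ne_zero h2a hs
  have hwT2 : W.w (2 * a' * (x₁ + x₂)) = W.w a' + W.w (x₁ + x₂) := by
    rw [W.map_mul h2a hs, W.map_mul h2 ha', hw2, zero_add]
  have := W.map_add_ge hT1 hT2 hNS
  grind

theorem ns_F3 (h0 : W.w x₁ = 0)
    (hNS : x₁ * x₂ * (2 * (x₁ + x₂) + b') + 2 * a' * (x₁ + x₂) ≠ 0) :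
    W.w x₂ ≤ W.w (x₁ * x₂ * (2 * (x₁ + x₂) + b') + 2 * a' * (x₁ + x₂)) := by
  have hx12 : x₁ * x₂ ≠ 0 := mul_ne_zero hx₁ hx₂
  have hw12 : W.w (x₁ * x₂) = W.w x₁ + W.w x₂ := W.map_mul hx₁ hx₂
  obtain ⟨hs, hws⟩ := W.map_add_of_lt hx₁ hx₂ (by rw [h0]; exact hβ)
  obtain ⟨h2s, hw2s⟩ := W.ns_two_mul_add ha' h2 hw2 hb' hwb hx₁ hx₂ hβ hβn hs
  have h2a : 2 * a' ≠ 0 := mul_ne_zero h2 ha'
  have hT2 : 2 * a' * (x₁ + x₂) ≠ 0 := mul_ne_zero h2a hs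
  have hwT2 : W.w (2 * a' * (x₁ + x₂)) = W.w a' + W.w (x₁ + x₂) := by
    rw [W.map_mul h2a hs, W.map_mul h2 ha', hw2, zero_add]
  by_cases hU : 2 * (x₁ + x₂) + b' = 0
  · rw [hU, mul_zero, zero_add, hwT2]
    grind
  · have hwU := W.map_add_ge h2s hb' hU
    have hT1 : x₁ * x₂ * (2 * (x₁ + x₂) + b') ≠ 0 := mul_ne_zero hx12 hU
    have hwT1 : W.w (x₁ * x₂ * (2 * (x₁ + x₂) + b')) =
        W.w x₁ + W.w x₂ + W.w (2 * (x₁ + x₂) + b') := by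
      rw [W.map_mul hx12 hU, hw12]
    have := W.map_add_ge hT1 hT2 hNS
    grind

theorem ns_F4 (h0 : W.w x₁ < 0)
    (hNS : x₁ * x₂ * (2 * (x₁ + x₂) + b') + 2 * a' * (x₁ + x₂) ≠ 0) :
    W.w x₁ + W.w x₁ + W.w x₂ ≤
      W.w (x₁ * x₂ * (2 * (x₁ + x₂) + b') + 2 * a' * (x₁ + x₂)) := by
  have hx12 : x₁ * x₂ ≠ 0 := mul_ne_zero hx₁ hx₂
  have hw12 : W.w (x₁ * x₂) = W.w x₁ + W.w x₂ := W.map_mul hx₁ hx₂
  obtain ⟨hs, hws⟩ := W.map_add_of_lt hx₁ hx₂ (lt_trans h0 hβ)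
  obtain ⟨h2s, hw2s⟩ := W.ns_two_mul_add ha' h2 hw2 hb' hwb hx₁ hx₂ hβ hβn hs
  have hU := W.map_add_of_lt h2s hb' (x := 2 * (x₁ + x₂)) (y := b') (by grind)
  have hT1 : x₁ * x₂ * (2 * (x₁ + x₂) + b') ≠ 0 := mul_ne_zero hx12 hU.1
  have hwT1 : W.w (x₁ * x₂ * (2 * (x₁ + x₂) + b')) = W.w x₁ + W.w x₂ + W.w x₁ := by
    rw [W.map_mul hx12 hU.1, hU.2, hw2s, hws, hw12]
  have h2a : 2 * a' ≠ 0 := mul_ne_zero h2 ha'
  have hT2 : 2 * a' * (x₁ + x₂) ≠ 0 := mul_ne_zero h2a hs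
  have hwT2 : W.w (2 * a' * (x₁ + x₂)) = W.w a' + W.w (x₁ + x₂) := by
    rw [W.map_mul h2a hs, W.map_mul h2 ha', hw2, zero_add]
  have := W.map_add_ge hT1 hT2 hNS
  grind

/-- **Two-point level rule.** -/
theorem twoPoint {xp xm : L} (hxp : xp ≠ 0) (hxm : xm ≠ 0) (hne : x₁ ≠ x₂)
    (s1 : xp * xm * (x₁ - x₂) ^ 2 = (x₁ * x₂ - a') ^ 2)
    (s2 : (xp + xm) * (x₁ - x₂) ^ 2 =
      x₁ * x₂ * (2 * (x₁ + x₂) + b') + 2 * a' * (x₁ + x₂)) :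
    (W.lev (W.w a') xp = max (W.lev (W.w a') x₁ - W.w x₂) (W.w x₂ - W.lev (W.w a') x₁) ∧
      W.lev (W.w a') xm = min (W.lev (W.w a') x₁ + W.w x₂)
        (W.w a' + W.w a' - W.lev (W.w a') x₁ - W.w x₂)) ∨
    (W.lev (W.w a') xm = max (W.lev (W.w a') x₁ - W.w x₂) (W.w x₂ - W.lev (W.w a') x₁) ∧
      W.lev (W.w a') xp = min (W.lev (W.w a') x₁ + W.w x₂)
        (W.w a' + W.w a' - W.lev (W.w a') x₁ - W.w x₂)) := by
  have hD : x₁ - x₂ ≠ 0 := sub_ne_zero.mpr hne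
  have hD2 : (x₁ - x₂) ^ 2 ≠ 0 := pow_ne_zero 2 hD
  have hx12 : x₁ * x₂ ≠ 0 := mul_ne_zero hx₁ hx₂
  have hw12 : W.w (x₁ * x₂) = W.w x₁ + W.w x₂ := W.map_mul hx₁ hx₂
  have hM : x₁ * x₂ - a' ≠ 0 := by
    intro h0
    rw [h0] at s1
    have : xp * xm * (x₁ - x₂) ^ 2 ≠ 0 := mul_ne_zero (mul_ne_zero hxp hxm) hD2
    exact this (by rw [s1]; ring)
  have hprod : W.w xp + W.w xm + (W.w (x₁ - x₂) + W.w (x₁ - x₂)) =
      W.w (x₁ * x₂ - a') + W.w (x₁ * x₂ - a') := by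
    have := congrArg W.w s1
    rw [W.map_mul (mul_ne_zero hxp hxm) hD2, W.map_mul hxp hxm, W.map_sq hD, W.map_sq hM] at this
    exact this
  have hsumrel : xp + xm ≠ 0 →
      x₁ * x₂ * (2 * (x₁ + x₂) + b') + 2 * a' * (x₁ + x₂) ≠ 0 ∧
      W.w (xp + xm) + (W.w (x₁ - x₂) + W.w (x₁ - x₂)) =
        W.w (x₁ * x₂ * (2 * (x₁ + x₂) + b') + 2 * a' * (x₁ + x₂)) := by
    intro hS
    have hne' : (xp + xm) * (x₁ - x₂) ^ 2 ≠ 0 := mul_ne_zero hS hD2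
    refine ⟨by rwa [← s2], ?_⟩
    have := congrArg W.w s2
    rw [W.map_mul hS hD2, W.map_sq hD] at this
    exact this
  unfold lev
  apply H9AddVal.twoPoint_core (W.w x₁) (W.w x₂) (W.w a') (W.w (x₁ - x₂)) (W.w (x₁ * x₂ - a'))
    (W.w xp) (W.w xm) hβ hβn
  · exact fun h => (W.map_sub_of_lt hx₁ hx₂ h).2
  · exact fun h => (W.map_sub_of_gt hx₁ hx₂ h).2
  · intro h
    have := W.map_sub_ge hx₁ hx₂ hD
    grind
  · intro h
    exact (W.map_sub_of_lt hx12 ha' (by rwa [hw12])).2.trans hw12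
  · intro h
    exact (W.map_sub_of_gt hx12 ha' (by rwa [hw12])).2
  · intro h
    have := W.map_sub_ge hx12 ha' hM
    grind
  · exact hprod
  · rcases W.newton hxp hxm with ⟨hS, hlt, hor⟩ | ⟨heq, hge⟩
    · left
      obtain ⟨hNS, hrel⟩ := hsumrel hS
      refine ⟨W.w (xp + xm), _, hrel, hlt, hor, ?_, ?_, ?_, ?_⟩
      · exact fun h0 hn => (W.ns_F1 ha' h2 hw2 hb' hwb hx₁ hx₂ hβ hβn h0 hn).2
      · exact fun hn => W.ns_F2 ha' h2 hw2 hb' hwb hx₁ hx₂ hβ hβn hn hNS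
      · exact fun h0 => W.ns_F3 ha' h2 hw2 hb' hwb hx₁ hx₂ hβ hβn h0 hNS
      · exact fun h0 => W.ns_F4 ha' h2 hw2 hb' hwb hx₁ hx₂ hβ hβn h0 hNS
    · right
      refine ⟨heq, fun h0 hn => ?_⟩
      obtain ⟨hNS, hwNS⟩ := W.ns_F1 ha' h2 hw2 hb' hwb hx₁ hx₂ hβ hβn h0 hn
      have hS : xp + xm ≠ 0 := by
        intro h0'
        rw [h0', zero_mul] at s2
        exact hNS s2.symm
      refine ⟨W.w (xp + xm), ?_, hge hS⟩
      rw [(hsumrel hS).2, hwNS]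

end NS

end H9AddVal

end Fermat.Agent.H9
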